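/-
S05 project (Frey curve mod-p representation is unramified at odd q ≠ p).
Basic definitions: x-coordinate of an affine point, integrality of a Weierstrass equation
with respect to a valuation subring.
-/
import Mathlib

set_option autoImplicit false

namespace Fermat.Agent.S05

open WeierstrassCurve WeierstrassCurve.Affine WeierstrassCurve.Affine.Point

variable {K : Type*} [Field K]

/-- The `x`-coordinate of an affine point, with junk value `0` at the point at infinity. -/
def xc {W : Affine K} : W.Point → K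
  | .zero => 0
  | .some x _ _ => x

@[simp] lemma xc_zero {W : Affine K} : xc (0 : W.Point) = 0 := rfl

@[simp] lemma xc_some {W : Affine K} {x y : K} (h : W.Nonsingular x y) :
    xc (Point.some x y h) = x := rfl

@[simp] lemma xc_neg {W : Affine K} (P : W.Point) : xc (-P) = xc P := by
  rcases P with _ | ⟨x, y, h⟩
  · rfl
  · rfl

/-- The `2`-division cubic `4x³ + b₂x² + 2b₄x + b₆ = (2y + a₁x + a₃)²`. -/
def twoDiv (W : Affine K) (x : K) : K :=
  4 * x ^ 3 + W.b₂ * x ^ 2 + 2 * W.b₄ * x + W.b₆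

/-- The numerator `x⁴ - b₄x² - 2b₆x - b₈` of the duplication formula. -/
def dupNum (W : Affine K) (x : K) : K :=
  x ^ 4 - W.b₄ * x ^ 2 - 2 * W.b₆ * x - W.b₈

lemma twoDiv_eq_sq {W : Affine K} {x y : K} (h : W.Equation x y) :
    twoDiv W x = (2 * y + W.a₁ * x + W.a₃) ^ 2 := by
  rw [equation_iff] at h
  simp only [twoDiv, WeierstrassCurve.b₂, WeierstrassCurve.b₄, WeierstrassCurve.b₆]
  linear_combination (-4 : K) * h

/-- A point is nonzero iff it is of the form `some x y h`. -/
lemma exists_some_of_ne_zero {W : Affine K} {P : W.Point} (hP : P ≠ 0) :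
    ∃ x y, ∃ h : W.Nonsingular x y, P = Point.some x y h := by
  rcases P with _ | ⟨x, y, h⟩
  · exact absurd rfl hP
  · exact ⟨x, y, h, rfl⟩

lemma xc_eq_iff {W : Affine K} {P Q : W.Point} (hP : P ≠ 0) (hQ : Q ≠ 0) :
    xc P = xc Q ↔ P = Q ∨ P = -Q := by
  obtain ⟨x₁, y₁, h₁, rfl⟩ := exists_some_of_ne_zero hP
  obtain ⟨x₂, y₂, h₂, rfl⟩ := exists_some_of_ne_zero hQ
  simpa using Point.X_eq_iff (h₁ := h₁) (h₂ := h₂)

/-- A Weierstrass equation has coefficients in the valuation subring `A`. -/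
structure IntegralAt (W : Affine K) (A : ValuationSubring K) : Prop where
  a₁ : W.a₁ ∈ A
  a₂ : W.a₂ ∈ A
  a₃ : W.a₃ ∈ A
  a₄ : W.a₄ ∈ A
  a₆ : W.a₆ ∈ A

namespace IntegralAt

variable {W : Affine K} {A : ValuationSubring K} (hW : IntegralAt W A)
include hW

lemma two_mem : (2 : K) ∈ A := by exact_mod_cast natCast_mem A 2

lemma four_mem : (4 : K) ∈ A := by exact_mod_cast natCast_mem A 4

lemma b₂ : W.b₂ ∈ A := by
  simp only [WeierstrassCurve.b₂]
  exact add_mem (pow_mem hW.a₁ 2) (mul_mem hW.four_mem hW.a₂)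

lemma b₄ : W.b₄ ∈ A := by
  simp only [WeierstrassCurve.b₄]
  exact add_mem (mul_mem hW.two_mem hW.a₄) (mul_mem hW.a₁ hW.a₃)

lemma b₆ : W.b₆ ∈ A := by
  simp only [WeierstrassCurve.b₆]
  exact add_mem (pow_mem hW.a₃ 2) (mul_mem hW.four_mem hW.a₆)

lemma b₈ : W.b₈ ∈ A := by
  simp only [WeierstrassCurve.b₈]
  exact sub_mem (add_mem (sub_mem (add_mem (mul_mem (pow_mem hW.a₁ 2) hW.a₆)
    (mul_mem (mul_mem hW.four_mem hW.a₂) hW.a₆)) (mul_mem (mul_mem hW.a₁ hW.a₃) hW.a₄))
    (mul_mem hW.a₂ (pow_mem hW.a₃ 2))) (pow_mem hW.a₄ 2)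

end IntegralAt

/-- `P` lies in the kernel of reduction: `P = O` or `v(x(P)) > 1`. -/
def InKer (A : ValuationSubring K) {W : Affine K} (P : W.Point) : Prop :=
  P = 0 ∨ xc P ∉ A

/-- `(x, y)` is an integral point whose reduction is a nonsingular point of the reduced curve:
not both partial derivatives `a₁y - (3x² + 2a₂x + a₄)` and `2y + a₁x + a₃` are non-units. -/
def GoodPt (A : ValuationSubring K) (W : Affine K) (x y : K) : Prop :=
  x ∈ A ∧ y ∈ A ∧
    ¬(W.a₁ * y - (3 * x ^ 2 + 2 * W.a₂ * x + W.a₄) ∈ A.nonunits ∧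
      2 * y + W.a₁ * x + W.a₃ ∈ A.nonunits)

/-- `P` reduces to a nonsingular point (or to `O`): the "connected component" `E₀`. -/
def InE0 (A : ValuationSubring K) {W : Affine K} (P : W.Point) : Prop :=
  InKer A P ∨ ∃ (x y : K) (h : W.Nonsingular x y), P = Point.some x y h ∧ GoodPt A W x y

/-- A field automorphism (given as a function) which behaves like an element of the inertia group
of the valuation subring `A`: it preserves `A` and acts trivially on the residue field. -/
structure IsInertial (A : ValuationSubring K) (σ : K → K) : Prop where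
  mem_iff : ∀ x, σ x ∈ A ↔ x ∈ A
  sub_mem : ∀ x ∈ A, σ x - x ∈ A.nonunits

lemma inKer_zero (A : ValuationSubring K) {W : Affine K} : InKer A (0 : W.Point) := Or.inl rfl

lemma InKer.neg {A : ValuationSubring K} {W : Affine K} {P : W.Point} (h : InKer A P) :
    InKer A (-P) := by
  rcases h with h | h
  · left; rw [h, Point.neg_zero]
  · right; rwa [xc_neg]

end Fermat.Agent.S05
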