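/-
S05 project, T1: the classical addition-subtraction identities for `x`-coordinates
(`x(P+Q)·x(P-Q)` and `x(P+Q)+x(P-Q)` as rational functions of `x(P), x(Q)`), and the
duplication formula, for Mathlib's affine points on a Weierstrass curve over a field.
-/
import Fermat.Agent.S05.Basic

set_option autoImplicit false

namespace Fermat.Agent.S05

open WeierstrassCurve WeierstrassCurve.Affine WeierstrassCurve.Affine.Point

variable {K : Type*} [Field K] [DecidableEq K] {W : Affine K}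

/-- `x(P+Q)` for `x₁ ≠ x₂`, explicit. -/
lemma xc_add_of_ne {x₁ y₁ x₂ y₂ : K} (h₁ : W.Nonsingular x₁ y₁) (h₂ : W.Nonsingular x₂ y₂)
    (hx : x₁ ≠ x₂) :
    xc (Point.some x₁ y₁ h₁ + Point.some x₂ y₂ h₂) =
      ((y₁ - y₂) ^ 2 + W.a₁ * (y₁ - y₂) * (x₁ - x₂) - (W.a₂ + x₁ + x₂) * (x₁ - x₂) ^ 2)
        / (x₁ - x₂) ^ 2 := by
  have hD : x₁ - x₂ ≠ 0 := sub_ne_zero.mpr hx
  rw [Point.add_of_X_ne hx, xc_some, slope_of_X_ne hx, addX]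
  field_simp
  ring

/-- `x(P-Q)` for `x₁ ≠ x₂`, explicit. -/
lemma xc_sub_of_ne {x₁ y₁ x₂ y₂ : K} (h₁ : W.Nonsingular x₁ y₁) (h₂ : W.Nonsingular x₂ y₂)
    (hx : x₁ ≠ x₂) :
    xc (Point.some x₁ y₁ h₁ - Point.some x₂ y₂ h₂) =
      ((y₁ + y₂ + W.a₁ * x₂ + W.a₃) ^ 2 + W.a₁ * (y₁ + y₂ + W.a₁ * x₂ + W.a₃) * (x₁ - x₂)
        - (W.a₂ + x₁ + x₂) * (x₁ - x₂) ^ 2) / (x₁ - x₂) ^ 2 := by
  have hD : x₁ - x₂ ≠ 0 := sub_ne_zero.mpr hx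
  rw [sub_eq_add_neg, Point.neg_some, Point.add_of_X_ne hx, xc_some, slope_of_X_ne hx, addX, negY]
  field_simp
  ring

theorem add_ne_zero_of_xc_ne {P Q : W.Point} (hx : xc P ≠ xc Q) :
    P + Q ≠ 0 := by
  intro h
  have : P = -Q := eq_neg_of_add_eq_zero_left h
  exact hx (by rw [this, xc_neg])

theorem sub_ne_zero_of_xc_ne {P Q : W.Point} (hx : xc P ≠ xc Q) :
    P - Q ≠ 0 := by
  intro h
  have : P = Q := sub_eq_zero.mp h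
  exact hx (by rw [this])

/-- Product form of the addition-subtraction law. -/
theorem xc_add_mul_xc_sub {P Q : W.Point} (hP : P ≠ 0) (hQ : Q ≠ 0) (hx : xc P ≠ xc Q) :
    xc (P + Q) * xc (P - Q) * (xc P - xc Q) ^ 2 =
      (xc P * xc Q) ^ 2 - W.b₄ * (xc P * xc Q) - W.b₆ * (xc P + xc Q) - W.b₈ := by
  obtain ⟨x₁, y₁, h₁, rfl⟩ := exists_some_of_ne_zero hP
  obtain ⟨x₂, y₂, h₂, rfl⟩ := exists_some_of_ne_zero hQ
  simp only [xc_some] at hx ⊢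
  have hD : x₁ - x₂ ≠ 0 := sub_ne_zero.mpr hx
  rw [xc_add_of_ne h₁ h₂ hx, xc_sub_of_ne h₁ h₂ hx]
  have e₁ := (equation_iff _ _).mp h₁.1
  have e₂ := (equation_iff _ _).mp h₂.1
  simp only [WeierstrassCurve.b₄, WeierstrassCurve.b₆, WeierstrassCurve.b₈]
  field_simp
  linear_combination
    (-x₁^3 + 2*x₁^2*x₂ - x₁^2*W.a₂ + x₁*y₁*W.a₁ + 2*x₁*x₂^2 + x₁*x₂*W.a₁^2 + 4*x₁*x₂*W.a₂
      + x₁*W.a₁*W.a₃ + x₁*W.a₄ + y₁^2 + y₁*W.a₃ - 2*x₂^3 - x₂^2*W.a₁^2 - 2*x₂^2*W.a₂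
      - 2*x₂*y₂*W.a₁ - x₂*W.a₁*W.a₃ - 2*y₂^2 - 2*y₂*W.a₃ + W.a₆) * e₁
    + (-4*x₁^3 + 2*x₁^2*x₂ - x₁^2*W.a₁^2 - 4*x₁^2*W.a₂ + 2*x₁*x₂^2 + x₁*x₂*W.a₁^2
      + 4*x₁*x₂*W.a₂ - x₁*W.a₁*W.a₃ - 2*x₁*W.a₄ - x₂^3 - x₂^2*W.a₂ + x₂*y₂*W.a₁
      + x₂*W.a₁*W.a₃ + x₂*W.a₄ + y₂^2 + y₂*W.a₃ - W.a₆) * e₂

/-- Sum form of the addition-subtraction law. -/
theorem xc_add_add_xc_sub {P Q : W.Point} (hP : P ≠ 0) (hQ : Q ≠ 0) (hx : xc P ≠ xc Q) :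
    (xc (P + Q) + xc (P - Q)) * (xc P - xc Q) ^ 2 =
      2 * (xc P + xc Q) * (xc P * xc Q) + W.b₂ * (xc P * xc Q) + W.b₄ * (xc P + xc Q)
        + W.b₆ := by
  obtain ⟨x₁, y₁, h₁, rfl⟩ := exists_some_of_ne_zero hP
  obtain ⟨x₂, y₂, h₂, rfl⟩ := exists_some_of_ne_zero hQ
  simp only [xc_some] at hx ⊢
  have hD : x₁ - x₂ ≠ 0 := sub_ne_zero.mpr hx
  rw [xc_add_of_ne h₁ h₂ hx, xc_sub_of_ne h₁ h₂ hx]
  have e₁ := (equation_iff _ _).mp h₁.1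
  have e₂ := (equation_iff _ _).mp h₂.1
  simp only [WeierstrassCurve.b₂, WeierstrassCurve.b₄, WeierstrassCurve.b₆]
  field_simp
  linear_combination 2 * e₁ + 2 * e₂

/-- `P + P = 0` iff the `2`-division cubic vanishes at `x(P)`. -/
theorem add_self_eq_zero_iff {P : W.Point} (hP : P ≠ 0) :
    P + P = 0 ↔ twoDiv W (xc P) = 0 := by
  obtain ⟨x, y, h, rfl⟩ := exists_some_of_ne_zero hP
  rw [xc_some, twoDiv_eq_sq h.1]
  constructor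
  · intro h0
    by_cases hy : y = W.negY x y
    · rw [negY] at hy
      have : 2 * y + W.a₁ * x + W.a₃ = 0 := by linear_combination hy
      rw [this]; ring
    · rw [Point.add_self_of_Y_ne hy] at h0
      exact absurd h0 (Point.some_ne_zero _)
  · intro h0
    have h0' : 2 * y + W.a₁ * x + W.a₃ = 0 := by
      exact pow_eq_zero_iff (two_ne_zero) |>.mp h0
    apply Point.add_self_of_Y_eq
    rw [negY]
    linear_combination h0'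

/-- Duplication formula for the `x`-coordinate. -/
theorem xc_add_self {P : W.Point} (hP : P ≠ 0) (h2 : P + P ≠ 0) :
    xc (P + P) * twoDiv W (xc P) = dupNum W (xc P) := by
  obtain ⟨x, y, h, rfl⟩ := exists_some_of_ne_zero hP
  have hy : y ≠ W.negY x y := by
    intro hy
    exact h2 (Point.add_self_of_Y_eq hy)
  have hψ : 2 * y + W.a₁ * x + W.a₃ ≠ 0 := by
    intro h0
    apply hy
    rw [negY]
    linear_combination h0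
  rw [Point.add_self_of_Y_ne hy, xc_some, xc_some, twoDiv_eq_sq h.1, slope_of_Y_ne rfl hy, addX,
    negY, dupNum]
  have e := (equation_iff _ _).mp h.1
  have hden : y - (-y - W.a₁ * x - W.a₃) = 2 * y + W.a₁ * x + W.a₃ := by ring
  rw [hden]
  set ψ := 2 * y + W.a₁ * x + W.a₃ with hψdef
  have key : (((3 * x ^ 2 + 2 * W.a₂ * x + W.a₄ - W.a₁ * y) / ψ) ^ 2 +
      W.a₁ * ((3 * x ^ 2 + 2 * W.a₂ * x + W.a₄ - W.a₁ * y) / ψ) - W.a₂ - x - x) * ψ ^ 2 =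
      (3 * x ^ 2 + 2 * W.a₂ * x + W.a₄ - W.a₁ * y) ^ 2 +
        W.a₁ * (3 * x ^ 2 + 2 * W.a₂ * x + W.a₄ - W.a₁ * y) * ψ - (W.a₂ + 2 * x) * ψ ^ 2 := by
    field_simp
    ring
  rw [key, hψdef]
  simp only [WeierstrassCurve.b₄, WeierstrassCurve.b₆, WeierstrassCurve.b₈]
  linear_combination (-8 * x - W.a₁ ^ 2 - 4 * W.a₂) * e

end Fermat.Agent.S05
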