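/-
M1 / S05, module T0: transfer of points, group law, Galois action and torsion along an
admissible change of variables of Weierstrass curves over a field.
Owner: helper19.
-/
import Mathlib
import Fermat.Prelude.Def_FLTPrelim_FreyPackage
import Fermat.Prelude.Def_FLTPrelim_GaloisRep
import Fermat.Prelude.Def_FLTPrelim_Ramification

set_option autoImplicit false
set_option linter.unusedSimpArgs false
set_option linter.unusedSectionVars false

open WeierstrassCurve WeierstrassCurve.Affine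

namespace Fermat.Agent.S05.Transfer

lemma some_congr {F : Type*} [Field F] {W : Affine F} {x x' y y' : F} (h : W.Nonsingular x y)
    (h' : W.Nonsingular x' y') (hx : x = x') (hy : y = y') :
    Point.some x y h = Point.some x' y' h' := by
  subst hx hy; rfl

variable {K : Type*} [Field K]

/-- The `x`-coordinate of the image of `(x, y)` under the variable change `C`. -/
def mapX (C : VariableChange K) (x : K) : K := (C.u : K) ^ 2 * x + C.r

/-- The `y`-coordinate of the image of `(x, y)` under the variable change `C`. -/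
def mapY (C : VariableChange K) (x y : K) : K :=
  (C.u : K) ^ 3 * y + (C.u : K) ^ 2 * C.s * x + C.t

variable {W₁ W₂ : WeierstrassCurve K} (C : VariableChange K)

lemma u_ne_zero : (C.u : K) ≠ 0 := C.u.ne_zero

lemma mapX_injective : Function.Injective (mapX C) := by
  intro x x' h
  have hu : (C.u : K) ^ 2 ≠ 0 := pow_ne_zero _ (u_ne_zero C)
  simp only [mapX] at h
  exact mul_left_cancel₀ hu (add_right_cancel h)

lemma mapX_eq_iff {x x' : K} : mapX C x = mapX C x' ↔ x = x' :=
  (mapX_injective C).eq_iff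

lemma mapY_injective (x : K) : Function.Injective (mapY C x) := by
  intro y y' h
  have hu : (C.u : K) ^ 3 ≠ 0 := pow_ne_zero _ (u_ne_zero C)
  simp only [mapY] at h
  exact mul_left_cancel₀ hu (add_right_cancel (add_right_cancel h))

lemma mapY_eq_iff {x y y' : K} : mapY C x y = mapY C x y' ↔ y = y' :=
  (mapY_injective C x).eq_iff

lemma evalEval_polynomial_map (h : W₁ = C • W₂) (x y : K) :
    W₂.toAffine.polynomial.evalEval (mapX C x) (mapY C x y) =
      (C.u : K) ^ 6 * W₁.toAffine.polynomial.evalEval x y := by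
  subst h
  have hu : (C.u : K) ≠ 0 := C.u.ne_zero
  simp only [evalEval_polynomial, variableChange_a₁, variableChange_a₂, variableChange_a₃,
    variableChange_a₄, variableChange_a₆, Units.val_inv_eq_inv_val, mapX, mapY]
  field_simp
  ring

lemma evalEval_polynomialY_map (h : W₁ = C • W₂) (x y : K) :
    W₂.toAffine.polynomialY.evalEval (mapX C x) (mapY C x y) =
      (C.u : K) ^ 3 * W₁.toAffine.polynomialY.evalEval x y := by
  subst h
  have hu : (C.u : K) ≠ 0 := C.u.ne_zero
  simp only [evalEval_polynomialY, variableChange_a₁, variableChange_a₂, variableChange_a₃,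
    variableChange_a₄, variableChange_a₆, Units.val_inv_eq_inv_val, mapX, mapY]
  field_simp
  ring

lemma evalEval_polynomialX_map (h : W₁ = C • W₂) (x y : K) :
    W₂.toAffine.polynomialX.evalEval (mapX C x) (mapY C x y) =
      (C.u : K) ^ 4 * W₁.toAffine.polynomialX.evalEval x y
        - C.s * (C.u : K) ^ 3 * W₁.toAffine.polynomialY.evalEval x y := by
  subst h
  have hu : (C.u : K) ≠ 0 := C.u.ne_zero
  simp only [evalEval_polynomialX, evalEval_polynomialY, variableChange_a₁, variableChange_a₂,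
    variableChange_a₃,
    variableChange_a₄, variableChange_a₆, Units.val_inv_eq_inv_val, mapX, mapY]
  field_simp
  ring

/-- (a) Transfer of the Weierstrass equation. -/
lemma equation_map_iff (h : W₁ = C • W₂) (x y : K) :
    W₂.toAffine.Equation (mapX C x) (mapY C x y) ↔ W₁.toAffine.Equation x y := by
  have hu : (C.u : K) ^ 6 ≠ 0 := pow_ne_zero _ (u_ne_zero C)
  rw [Equation, Equation, evalEval_polynomial_map C h, mul_eq_zero, or_iff_right hu]

/-- (a) Transfer of nonsingularity. -/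
lemma nonsingular_map_iff (h : W₁ = C • W₂) (x y : K) :
    W₂.toAffine.Nonsingular (mapX C x) (mapY C x y) ↔ W₁.toAffine.Nonsingular x y := by
  have hu : (C.u : K) ≠ 0 := u_ne_zero C
  have hu3 : (C.u : K) ^ 3 ≠ 0 := pow_ne_zero _ hu
  have hu4 : (C.u : K) ^ 4 ≠ 0 := pow_ne_zero _ hu
  rw [Nonsingular, Nonsingular, equation_map_iff C h, evalEval_polynomialX_map C h,
    evalEval_polynomialY_map C h]
  refine and_congr_right fun _ => ?_
  by_cases hY : W₁.toAffine.polynomialY.evalEval x y = 0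
  · simp [hY, hu]
  · simp [hY, hu]

lemma negY_map (h : W₁ = C • W₂) (x y : K) :
    W₂.toAffine.negY (mapX C x) (mapY C x y) = mapY C x (W₁.toAffine.negY x y) := by
  subst h
  have hu : (C.u : K) ≠ 0 := C.u.ne_zero
  simp only [negY, variableChange_a₁, variableChange_a₃, Units.val_inv_eq_inv_val, mapX, mapY]
  field_simp
  ring

lemma addX_map (h : W₁ = C • W₂) (x₁ x₂ ℓ : K) :
    W₂.toAffine.addX (mapX C x₁) (mapX C x₂) ((C.u : K) * ℓ + C.s) =
      mapX C (W₁.toAffine.addX x₁ x₂ ℓ) := by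
  subst h
  have hu : (C.u : K) ≠ 0 := C.u.ne_zero
  simp only [addX, variableChange_a₁, variableChange_a₂, Units.val_inv_eq_inv_val, mapX, mapY]
  field_simp
  ring

lemma negAddY_map (h : W₁ = C • W₂) (x₁ x₂ y₁ ℓ : K) :
    W₂.toAffine.negAddY (mapX C x₁) (mapX C x₂) (mapY C x₁ y₁) ((C.u : K) * ℓ + C.s) =
      mapY C (W₁.toAffine.addX x₁ x₂ ℓ) (W₁.toAffine.negAddY x₁ x₂ y₁ ℓ) := by
  rw [negAddY, addX_map C h, negAddY]
  simp only [mapX, mapY]
  ring

lemma addY_map (h : W₁ = C • W₂) (x₁ x₂ y₁ ℓ : K) :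
    W₂.toAffine.addY (mapX C x₁) (mapX C x₂) (mapY C x₁ y₁) ((C.u : K) * ℓ + C.s) =
      mapY C (W₁.toAffine.addX x₁ x₂ ℓ) (W₁.toAffine.addY x₁ x₂ y₁ ℓ) := by
  rw [addY, negAddY_map C h, addX_map C h, negY_map C h, addY]

variable [DecidableEq K]

lemma slope_map (h : W₁ = C • W₂) {x₁ x₂ y₁ y₂ : K}
    (h₁ : W₁.toAffine.Equation x₁ y₁) (h₂ : W₁.toAffine.Equation x₂ y₂)
    (hxy : ¬(x₁ = x₂ ∧ y₁ = W₁.toAffine.negY x₂ y₂)) :
    W₂.toAffine.slope (mapX C x₁) (mapX C x₂) (mapY C x₁ y₁) (mapY C x₂ y₂) =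
      (C.u : K) * W₁.toAffine.slope x₁ x₂ y₁ y₂ + C.s := by
  have hu : (C.u : K) ≠ 0 := u_ne_zero C
  by_cases hx : x₁ = x₂
  · subst hx
    have hy : y₁ ≠ W₁.toAffine.negY x₁ y₂ := fun hy => hxy ⟨rfl, hy⟩
    obtain rfl : y₁ = y₂ := Y_eq_of_Y_ne h₁ h₂ rfl hy
    have hy' : mapY C x₁ y₁ ≠ W₂.toAffine.negY (mapX C x₁) (mapY C x₁ y₁) := by
      rw [negY_map C h]
      exact fun e => hy ((mapY_eq_iff C).mp e)
    rw [slope_of_Y_ne rfl hy, slope_of_Y_ne rfl hy']
    have hden₁ : y₁ - W₁.toAffine.negY x₁ y₁ = W₁.toAffine.polynomialY.evalEval x₁ y₁ := by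
      rw [evalEval_polynomialY, negY]; ring
    have hnum₁ : 3 * x₁ ^ 2 + 2 * W₁.a₂ * x₁ + W₁.a₄ - W₁.a₁ * y₁ =
        -W₁.toAffine.polynomialX.evalEval x₁ y₁ := by
      rw [evalEval_polynomialX]; ring
    have hden₂ : mapY C x₁ y₁ - W₂.toAffine.negY (mapX C x₁) (mapY C x₁ y₁) =
        W₂.toAffine.polynomialY.evalEval (mapX C x₁) (mapY C x₁ y₁) := by
      rw [evalEval_polynomialY, negY]; ring
    have hnum₂ : 3 * mapX C x₁ ^ 2 + 2 * W₂.a₂ * mapX C x₁ + W₂.a₄ - W₂.a₁ * mapY C x₁ y₁ =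
        -W₂.toAffine.polynomialX.evalEval (mapX C x₁) (mapY C x₁ y₁) := by
      rw [evalEval_polynomialX]; ring
    have hd : W₁.toAffine.polynomialY.evalEval x₁ y₁ ≠ 0 := by
      rw [← hden₁]; exact sub_ne_zero.mpr hy
    rw [hden₁, hnum₁, hden₂, hnum₂, evalEval_polynomialX_map C h, evalEval_polynomialY_map C h]
    field_simp
    ring
  · have hx' : mapX C x₁ ≠ mapX C x₂ := fun e => hx ((mapX_eq_iff C).mp e)
    rw [slope_of_X_ne hx, slope_of_X_ne hx']
    have h12 : x₁ - x₂ ≠ 0 := sub_ne_zero.mpr hx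
    have hden : mapX C x₁ - mapX C x₂ = (C.u : K) ^ 2 * (x₁ - x₂) := by
      simp only [mapX]; ring
    have hnum : mapY C x₁ y₁ - mapY C x₂ y₂ =
        (C.u : K) ^ 3 * (y₁ - y₂) + (C.u : K) ^ 2 * C.s * (x₁ - x₂) := by
      simp only [mapY]; ring
    rw [hden, hnum]
    field_simp

/-- The map on points induced by a variable change (`W₁ = C • W₂`):
`(x, y) ↦ (u² x + r, u³ y + u² s x + t)`. -/
def pointMap (h : W₁ = C • W₂) : W₁.toAffine.Point → W₂.toAffine.Point
  | .zero => .zero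
  | .some x y hxy => .some (mapX C x) (mapY C x y) ((nonsingular_map_iff C h x y).mpr hxy)

@[simp] lemma pointMap_zero (h : W₁ = C • W₂) : pointMap C h 0 = 0 := rfl

@[simp] lemma pointMap_some (h : W₁ = C • W₂) {x y : K} (hxy : W₁.toAffine.Nonsingular x y) :
    pointMap C h (.some x y hxy) =
      .some (mapX C x) (mapY C x y) ((nonsingular_map_iff C h x y).mpr hxy) := rfl

lemma pointMap_add (h : W₁ = C • W₂) (P Q : W₁.toAffine.Point) :
    pointMap C h (P + Q) = pointMap C h P + pointMap C h Q := by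
  rcases P with _ | ⟨x₁, y₁, h₁⟩
  · change pointMap C h (0 + Q) = 0 + pointMap C h Q
    rw [zero_add, zero_add]
  rcases Q with _ | ⟨x₂, y₂, h₂⟩
  · change pointMap C h (_ + 0) = _ + 0
    rw [add_zero, add_zero]
  by_cases hxy : x₁ = x₂ ∧ y₁ = W₁.toAffine.negY x₂ y₂
  · rw [Point.add_of_Y_eq hxy.1 hxy.2, pointMap_some, pointMap_some,
      Point.add_of_Y_eq (congrArg _ hxy.1) (by rw [hxy.2, negY_map C h, hxy.1])]
    rfl
  · have hxy' : ¬(mapX C x₁ = mapX C x₂ ∧
        mapY C x₁ y₁ = W₂.toAffine.negY (mapX C x₂) (mapY C x₂ y₂)) := by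
      rintro ⟨e₁, e₂⟩
      have e₁' := (mapX_eq_iff C).mp e₁
      subst e₁'
      rw [negY_map C h] at e₂
      exact hxy ⟨rfl, (mapY_eq_iff C).mp e₂⟩
    rw [Point.add_some hxy, pointMap_some, pointMap_some, pointMap_some, Point.add_some hxy']
    simp only [Point.some.injEq]
    rw [slope_map C h h₁.1 h₂.1 hxy, addX_map C h, addY_map C h]
    exact ⟨rfl, rfl⟩

/-- `pointMap` as an additive homomorphism. -/
def pointHom (h : W₁ = C • W₂) : W₁.toAffine.Point →+ W₂.toAffine.Point where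
  toFun := pointMap C h
  map_zero' := rfl
  map_add' := pointMap_add C h

lemma pointMap_injective (h : W₁ = C • W₂) : Function.Injective (pointMap C h) := by
  rintro (_ | ⟨x₁, y₁, h₁⟩) (_ | ⟨x₂, y₂, h₂⟩) e
  · rfl
  · exact absurd e (by simp [pointMap])
  · exact absurd e (by simp [pointMap])
  · simp only [pointMap_some, Point.some.injEq] at e
    obtain ⟨e₁, e₂⟩ := e
    have e₁' := (mapX_eq_iff C).mp e₁
    subst e₁'
    have e₂' := (mapY_eq_iff C).mp e₂
    subst e₂'
    rfl

lemma pointMap_surjective (h : W₁ = C • W₂) : Function.Surjective (pointMap C h) := by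
  have hu : (C.u : K) ≠ 0 := u_ne_zero C
  rintro (_ | ⟨X, Y, hXY⟩)
  · exact ⟨0, rfl⟩
  · have hX : mapX C ((X - C.r) / (C.u : K) ^ 2) = X := by
      simp only [mapX]; field_simp; ring
    have hY : mapY C ((X - C.r) / (C.u : K) ^ 2)
        ((Y - C.s * (X - C.r) - C.t) / (C.u : K) ^ 3) = Y := by
      simp only [mapY]; field_simp; ring
    have hns : W₁.toAffine.Nonsingular ((X - C.r) / (C.u : K) ^ 2)
        ((Y - C.s * (X - C.r) - C.t) / (C.u : K) ^ 3) := by
      rw [← nonsingular_map_iff C h, hX, hY]; exact hXY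
    refine ⟨.some _ _ hns, ?_⟩
    simp only [pointMap_some, Point.some.injEq]
    exact ⟨hX, hY⟩

/-- (b) The additive equivalence on points induced by a variable change `W₁ = C • W₂`:
`0 ↦ 0`, `(x, y) ↦ (u² x + r, u³ y + u² s x + t)`. -/
noncomputable def pointEquiv (h : W₁ = C • W₂) : W₁.toAffine.Point ≃+ W₂.toAffine.Point :=
  AddEquiv.ofBijective (pointHom C h) ⟨pointMap_injective C h, pointMap_surjective C h⟩

@[simp] lemma pointEquiv_zero (h : W₁ = C • W₂) : pointEquiv C h 0 = 0 := rfl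

@[simp] lemma pointEquiv_some (h : W₁ = C • W₂) {x y : K} (hxy : W₁.toAffine.Nonsingular x y) :
    pointEquiv C h (.some x y hxy) =
      .some (mapX C x) (mapY C x y) ((nonsingular_map_iff C h x y).mpr hxy) := rfl

/-- The `x`-coordinate of the preimage of `(X, Y)` under the variable change `C`. -/
def invX (C : VariableChange K) (X : K) : K := (X - C.r) / (C.u : K) ^ 2

/-- The `y`-coordinate of the preimage of `(X, Y)` under the variable change `C`. -/
def invY (C : VariableChange K) (X Y : K) : K := (Y - C.s * (X - C.r) - C.t) / (C.u : K) ^ 3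

lemma mapX_invX (X : K) : mapX C (invX C X) = X := by
  have hu : (C.u : K) ≠ 0 := u_ne_zero C
  simp only [mapX, invX]; field_simp; ring

lemma mapY_invY (X Y : K) : mapY C (invX C X) (invY C X Y) = Y := by
  have hu : (C.u : K) ≠ 0 := u_ne_zero C
  simp only [mapY, invX, invY]; field_simp; ring

lemma invX_mapX (x : K) : invX C (mapX C x) = x :=
  mapX_injective C (mapX_invX C _)

lemma invY_mapY (x y : K) : invY C (mapX C x) (mapY C x y) = y := by
  apply mapY_injective C x
  have := mapY_invY C (mapX C x) (mapY C x y)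
  rwa [invX_mapX] at this

lemma nonsingular_inv (h : W₁ = C • W₂) {X Y : K} (hXY : W₂.toAffine.Nonsingular X Y) :
    W₁.toAffine.Nonsingular (invX C X) (invY C X Y) := by
  rw [← nonsingular_map_iff C h, mapX_invX, mapY_invY]; exact hXY

lemma pointEquiv_symm_zero (h : W₁ = C • W₂) : (pointEquiv C h).symm 0 = 0 := map_zero _

lemma pointEquiv_symm_some (h : W₁ = C • W₂) {X Y : K} (hXY : W₂.toAffine.Nonsingular X Y) :
    (pointEquiv C h).symm (.some X Y hXY) =
      .some (invX C X) (invY C X Y) (nonsingular_inv C h hXY) := by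
  rw [AddEquiv.symm_apply_eq, pointEquiv_some]
  exact some_congr _ _ (mapX_invX C X).symm (mapY_invY C X Y).symm

/-- Transport of points along an equality of Weierstrass curves. -/
noncomputable def pointCongr (h : W₁ = W₂) : W₁.toAffine.Point ≃+ W₂.toAffine.Point :=
  h ▸ AddEquiv.refl _

@[simp] lemma pointCongr_zero (h : W₁ = W₂) : pointCongr h 0 = 0 := map_zero _

lemma pointCongr_some (h : W₁ = W₂) {x y : K} (hxy : W₁.toAffine.Nonsingular x y) :
    pointCongr h (.some x y hxy) = .some x y (h ▸ hxy) := by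
  subst h; rfl



section BaseChange

universe r s v

variable {R : Type r} {S : Type s} {K : Type v} [CommRing R] [CommRing S] [Field K]
  [DecidableEq K] [Algebra R S] [Algebra R K] [Algebra S K] [IsScalarTower R S K]

/-- (c) Base-change form of `pointEquiv`: for `W` and `C` defined over `R` and a field `K` over `R`,
the additive equivalence `((C • W)⁄K).Point ≃+ (W⁄K).Point`. -/
noncomputable def baseChangeEquiv (W : WeierstrassCurve R) (C : VariableChange R) :
    ((C • W).toAffine⁄K).Point ≃+ (W.toAffine⁄K).Point :=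
  pointEquiv (W₁ := (C • W)⁄K) (W₂ := W⁄K) (C.map (algebraMap R K))
    (map_variableChange W C (algebraMap R K)).symm

variable (W : WeierstrassCurve R) (C : VariableChange R)

@[simp] lemma baseChangeEquiv_zero : baseChangeEquiv (K := K) W C 0 = 0 := rfl

lemma baseChangeEquiv_some {x y : K} (hxy : ((C • W).toAffine⁄K).Nonsingular x y) :
    baseChangeEquiv (K := K) W C (.some x y hxy) =
      .some (mapX (C.map (algebraMap R K)) x) (mapY (C.map (algebraMap R K)) x y)
        ((nonsingular_map_iff (W₁ := (C • W)⁄K) (W₂ := W⁄K) _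
          (map_variableChange W C (algebraMap R K)).symm x y).mpr hxy) := rfl

lemma algEquiv_mapX (σ : K ≃ₐ[S] K) (x : K) :
    σ (mapX (C.map (algebraMap R K)) x) = mapX (C.map (algebraMap R K)) (σ x) := by
  have hc : ∀ a : R, σ (algebraMap R K a) = algebraMap R K a := fun a => by
    rw [IsScalarTower.algebraMap_apply R S K, σ.commutes]
  simp only [mapX, VariableChange.map, Units.coe_map, MonoidHom.coe_coe, map_add, map_mul,
    map_pow, hc]

lemma algEquiv_mapY (σ : K ≃ₐ[S] K) (x y : K) :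
    σ (mapY (C.map (algebraMap R K)) x y) = mapY (C.map (algebraMap R K)) (σ x) (σ y) := by
  have hc : ∀ a : R, σ (algebraMap R K a) = algebraMap R K a := fun a => by
    rw [IsScalarTower.algebraMap_apply R S K, σ.commutes]
  simp only [mapY, VariableChange.map, Units.coe_map, MonoidHom.coe_coe, map_add, map_mul,
    map_pow, hc]

/-- (c) `baseChangeEquiv` commutes with the Galois action of the Prelude. -/
lemma baseChangeEquiv_smul (σ : K ≃ₐ[S] K) (P : ((C • W).toAffine⁄K).Point) :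
    baseChangeEquiv (K := K) W C (σ • P) = σ • baseChangeEquiv (K := K) W C P := by
  rcases P with _ | ⟨x, y, hxy⟩
  · rfl
  · rw [Point.algEquiv_smul_def, Point.algEquiv_smul_def]
    rw [Point.map_some, baseChangeEquiv_some, baseChangeEquiv_some]
    exact some_congr _ _ (algEquiv_mapX C σ x).symm (algEquiv_mapY C σ x y).symm

lemma baseChangeEquiv_smul_eq_self_iff (σ : K ≃ₐ[S] K) (P : ((C • W).toAffine⁄K).Point) :
    σ • baseChangeEquiv (K := K) W C P = baseChangeEquiv (K := K) W C P ↔ σ • P = P := by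
  rw [← baseChangeEquiv_smul, EmbeddingLike.apply_eq_iff_eq]

lemma baseChangeEquiv_mem_torsionBy_iff (n : ℕ) (P : ((C • W).toAffine⁄K).Point) :
    baseChangeEquiv (K := K) W C P ∈ Submodule.torsionBy ℤ (W.toAffine⁄K).Point n ↔
      P ∈ Submodule.torsionBy ℤ ((C • W).toAffine⁄K).Point n := by
  rw [Submodule.mem_torsionBy_iff, Submodule.mem_torsionBy_iff, ← map_zsmul,
    EmbeddingLike.map_eq_zero_iff]

/-- (c) An automorphism fixes all `n`-torsion points of `(C • W)⁄K` iff it fixes all `n`-torsion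
points of `W⁄K`. -/
lemma fixes_torsionBy_iff (σ : K ≃ₐ[S] K) (n : ℕ) :
    (∀ x : Submodule.torsionBy ℤ ((C • W).toAffine⁄K).Point n, σ • x = x) ↔
      ∀ x : Submodule.torsionBy ℤ (W.toAffine⁄K).Point n, σ • x = x := by
  constructor
  · intro H x
    obtain ⟨P, hP⟩ := (baseChangeEquiv (K := K) W C).surjective x.1
    have hPmem : P ∈ Submodule.torsionBy ℤ ((C • W).toAffine⁄K).Point n := by
      rw [← baseChangeEquiv_mem_torsionBy_iff, hP]; exact x.2
    have h1 : σ • P = P := congrArg Subtype.val (H ⟨P, hPmem⟩)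
    apply Subtype.ext
    change σ • (x : (W.toAffine⁄K).Point) = x
    rw [← hP]
    exact (baseChangeEquiv_smul_eq_self_iff W C σ P).mpr h1
  · intro H x
    have hmem : baseChangeEquiv (K := K) W C x.1 ∈
        Submodule.torsionBy ℤ (W.toAffine⁄K).Point n :=
      (baseChangeEquiv_mem_torsionBy_iff W C n x.1).mpr x.2
    have h1 : σ • baseChangeEquiv (K := K) W C x.1 = baseChangeEquiv (K := K) W C x.1 :=
      congrArg Subtype.val (H ⟨_, hmem⟩)
    apply Subtype.ext
    exact (baseChangeEquiv_smul_eq_self_iff W C σ x.1).mp h1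

end BaseChange

section Unramified

universe r s v

variable {R : Type r} {S : Type s} {K : Type v} [CommRing R] [Field S] [Field K]
  [DecidableEq K] [Algebra R S] [Algebra R K] [Algebra S K] [IsScalarTower R S K]

/-- (c) The property `GaloisRepUnramifiedAt` of the Prelude is invariant under admissible changes
of variables defined over the base ring. -/
theorem galoisRepUnramifiedAt_variableChange_iff (W : WeierstrassCurve R) (C : VariableChange R)
    (n q : ℕ) :
    Point.GaloisRepUnramifiedAt S K (C • W).toAffine n q ↔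
      Point.GaloisRepUnramifiedAt S K W.toAffine n q := by
  unfold Point.GaloisRepUnramifiedAt
  refine forall_congr' fun A => forall_congr' fun _ => forall_congr' fun σ =>
    forall_congr' fun _ => ?_
  exact fixes_torsionBy_iff W C σ n

end Unramified



section Frey

/-- The Legendre-type model `y² = x (x - d₁) (x - d₂) = x³ - (d₁ + d₂) x² + d₁ d₂ x`. -/
def Wd {F : Type*} [CommRing F] (d₁ d₂ : F) : WeierstrassCurve F :=
  ⟨0, -(d₁ + d₂), 0, d₁ * d₂, 0⟩

@[simp] lemma Wd_a₁ {F : Type*} [CommRing F] (d₁ d₂ : F) : (Wd d₁ d₂).a₁ = 0 := rfl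
@[simp] lemma Wd_a₂ {F : Type*} [CommRing F] (d₁ d₂ : F) : (Wd d₁ d₂).a₂ = -(d₁ + d₂) := rfl
@[simp] lemma Wd_a₃ {F : Type*} [CommRing F] (d₁ d₂ : F) : (Wd d₁ d₂).a₃ = 0 := rfl
@[simp] lemma Wd_a₄ {F : Type*} [CommRing F] (d₁ d₂ : F) : (Wd d₁ d₂).a₄ = d₁ * d₂ := rfl
@[simp] lemma Wd_a₆ {F : Type*} [CommRing F] (d₁ d₂ : F) : (Wd d₁ d₂).a₆ = 0 := rfl

lemma Wd_comm {F : Type*} [CommRing F] (d₁ d₂ : F) : Wd d₁ d₂ = Wd d₂ d₁ := by
  ext <;> simp [Wd, add_comm, mul_comm]

lemma Wd_map {F F' : Type*} [CommRing F] [CommRing F'] (f : F →+* F') (d₁ d₂ : F) :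
    (Wd d₁ d₂).map f = Wd (f d₁) (f d₂) := by
  ext <;> simp [Wd, WeierstrassCurve.map]

lemma Wd_baseChange {F F' : Type*} [CommRing F] [CommRing F'] [Algebra F F'] (d₁ d₂ : F) :
    (Wd d₁ d₂)⁄F' = Wd (algebraMap F F' d₁) (algebraMap F F' d₂) :=
  Wd_map _ d₁ d₂

lemma Wd_equation_iff {F : Type*} [CommRing F] (d₁ d₂ x y : F) :
    (Wd d₁ d₂).toAffine.Equation x y ↔ y ^ 2 = x * (x - d₁) * (x - d₂) := by
  rw [equation_iff]
  simp only [Wd_a₁, Wd_a₂, Wd_a₃, Wd_a₄, Wd_a₆]
  constructor <;> intro h <;> linear_combination h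

/-- The change of variables `(x, y) ↦ (4 x + r, 8 y + 4 x)` over `ℚ`. -/
def freyChange (r : ℚ) : VariableChange ℚ := ⟨Units.mk0 2 two_ne_zero, r, 1, 0⟩

/-- The Frey curve is the variable change `(x, y) ↦ (4x + r, 8y + 4x)` of the Legendre model
`Wd d₁ d₂` as soon as `{d₁ - r, d₂ - r} ∪ {-r}` are the three roots `0, a^p, -b^p`, expressed by
symmetric functions. -/
lemma freyCurve_eq_of (P : FreyPackage) (r d₁ d₂ : ℚ)
    (h₂ : -(d₁ + d₂) + 3 * r = (P.b : ℚ) ^ P.p - (P.a : ℚ) ^ P.p)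
    (h₄ : d₁ * d₂ - 2 * r * (d₁ + d₂) + 3 * r ^ 2 = -((P.a : ℚ) ^ P.p * (P.b : ℚ) ^ P.p))
    (h₆ : r * (d₁ * d₂) - r ^ 2 * (d₁ + d₂) + r ^ 3 = 0) :
    P.freyCurve = freyChange r • Wd d₁ d₂ := by
  ext
  · simp only [FreyPackage.freyCurve, variableChange_a₁, freyChange, Wd_a₁,
      Units.val_inv_eq_inv_val, Units.val_mk0]
    norm_num
  · simp only [FreyPackage.freyCurve, variableChange_a₂, freyChange, Wd_a₁, Wd_a₂,
      Units.val_inv_eq_inv_val, Units.val_mk0]
    linear_combination (-1 / 4 : ℚ) * h₂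
  · simp only [FreyPackage.freyCurve, variableChange_a₃, freyChange, Wd_a₁, Wd_a₃,
      Units.val_inv_eq_inv_val, Units.val_mk0]
    norm_num
  · simp only [FreyPackage.freyCurve, variableChange_a₄, freyChange, Wd_a₁, Wd_a₂, Wd_a₃, Wd_a₄,
      Units.val_inv_eq_inv_val, Units.val_mk0]
    linear_combination (-1 / 16 : ℚ) * h₄
  · simp only [FreyPackage.freyCurve, variableChange_a₆, freyChange, Wd_a₁, Wd_a₂, Wd_a₃, Wd_a₄,
      Wd_a₆, Units.val_inv_eq_inv_val, Units.val_mk0]
    linear_combination (-1 / 64 : ℚ) * h₆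

lemma hFLT_rat (P : FreyPackage) : (P.a : ℚ) ^ P.p + (P.b : ℚ) ^ P.p = (P.c : ℚ) ^ P.p := by
  exact_mod_cast P.hFLT

/-- Case `q ∣ a`: `(d₁, d₂) = (a^p, -b^p)`, no translation. -/
lemma freyCurve_eq_a (P : FreyPackage) :
    P.freyCurve = freyChange 0 • Wd ((P.a : ℚ) ^ P.p) (-(P.b : ℚ) ^ P.p) :=
  freyCurve_eq_of P 0 _ _ (by ring) (by ring) (by ring)

/-- Case `q ∣ b`: `(d₁, d₂) = (-b^p, a^p)`, no translation. -/
lemma freyCurve_eq_b (P : FreyPackage) :
    P.freyCurve = freyChange 0 • Wd (-(P.b : ℚ) ^ P.p) ((P.a : ℚ) ^ P.p) :=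
  freyCurve_eq_of P 0 _ _ (by ring) (by ring) (by ring)

/-- Case `q ∣ c`: `(d₁, d₂) = (-c^p, -a^p)` after the translation `x ↦ x - a^p`. -/
lemma freyCurve_eq_c (P : FreyPackage) :
    P.freyCurve = freyChange (-(P.a : ℚ) ^ P.p) • Wd (-(P.c : ℚ) ^ P.p) (-(P.a : ℚ) ^ P.p) := by
  have h := hFLT_rat P
  refine freyCurve_eq_of P _ _ _ ?_ ?_ ?_
  · linear_combination -h
  · linear_combination ((P.a : ℚ) ^ P.p) * h
  · ring

/-- (d) Per-automorphism transfer for the Frey curve: `σ` fixes all `n`-torsion points of the Frey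
curve over `K` iff it fixes all `n`-torsion points of the Legendre model `Wd d₁ d₂` over `K`. -/
theorem frey_fixes_torsionBy_iff {K : Type*} [Field K] [DecidableEq K] [Algebra ℚ K]
    (P : FreyPackage) {r d₁ d₂ : ℚ} (h : P.freyCurve = freyChange r • Wd d₁ d₂)
    (σ : K ≃ₐ[ℚ] K) (n : ℕ) :
    (∀ x : Submodule.torsionBy ℤ (P.freyCurve.toAffine⁄K).Point n, σ • x = x) ↔
      ∀ x : Submodule.torsionBy ℤ ((Wd d₁ d₂).toAffine⁄K).Point n, σ • x = x := by
  rw [h]
  exact fixes_torsionBy_iff (S := ℚ) (K := K) (Wd d₁ d₂) (freyChange r) σ n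

/-- (d) If the mod-`p` representation of the Legendre model `Wd d₁ d₂` is unramified at `q`, so is
the one of the Frey curve. -/
theorem frey_galoisRepUnramifiedAt_of_Wd (P : FreyPackage) (q : ℕ) {r d₁ d₂ : ℚ}
    (h : P.freyCurve = freyChange r • Wd d₁ d₂)
    (H : Point.GaloisRepUnramifiedAt (K := AlgebraicClosure ℚ) ℚ (Wd d₁ d₂).toAffine P.p q) :
    P.GaloisRepUnramifiedAt q := by
  unfold FreyPackage.GaloisRepUnramifiedAt
  rw [h]
  exact (galoisRepUnramifiedAt_variableChange_iff (S := ℚ) (K := AlgebraicClosure ℚ)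
    (Wd d₁ d₂) (freyChange r) P.p q).mpr H

end Frey

end Fermat.Agent.S05.Transfer
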