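import Mathlib
import Fermat.Prelude.Def_FLTPrelim_Ramification

/-!
# S05 / T4: inertia and decomposition groups of a valuation subring, Galois action on points

Namespace `Fermat.Agent.S05.Inertia`.
-/

set_option autoImplicit false

namespace Fermat.Agent.S05.Inertia

open scoped Pointwise

section Valuation

variable {K L : Type*} [Field K] [Field L] [Algebra K L]

/-- The (image in the full Galois group of the) inertia subgroup is contained in the
decomposition subgroup. -/
theorem mem_decompositionSubgroup_of_mem_inertiaSubgroupIn (A : ValuationSubring L)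
    {σ : L ≃ₐ[K] L} (hσ : σ ∈ A.inertiaSubgroupIn K) : σ ∈ A.decompositionSubgroup K := by
  obtain ⟨τ, -, rfl⟩ := hσ
  exact τ.2

theorem inv_mem_inertiaSubgroupIn (A : ValuationSubring L)
    {σ : L ≃ₐ[K] L} (hσ : σ ∈ A.inertiaSubgroupIn K) : σ⁻¹ ∈ A.inertiaSubgroupIn K :=
  inv_mem hσ

/-- Elements of the decomposition group preserve the valuation subring. -/
theorem apply_mem_iff_of_mem_decompositionSubgroup (A : ValuationSubring L) {σ : L ≃ₐ[K] L}
    (hσ : σ ∈ A.decompositionSubgroup K) (x : L) : σ x ∈ A ↔ x ∈ A := by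
  have h : σ • A = A := MulAction.mem_stabilizer_iff.mp hσ
  constructor
  · intro hx
    rw [← h, ValuationSubring.mem_pointwise_smul_iff_inv_smul_mem] at hx
    have : σ⁻¹ • σ x = x := σ.symm_apply_apply x
    rwa [this] at hx
  · intro hx
    rw [← h]
    exact ValuationSubring.smul_mem_pointwise_smul σ x A hx

theorem apply_mem_of_mem_decompositionSubgroup (A : ValuationSubring L) {σ : L ≃ₐ[K] L}
    (hσ : σ ∈ A.decompositionSubgroup K) {x : L} (hx : x ∈ A) : σ x ∈ A :=
  (apply_mem_iff_of_mem_decompositionSubgroup A hσ x).mpr hx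

/-- Elements of the decomposition group preserve the maximal ideal. -/
theorem apply_mem_nonunits_iff_of_mem_decompositionSubgroup (A : ValuationSubring L)
    {σ : L ≃ₐ[K] L} (hσ : σ ∈ A.decompositionSubgroup K) (x : L) :
    σ x ∈ A.nonunits ↔ x ∈ A.nonunits := by
  by_cases hx0 : x = 0
  · subst hx0
    simp
  have hσx0 : σ x ≠ 0 := by
    intro h
    apply hx0
    have := congrArg σ.symm h
    simpa using this
  -- `y ∈ nonunits ↔ y⁻¹ ∉ A` for `y ≠ 0`
  have key : ∀ y : L, y ≠ 0 → (y ∈ A.nonunits ↔ y⁻¹ ∉ A) := by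
    intro y hy
    rw [A.mem_nonunits_iff, ← A.valuation_le_one_iff, map_inv₀, not_le]
    have hv : A.valuation y ≠ 0 := (A.valuation.ne_zero_iff).mpr hy
    constructor
    · intro h
      exact (one_lt_inv₀ (zero_lt_iff.mpr hv)).mpr h
    · intro h
      exact (one_lt_inv₀ (zero_lt_iff.mpr hv)).mp h
  rw [key x hx0, key (σ x) hσx0, ← map_inv₀, apply_mem_iff_of_mem_decompositionSubgroup A hσ]

theorem apply_mem_nonunits_of_mem_decompositionSubgroup (A : ValuationSubring L)
    {σ : L ≃ₐ[K] L} (hσ : σ ∈ A.decompositionSubgroup K) {x : L} (hx : x ∈ A.nonunits) :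
    σ x ∈ A.nonunits :=
  (apply_mem_nonunits_iff_of_mem_decompositionSubgroup A hσ x).mpr hx

/-- Inertia elements act trivially modulo the maximal ideal. -/
theorem apply_sub_mem_nonunits_of_mem_inertiaSubgroupIn (A : ValuationSubring L)
    {σ : L ≃ₐ[K] L} (hσ : σ ∈ A.inertiaSubgroupIn K) {x : L} (hx : x ∈ A) :
    σ x - x ∈ A.nonunits := by
  obtain ⟨τ, hτ, rfl⟩ := hσ
  have hker : MulSemiringAction.toRingAut (A.decompositionSubgroup K)
      (IsLocalRing.ResidueField A) τ = 1 := hτ
  set a : A := ⟨x, hx⟩ with ha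
  have h1 : τ • (IsLocalRing.residue A a) = IsLocalRing.residue A a := by
    have := congrArg (fun f : RingAut (IsLocalRing.ResidueField A) => f (IsLocalRing.residue A a)) hker
    simpa using this
  rw [← IsLocalRing.ResidueField.residue_smul, ← sub_eq_zero, ← map_sub,
    IsLocalRing.residue_eq_zero_iff, ← ValuationSubring.coe_mem_nonunits_iff] at h1
  exact h1

/-- Inertia elements fix units up to 1-units: `σ x - x ∈ m`, in the form of membership. -/
theorem apply_mem_of_mem_inertiaSubgroupIn (A : ValuationSubring L)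
    {σ : L ≃ₐ[K] L} (hσ : σ ∈ A.inertiaSubgroupIn K) {x : L} (hx : x ∈ A) : σ x ∈ A :=
  apply_mem_of_mem_decompositionSubgroup A
    (mem_decompositionSubgroup_of_mem_inertiaSubgroupIn A hσ) hx

theorem apply_mem_iff_of_mem_inertiaSubgroupIn (A : ValuationSubring L)
    {σ : L ≃ₐ[K] L} (hσ : σ ∈ A.inertiaSubgroupIn K) (x : L) : σ x ∈ A ↔ x ∈ A :=
  apply_mem_iff_of_mem_decompositionSubgroup A
    (mem_decompositionSubgroup_of_mem_inertiaSubgroupIn A hσ) x

theorem apply_mem_nonunits_iff_of_mem_inertiaSubgroupIn (A : ValuationSubring L)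
    {σ : L ≃ₐ[K] L} (hσ : σ ∈ A.inertiaSubgroupIn K) (x : L) :
    σ x ∈ A.nonunits ↔ x ∈ A.nonunits :=
  apply_mem_nonunits_iff_of_mem_decompositionSubgroup A
    (mem_decompositionSubgroup_of_mem_inertiaSubgroupIn A hσ) x

/-- An inertia element fixes a unit `t` of `A` whose square it fixes, provided `2` is a unit
of `A` (used for the square roots defining the inertia-fixed points in the multiplicative case). -/
theorem apply_eq_self_of_apply_sq_eq (A : ValuationSubring L)
    {σ : L ≃ₐ[K] L} (hσ : σ ∈ A.inertiaSubgroupIn K) {t : L} (ht : t ∈ A)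
    (htu : t ∉ A.nonunits) (h2 : (2 : L) ∉ A.nonunits) (hsq : σ (t ^ 2) = t ^ 2) : σ t = t := by
  have h1 : (σ t - t) * (σ t + t) = 0 := by
    have : σ t ^ 2 = t ^ 2 := by rw [← map_pow]; exact hsq
    linear_combination this
  rcases mul_eq_zero.mp h1 with h | h
  · exact sub_eq_zero.mp h
  · exfalso
    have h3 : σ t - t ∈ A.nonunits := apply_sub_mem_nonunits_of_mem_inertiaSubgroupIn A hσ ht
    have h4 : σ t - t = -(2 * t) := by linear_combination h
    rw [h4, A.mem_nonunits_iff, Valuation.map_neg, map_mul] at h3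
    have h2A : (2 : L) ∈ A := by
      have := A.add_mem _ _ A.one_mem A.one_mem
      rwa [one_add_one_eq_two] at this
    have hv2 : A.valuation (2 : L) = 1 :=
      le_antisymm ((A.valuation_le_one_iff _).mpr h2A)
        (not_lt.mp fun h => h2 (A.mem_nonunits_iff.mpr h))
    have hvt : A.valuation t = 1 :=
      le_antisymm ((A.valuation_le_one_iff _).mpr ht)
        (not_lt.mp fun h => htu (A.mem_nonunits_iff.mpr h))
    rw [hv2, hvt, one_mul] at h3
    exact lt_irrefl _ h3

end Valuation

section Points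

open WeierstrassCurve WeierstrassCurve.Affine

variable {R : Type*} {S : Type*} {K : Type*} [CommRing R] [CommRing S] [Field K]
  [DecidableEq K] {W' : Affine R} [Algebra R S] [Algebra R K] [Algebra S K]
  [IsScalarTower R S K]

theorem smul_zero_point (σ : K ≃ₐ[S] K) : σ • (0 : (W'⁄K).Point) = 0 := rfl

omit [DecidableEq K] in
theorem nonsingular_apply (σ : K ≃ₐ[S] K) {x y : K} (h : (W'⁄K).Nonsingular x y) :
    (W'⁄K).Nonsingular (σ x) (σ y) :=
  (W'.baseChange_nonsingular (σ.toAlgHom : K →ₐ[S] K).injective ..).mpr h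

theorem smul_some (σ : K ≃ₐ[S] K) {x y : K} (h : (W'⁄K).Nonsingular x y) :
    σ • (Point.some x y h) = Point.some (σ x) (σ y) (nonsingular_apply σ h) := rfl

theorem smul_neg_point (σ : K ≃ₐ[S] K) (P : (W'⁄K).Point) : σ • (-P) = -(σ • P) :=
  (Point.map σ.toAlgHom).map_neg P

theorem smul_add_point (σ : K ≃ₐ[S] K) (P Q : (W'⁄K).Point) : σ • (P + Q) = σ • P + σ • Q :=
  (Point.map σ.toAlgHom).map_add P Q

theorem smul_sub_point (σ : K ≃ₐ[S] K) (P Q : (W'⁄K).Point) : σ • (P - Q) = σ • P - σ • Q :=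
  (Point.map σ.toAlgHom).map_sub P Q

theorem smul_nsmul_point (σ : K ≃ₐ[S] K) (n : ℕ) (P : (W'⁄K).Point) :
    σ • (n • P) = n • (σ • P) :=
  (Point.map σ.toAlgHom).map_nsmul n P

theorem smul_zsmul_point (σ : K ≃ₐ[S] K) (n : ℤ) (P : (W'⁄K).Point) :
    σ • (n • P) = n • (σ • P) :=
  (Point.map σ.toAlgHom).map_zsmul n P

theorem smul_eq_zero_iff (σ : K ≃ₐ[S] K) (P : (W'⁄K).Point) : σ • P = 0 ↔ P = 0 := by
  constructor
  · intro h
    exact Point.map_injective (σ.toAlgHom) (h.trans (Point.map_zero _).symm)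
  · rintro rfl
    rfl

/-- Coordinates of a point of the torsion submodule: the action is the action on the point. -/
theorem coe_smul_torsionBy {n : ℕ} (σ : K ≃ₐ[S] K)
    (P : Submodule.torsionBy ℤ (W'⁄K).Point n) :
    ((σ • P : Submodule.torsionBy ℤ (W'⁄K).Point n) : (W'⁄K).Point) = σ • (P : (W'⁄K).Point) :=
  rfl

end Points

end Fermat.Agent.S05.Inertia
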