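/-
M1 / S05, module T8a: arithmetic bookkeeping for the final assembly.
Valuations of integers in a valuation subring lying over a prime `q`, and the resulting
valuations of `a^p`, `b^p`, `c^p` for a Frey package.
Owner: helper19.
-/
import Mathlib
import Fermat.Prelude.Def_FLTPrelim_FreyPackage
import Fermat.Prelude.Def_FLTPrelim_Ramification

set_option autoImplicit false

namespace Fermat.Agent.S05.Arith

variable {K : Type*} [Field K] (A : ValuationSubring K)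

lemma intCast_mem_vs (m : ℤ) : (m : K) ∈ A := intCast_mem A m

lemma natCast_mem_vs (m : ℕ) : (m : K) ∈ A := natCast_mem A m

lemma valuation_intCast_le_one (m : ℤ) : A.valuation (m : K) ≤ 1 :=
  (A.valuation_le_one_iff _).mpr (intCast_mem A m)

lemma liesOverPrime_iff (q : ℕ) : A.LiesOverPrime q ↔ A.valuation (q : K) < 1 :=
  A.mem_nonunits_iff

/-- An integer coprime to `q` is a unit of any valuation subring lying over `q`. -/
lemma valuation_intCast_eq_one_of_isCoprime {q : ℕ} (hA : A.LiesOverPrime q) {m : ℤ}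
    (h : IsCoprime m (q : ℤ)) : A.valuation (m : K) = 1 := by
  obtain ⟨s, t, hst⟩ := h
  have hqA : ((q : ℤ) : A) ∈ IsLocalRing.maximalIdeal A := by
    rw [← A.coe_mem_nonunits_iff]
    simpa [ValuationSubring.LiesOverPrime] using hA
  have hm : ((m : ℤ) : A) ∉ IsLocalRing.maximalIdeal A := by
    intro hmA
    have h1 : ((s : ℤ) : A) * (m : A) + ((t : ℤ) : A) * ((q : ℤ) : A) ∈
        IsLocalRing.maximalIdeal A :=
      Ideal.add_mem _ (Ideal.mul_mem_left _ _ hmA) (Ideal.mul_mem_left _ _ hqA)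
    have h2 : ((s : ℤ) : A) * (m : A) + ((t : ℤ) : A) * ((q : ℤ) : A) = 1 := by
      exact_mod_cast congrArg (Int.cast : ℤ → A) hst
    rw [h2] at h1
    exact (Ideal.ne_top_iff_one _).mp (IsLocalRing.maximalIdeal.isMaximal A).ne_top h1
  have hu : IsUnit ((m : ℤ) : A) := IsLocalRing.notMem_maximalIdeal.mp hm
  have := (A.valuation_eq_one_iff _).mp hu
  simpa using this

lemma isCoprime_of_not_dvd {q : ℕ} (hq : q.Prime) {m : ℤ} (h : ¬ (q : ℤ) ∣ m) :
    IsCoprime m (q : ℤ) :=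
  ((Nat.prime_iff_prime_int.mp hq).irreducible.coprime_iff_not_dvd.mpr h).symm

lemma valuation_intCast_eq_one {q : ℕ} (hq : q.Prime) (hA : A.LiesOverPrime q) {m : ℤ}
    (h : ¬ (q : ℤ) ∣ m) : A.valuation (m : K) = 1 :=
  valuation_intCast_eq_one_of_isCoprime A hA (isCoprime_of_not_dvd hq h)

lemma valuation_natCast_eq_one {q : ℕ} (hq : q.Prime) (hA : A.LiesOverPrime q) {m : ℕ}
    (h : ¬ q ∣ m) : A.valuation (m : K) = 1 := by
  have := valuation_intCast_eq_one A hq hA (m := (m : ℤ)) (by exact_mod_cast h)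
  simpa using this

/-- `v(2) = 1` for `q` odd. -/
lemma valuation_two_eq_one {q : ℕ} (hq : q.Prime) (hq2 : q ≠ 2) (hA : A.LiesOverPrime q) :
    A.valuation (2 : K) = 1 := by
  have h : ¬ q ∣ 2 := fun h => hq2 ((Nat.prime_dvd_prime_iff_eq hq Nat.prime_two).mp h)
  have := valuation_natCast_eq_one A hq hA h
  simpa using this

/-- `v(p) = 1` for primes `p ≠ q`. -/
lemma valuation_prime_eq_one {q p : ℕ} (hq : q.Prime) (hp : p.Prime) (hqp : q ≠ p)
    (hA : A.LiesOverPrime q) : A.valuation (p : K) = 1 :=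
  valuation_natCast_eq_one A hq hA fun h => hqp ((Nat.prime_dvd_prime_iff_eq hq hp).mp h)

lemma valuation_intCast_pow_eq_one {q : ℕ} (hq : q.Prime) (hA : A.LiesOverPrime q) {m : ℤ}
    (h : ¬ (q : ℤ) ∣ m) (p : ℕ) : A.valuation ((m : K) ^ p) = 1 := by
  rw [map_pow, valuation_intCast_eq_one A hq hA h, one_pow]

/-- If `q ∣ m ≠ 0` then `v(m^p) = v(q)^(p n)` for some `n ≥ 1`. -/
lemma exists_valuation_intCast_pow {q : ℕ} (hq : q.Prime) (hA : A.LiesOverPrime q) {m : ℤ}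
    (hm : m ≠ 0) (h : (q : ℤ) ∣ m) (p : ℕ) :
    ∃ n : ℕ, 1 ≤ n ∧ A.valuation ((m : K) ^ p) = A.valuation (q : K) ^ (p * n) := by
  have hfin : FiniteMultiplicity (q : ℤ) m :=
    Int.finiteMultiplicity_iff.mpr ⟨by simpa using hq.ne_one, hm⟩
  obtain ⟨c, hc, hqc⟩ := hfin.exists_eq_pow_mul_and_not_dvd
  refine ⟨multiplicity (q : ℤ) m, ?_, ?_⟩
  · exact Nat.one_le_iff_ne_zero.mpr (multiplicity_ne_zero.mpr h)
  · have hcast : (m : K) = (q : K) ^ multiplicity (q : ℤ) m * (c : K) := by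
      conv_lhs => rw [hc]
      push_cast
      ring
    rw [hcast, mul_pow, map_mul, map_pow (A.valuation) (c : K),
      valuation_intCast_eq_one A hq hA hqc, one_pow, mul_one, ← pow_mul, map_pow, mul_comm]

lemma not_dvd_of_gcd_eq_one {q : ℕ} (hq : q.Prime) {x y : ℤ} (h : gcd x y = 1)
    (hx : (q : ℤ) ∣ x) : ¬ (q : ℤ) ∣ y := by
  intro hy
  have h1 : (q : ℤ) ∣ gcd x y := dvd_gcd hx hy
  rw [h] at h1
  exact (Nat.prime_iff_prime_int.mp hq).not_isUnit (isUnit_of_dvd_one h1)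

section Frey

variable (P : FreyPackage) {q : ℕ} (hq : q.Prime)
include hq

lemma not_dvd_b_of_dvd_a (h : (q : ℤ) ∣ P.a) : ¬ (q : ℤ) ∣ P.b :=
  not_dvd_of_gcd_eq_one hq P.hgcdab h

lemma not_dvd_c_of_dvd_a (h : (q : ℤ) ∣ P.a) : ¬ (q : ℤ) ∣ P.c :=
  not_dvd_of_gcd_eq_one hq P.hgcdac h

lemma not_dvd_a_of_dvd_b (h : (q : ℤ) ∣ P.b) : ¬ (q : ℤ) ∣ P.a :=
  not_dvd_of_gcd_eq_one hq (by rw [gcd_comm]; exact P.hgcdab) h

lemma not_dvd_c_of_dvd_b (h : (q : ℤ) ∣ P.b) : ¬ (q : ℤ) ∣ P.c :=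
  not_dvd_of_gcd_eq_one hq P.hgcdbc h

lemma not_dvd_a_of_dvd_c (h : (q : ℤ) ∣ P.c) : ¬ (q : ℤ) ∣ P.a :=
  not_dvd_of_gcd_eq_one hq (by rw [gcd_comm]; exact P.hgcdac) h

lemma not_dvd_b_of_dvd_c (h : (q : ℤ) ∣ P.c) : ¬ (q : ℤ) ∣ P.b :=
  not_dvd_of_gcd_eq_one hq (by rw [gcd_comm]; exact P.hgcdbc) h

end Frey

end Fermat.Agent.S05.Arith
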