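/-
M1 / S05, module T8: final assembly of S05 from the outputs of T5 (good reduction) and T7
(multiplicative reduction), via the transfer T0 and the arithmetic bookkeeping in `Arith`.
Owner: helper19.
-/
import Fermat.Agent.S05.Transfer
import Fermat.Agent.S05.Arith

set_option autoImplicit false

open WeierstrassCurve WeierstrassCurve.Affine

namespace Fermat.Agent.S05.Assembly

open Fermat.Agent.S05.Transfer Fermat.Agent.S05.Arith

local notation "Qbar" => AlgebraicClosure ℚ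

/-- Shape of the output of T5 (good reduction): inertia at `q` fixes the `p`-torsion of `Wd d₁ d₂`
when `d₁, d₂, d₁ - d₂, 2, p` are all units at `q`. -/
def GoodStatement : Prop :=
  ∀ (A : ValuationSubring Qbar) (p : ℕ) (d₁ d₂ : ℚ), p.Prime → p ≠ 2 →
    A.valuation (2 : Qbar) = 1 → A.valuation (p : Qbar) = 1 →
    A.valuation (algebraMap ℚ Qbar d₁) = 1 → A.valuation (algebraMap ℚ Qbar d₂) = 1 →
    A.valuation (algebraMap ℚ Qbar (d₁ - d₂)) = 1 →
    ∀ σ ∈ A.inertiaSubgroupIn ℚ,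
      ∀ x : Submodule.torsionBy ℤ ((Wd d₁ d₂).toAffine⁄Qbar).Point p, σ • x = x

/-- Shape of the output of T7 (multiplicative reduction): inertia at `q` fixes the `p`-torsion of
`Wd d₁ d₂` when `v(d₁) = v(q)^(p n)`, `n ≥ 1`, and `d₂, d₁ - d₂, 2, p` are units at `q`. -/
def BadStatement : Prop :=
  ∀ (A : ValuationSubring Qbar) (p q : ℕ) (d₁ d₂ : ℚ) (n : ℕ), p.Prime → p ≠ 2 → q.Prime →
    q ≠ 2 → q ≠ p → A.LiesOverPrime q → 1 ≤ n →
    A.valuation (2 : Qbar) = 1 → A.valuation (p : Qbar) = 1 →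
    A.valuation (algebraMap ℚ Qbar d₁) = A.valuation (q : Qbar) ^ (p * n) →
    A.valuation (algebraMap ℚ Qbar d₂) = 1 →
    A.valuation (algebraMap ℚ Qbar (d₁ - d₂)) = 1 →
    ∀ σ ∈ A.inertiaSubgroupIn ℚ,
      ∀ x : Submodule.torsionBy ℤ ((Wd d₁ d₂).toAffine⁄Qbar).Point p, σ • x = x

lemma algebraMap_intCast_pow (m : ℤ) (p : ℕ) :
    algebraMap ℚ Qbar ((m : ℚ) ^ p) = (m : Qbar) ^ p := by
  simp

lemma algebraMap_neg_intCast_pow (m : ℤ) (p : ℕ) :
    algebraMap ℚ Qbar (-(m : ℚ) ^ p) = -(m : Qbar) ^ p := by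
  simp

theorem unramified_of_good_bad (hGood : GoodStatement) (hBad : BadStatement)
    (P : FreyPackage) {q : ℕ} (hq : q.Prime) (hq2 : q ≠ 2) (hqp : q ≠ P.p) :
    P.GaloisRepUnramifiedAt q := by
  have hp2 : P.p ≠ 2 := by have := P.hp5; omega
  have hFLT : (P.a : ℚ) ^ P.p + (P.b : ℚ) ^ P.p = (P.c : ℚ) ^ P.p := hFLT_rat P
  intro A hA σ hσ
  have h2 := valuation_two_eq_one A hq hq2 hA
  have hpv := valuation_prime_eq_one A hq P.pp hqp hA
  by_cases ha : (q : ℤ) ∣ P.a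
  · -- `q ∣ a`: `(d₁, d₂) = (a^p, -b^p)`, `d₁ - d₂ = c^p`
    have hb := not_dvd_b_of_dvd_a P hq ha
    have hc := not_dvd_c_of_dvd_a P hq ha
    obtain ⟨n, hn, hv⟩ := exists_valuation_intCast_pow A hq hA P.ha0 ha P.p
    refine (frey_fixes_torsionBy_iff P (freyCurve_eq_a P) σ P.p).mpr ?_
    refine hBad A P.p q _ _ n P.pp hp2 hq hq2 hqp hA hn h2 hpv ?_ ?_ ?_ σ hσ
    · rw [algebraMap_intCast_pow]; exact hv
    · rw [algebraMap_neg_intCast_pow, Valuation.map_neg]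
      exact valuation_intCast_pow_eq_one A hq hA hb P.p
    · have : (P.a : ℚ) ^ P.p - -(P.b : ℚ) ^ P.p = (P.c : ℚ) ^ P.p := by linarith
      rw [this, algebraMap_intCast_pow]
      exact valuation_intCast_pow_eq_one A hq hA hc P.p
  by_cases hb : (q : ℤ) ∣ P.b
  · -- `q ∣ b`: `(d₁, d₂) = (-b^p, a^p)`, `d₁ - d₂ = -c^p`
    have hc := not_dvd_c_of_dvd_b P hq hb
    obtain ⟨n, hn, hv⟩ := exists_valuation_intCast_pow A hq hA P.hb0 hb P.p
    refine (frey_fixes_torsionBy_iff P (freyCurve_eq_b P) σ P.p).mpr ?_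
    refine hBad A P.p q _ _ n P.pp hp2 hq hq2 hqp hA hn h2 hpv ?_ ?_ ?_ σ hσ
    · rw [algebraMap_neg_intCast_pow, Valuation.map_neg]; exact hv
    · rw [algebraMap_intCast_pow]
      exact valuation_intCast_pow_eq_one A hq hA ha P.p
    · have : -(P.b : ℚ) ^ P.p - (P.a : ℚ) ^ P.p = -(P.c : ℚ) ^ P.p := by linarith
      rw [this, algebraMap_neg_intCast_pow, Valuation.map_neg]
      exact valuation_intCast_pow_eq_one A hq hA hc P.p
  by_cases hc : (q : ℤ) ∣ P.c
  · -- `q ∣ c`: `(d₁, d₂) = (-c^p, -a^p)`, `d₁ - d₂ = -b^p`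
    obtain ⟨n, hn, hv⟩ := exists_valuation_intCast_pow A hq hA P.hc0 hc P.p
    refine (frey_fixes_torsionBy_iff P (freyCurve_eq_c P) σ P.p).mpr ?_
    refine hBad A P.p q _ _ n P.pp hp2 hq hq2 hqp hA hn h2 hpv ?_ ?_ ?_ σ hσ
    · rw [algebraMap_neg_intCast_pow, Valuation.map_neg]; exact hv
    · rw [algebraMap_neg_intCast_pow, Valuation.map_neg]
      exact valuation_intCast_pow_eq_one A hq hA ha P.p
    · have : -(P.c : ℚ) ^ P.p - -(P.a : ℚ) ^ P.p = -(P.b : ℚ) ^ P.p := by linarith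
      rw [this, algebraMap_neg_intCast_pow, Valuation.map_neg]
      exact valuation_intCast_pow_eq_one A hq hA hb P.p
  · -- good reduction: `(d₁, d₂) = (a^p, -b^p)`
    refine (frey_fixes_torsionBy_iff P (freyCurve_eq_a P) σ P.p).mpr ?_
    refine hGood A P.p _ _ P.pp hp2 h2 hpv ?_ ?_ ?_ σ hσ
    · rw [algebraMap_intCast_pow]
      exact valuation_intCast_pow_eq_one A hq hA ha P.p
    · rw [algebraMap_neg_intCast_pow, Valuation.map_neg]
      exact valuation_intCast_pow_eq_one A hq hA hb P.p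
    · have : (P.a : ℚ) ^ P.p - -(P.b : ℚ) ^ P.p = (P.c : ℚ) ^ P.p := by linarith
      rw [this, algebraMap_intCast_pow]
      exact valuation_intCast_pow_eq_one A hq hA hc P.p

end Fermat.Agent.S05.Assembly
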