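import Mathlib
import Fermat.Prelude.Def_FLTPrelim_GaloisRep
import Fermat.Prelude.Def_FLTPrelim_Ramification

/-!
# M1 / S05, assembly piece C6

An element `σ` of the inertia group fixes every point `X` of `E0` (kernel of reduction, or
integral with nonsingular reduction) such that `p • X` is `σ`-fixed, provided the kernel of
reduction `E1` has no `p`-torsion.  The facts about `E1` are taken as a hypothesis structure
(`KernelFacts`), to be discharged by the kernel-of-reduction files.
-/

set_option autoImplicit false

namespace Fermat.Agent.S05.Asm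

open WeierstrassCurve WeierstrassCurve.Affine

variable {F K : Type*} [Field F] [Field K] [DecidableEq K] [Algebra F K]

/-- Kernel of reduction: the point at infinity, or an affine point whose `x`-coordinate is
not integral. -/
def InE1 (A : ValuationSubring K) {W : Affine K} (P : W.Point) : Prop :=
  P = 0 ∨ ∃ x y h, P = Point.some x y h ∧ x ∉ A

/-- `(x, y)` is integral and its reduction is a nonsingular point of the reduced curve. -/
def NonsingRed (A : ValuationSubring K) (W : Affine K) (x y : K) : Prop :=
  x ∈ A ∧ y ∈ A ∧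
    (W.polynomialX.evalEval x y ∉ A.nonunits ∨ W.polynomialY.evalEval x y ∉ A.nonunits)

/-- Points with nonsingular reduction (including the kernel of reduction). -/
def InE0 (A : ValuationSubring K) {W : Affine K} (P : W.Point) : Prop :=
  InE1 A P ∨ ∃ x y h, P = Point.some x y h ∧ NonsingRed A W x y

/-- The two properties of an inertia element that are used. -/
structure IsInertial (A : ValuationSubring K) (σ : K ≃ₐ[F] K) : Prop where
  mem_iff : ∀ x : K, σ x ∈ A ↔ x ∈ A
  sub_mem : ∀ x : K, x ∈ A → σ x - x ∈ A.nonunits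

/-- The facts on the kernel of reduction that are used. -/
structure KernelFacts (A : ValuationSubring K) (W : Affine K) (p : ℕ) : Prop where
  neg : ∀ P : W.Point, InE1 A P → InE1 A (-P)
  add : ∀ P Q : W.Point, InE1 A P → InE1 A Q → InE1 A (P + Q)
  tors : ∀ P : W.Point, InE1 A P → p • P = 0 → P = 0
  sameRed : ∀ (x y : K) (h : W.Nonsingular x y) (x' y' : K) (h' : W.Nonsingular x' y'),
    NonsingRed A W x y → x' ∈ A → y' ∈ A → x - x' ∈ A.nonunits → y - y' ∈ A.nonunits →
    InE1 A (Point.some x y h - Point.some x' y' h')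

omit [DecidableEq K] in
lemma inE1_zero (A : ValuationSubring K) {W : Affine K} : InE1 A (0 : W.Point) := Or.inl rfl

omit [DecidableEq K] in
lemma inE0_of_inE1 {A : ValuationSubring K} {W : Affine K} {P : W.Point} (h : InE1 A P) :
    InE0 A P := Or.inl h

omit [DecidableEq K] in
lemma inE0_zero (A : ValuationSubring K) {W : Affine K} : InE0 A (0 : W.Point) :=
  Or.inl (inE1_zero A)

lemma smul_some {W : Affine F} (σ : K ≃ₐ[F] K) (x y : K) (h : (W⁄K).Nonsingular x y) :
    ∃ h' : (W⁄K).Nonsingular (σ x) (σ y), σ • (Point.some x y h) = Point.some (σ x) (σ y) h' :=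
  ⟨(W.baseChange_nonsingular (A := K) (B := K) (f := σ.toAlgHom) σ.injective x y).mpr h, rfl⟩

lemma smul_nsmul_point {W : Affine F} (σ : K ≃ₐ[F] K) (n : ℕ) (P : (W⁄K).Point) :
    σ • (n • P) = n • (σ • P) := by
  induction n with
  | zero => simp
  | succ k ih => rw [succ_nsmul, smul_add, ih, succ_nsmul]

/-- **C6**: inertia fixes a point of `E0` as soon as it fixes its `p`-th multiple. -/
theorem smul_eq_self_of_inE0 {W : Affine F} {A : ValuationSubring K} {σ : K ≃ₐ[F] K} {p : ℕ}
    (hσ : IsInertial A σ) (hK : KernelFacts A (W⁄K) p) (X : (W⁄K).Point) (hX : InE0 A X)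
    (hfix : σ • (p • X) = p • X) : σ • X = X := by
  have key : InE1 A (σ • X - X) := by
    rcases hX with h1 | ⟨x, y, h, rfl, hns⟩
    · rcases h1 with rfl | ⟨x, y, h, rfl, hx⟩
      · rw [smul_zero, sub_zero]; exact inE1_zero A
      · obtain ⟨h', e⟩ := smul_some σ x y h
        rw [e, sub_eq_add_neg]
        refine hK.add _ _ (Or.inr ⟨σ x, σ y, h', rfl, ?_⟩) (hK.neg _ (Or.inr ⟨x, y, h, rfl, hx⟩))
        rwa [hσ.mem_iff]
    · obtain ⟨h', e⟩ := smul_some σ x y h
      rw [e]
      have h1 := hK.sameRed x y h (σ x) (σ y) h' hns ((hσ.mem_iff x).mpr hns.1)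
        ((hσ.mem_iff y).mpr hns.2.1)
        (by
          have := A.nonunits.neg_mem (hσ.sub_mem x hns.1)
          rwa [neg_sub] at this)
        (by
          have := A.nonunits.neg_mem (hσ.sub_mem y hns.2.1)
          rwa [neg_sub] at this)
      have := hK.neg _ h1
      rwa [neg_sub] at this
  have h0 : p • (σ • X - X) = 0 := by
    rw [smul_sub, ← smul_nsmul_point, hfix, sub_self]
  exact sub_eq_zero.mp (hK.tors _ key h0)

end Fermat.Agent.S05.Asm
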