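import Mathlib
import Fermat.Agent.S05.Fixed
import Fermat.Agent.S05.Transfer

/-!
# M1 / S05: the model `Wd d1 d2 : y² = x (x - d1) (x - d2)` and reduction of its points
-/

set_option autoImplicit false

namespace Fermat.Agent.S05.Asm

open WeierstrassCurve WeierstrassCurve.Affine

variable {F K : Type*} [Field F] [Field K] [Algebra F K]

open Fermat.Agent.S05.Transfer (Wd Wd_baseChange Wd_equation_iff)

lemma equation_Wd (d1 d2 x y : K) :
    (Wd d1 d2).toAffine.Equation x y ↔ y ^ 2 = x * (x - d1) * (x - d2) :=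
  Wd_equation_iff d1 d2 x y

lemma polynomialX_Wd (d1 d2 x y : K) :
    (Wd d1 d2).toAffine.polynomialX.evalEval x y
      = -(3 * x ^ 2 - 2 * (d1 + d2) * x + d1 * d2) := by
  rw [evalEval_polynomialX]; simp only [Transfer.Wd_a₁, Transfer.Wd_a₂, Transfer.Wd_a₄]; ring

lemma polynomialY_Wd (d1 d2 x y : K) :
    (Wd d1 d2).toAffine.polynomialY.evalEval x y = 2 * y := by
  rw [evalEval_polynomialY]; simp only [Transfer.Wd_a₁, Transfer.Wd_a₃]; ring

lemma nonsingular_Wd (d1 d2 x y : K) :
    (Wd d1 d2).toAffine.Nonsingular x y ↔ y ^ 2 = x * (x - d1) * (x - d2) ∧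
      (3 * x ^ 2 - 2 * (d1 + d2) * x + d1 * d2 ≠ 0 ∨ 2 * y ≠ 0) := by
  rw [Affine.Nonsingular, equation_Wd, polynomialX_Wd, polynomialY_Wd, neg_ne_zero]

section Valuation

variable {Γ₀ : Type*} [LinearOrderedCommGroupWithZero Γ₀] (v : Valuation K Γ₀)

lemma val_mul_lt_one_left {a b : K} (ha : v a < 1) (hb : v b ≤ 1) : v (a * b) < 1 := by
  rw [map_mul]
  exact mul_lt_one_of_lt_of_le ha hb

lemma val_eq_one_of_sub {u w : K} (hu : v u = 1) (h : v (w - u) < 1) : v w = 1 := by
  rw [← hu]
  exact v.map_eq_of_sub_lt (by rwa [hu])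

lemma val_le_one_of_sq {y : K} (h : v (y ^ 2) ≤ 1) : v y ≤ 1 := by
  by_contra hlt
  rw [not_le] at hlt
  have : 1 < v (y ^ 2) := by
    rw [map_pow]
    exact one_lt_pow' hlt two_ne_zero
  exact absurd h (not_le.mpr this)

/-- Key computation: on `y² = x (x - d1) (x - d2)` with `d2`, `d1 - d2`, `2` units and `d1`
integral, an integral point with (`d1` a unit or `x` a unit) has a unit among `2y`, `f'(x)`. -/
lemma val_deriv_eq_one {d1 d2 x y : K} (h2 : v 2 = 1) (hd1 : v d1 ≤ 1) (hd2 : v d2 = 1)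
    (hd12 : v (d1 - d2) = 1) (hx : v x ≤ 1) (heq : y ^ 2 = x * (x - d1) * (x - d2))
    (hor : v d1 = 1 ∨ v x = 1) :
    v y ≤ 1 ∧ (v (3 * x ^ 2 - 2 * (d1 + d2) * x + d1 * d2) = 1 ∨ v (2 * y) = 1) := by
  have h3 : v (3 : K) ≤ 1 := by
    have : (3 : K) = 2 + 1 := by norm_num
    rw [this]
    exact v.map_add_le h2.le (by rw [map_one])
  have hxd1 : v (x - d1) ≤ 1 := v.map_sub_le hx hd1
  have hxd2 : v (x - d2) ≤ 1 := v.map_sub_le hx hd2.le
  have hy : v y ≤ 1 := by
    apply val_le_one_of_sq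
    rw [heq, map_mul, map_mul]
    exact mul_le_one' (mul_le_one' hx hxd1) hxd2
  refine ⟨hy, ?_⟩
  by_cases hy1 : v y = 1
  · right; rw [map_mul, h2, hy1, one_mul]
  left
  have hylt : v y < 1 := lt_of_le_of_ne hy hy1
  have hprod : v (x * (x - d1) * (x - d2)) < 1 := by
    rw [← heq, map_pow]
    exact pow_lt_one' hylt two_ne_zero
  have hcases : v x < 1 ∨ v (x - d1) < 1 ∨ v (x - d2) < 1 := by
    by_contra hcon
    push Not at hcon
    obtain ⟨c1, c2, c3⟩ := hcon
    have e1 : v x = 1 := le_antisymm hx c1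
    have e2 : v (x - d1) = 1 := le_antisymm hxd1 c2
    have e3 : v (x - d2) = 1 := le_antisymm hxd2 c3
    rw [map_mul, map_mul, e1, e2, e3] at hprod
    simp at hprod
  have h2x : v (2 * x) ≤ 1 := by rw [map_mul, h2, one_mul]; exact hx
  rcases hcases with c | c | c
  · -- `x` small, so `d1` is a unit
    have hd1' : v d1 = 1 := by
      rcases hor with h | h
      · exact h
      · exact absurd h (ne_of_lt c)
    apply val_eq_one_of_sub v (u := d1 * d2) (by rw [map_mul, hd1', hd2, one_mul])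
    have : 3 * x ^ 2 - 2 * (d1 + d2) * x + d1 * d2 - d1 * d2 = x * (3 * x - 2 * (d1 + d2)) := by
      ring
    rw [this]
    apply val_mul_lt_one_left v c
    apply v.map_sub_le
    · rw [map_mul]; exact mul_le_one' h3 hx
    · rw [map_mul, h2, one_mul]; exact v.map_add_le hd1 hd2.le
  · -- `x ≡ d1`
    by_cases hx1 : v x = 1
    · have hxd2' : v (x - d2) = 1 := by
        have : x - d2 = (d1 - d2) + (x - d1) := by ring
        rw [this, v.map_add_eq_of_lt_left (by rw [hd12]; exact c), hd12]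
      apply val_eq_one_of_sub v (u := x * (x - d2)) (by rw [map_mul, hx1, hxd2', one_mul])
      have : 3 * x ^ 2 - 2 * (d1 + d2) * x + d1 * d2 - x * (x - d2)
          = (x - d1) * (2 * x - d2) := by ring
      rw [this]
      exact val_mul_lt_one_left v c (v.map_sub_le h2x hd2.le)
    · -- then `x` is small and `d1` is a unit: impossible since `x ≡ d1`
      exfalso
      have hxlt : v x < 1 := lt_of_le_of_ne hx hx1
      have hd1' : v d1 = 1 := by
        rcases hor with h | h
        · exact h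
        · exact absurd h hx1
      have : v d1 < 1 := by
        have e : d1 = x - (x - d1) := by ring
        rw [e]
        exact v.map_sub_lt hxlt c
      exact absurd hd1' (ne_of_lt this)
  · -- `x ≡ d2`
    have hx1 : v x = 1 := by
      have e : x = d2 + (x - d2) := by ring
      rw [e, v.map_add_eq_of_lt_left (by rw [hd2]; exact c), hd2]
    have hxd1' : v (x - d1) = 1 := by
      have : x - d1 = (d2 - d1) + (x - d2) := by ring
      have hd21 : v (d2 - d1) = 1 := by rw [v.map_sub_swap, hd12]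
      rw [this, v.map_add_eq_of_lt_left (by rw [hd21]; exact c), hd21]
    apply val_eq_one_of_sub v (u := x * (x - d1)) (by rw [map_mul, hx1, hxd1', one_mul])
    have : 3 * x ^ 2 - 2 * (d1 + d2) * x + d1 * d2 - x * (x - d1)
        = (x - d2) * (2 * x - d1) := by ring
    rw [this]
    exact val_mul_lt_one_left v c (v.map_sub_le h2x hd1)

end Valuation

/-- Integral points of `Wd d1 d2` with `d1` or `x` a unit have nonsingular reduction. -/
lemma nonsingRed_Wd (A : ValuationSubring K) {d1 d2 x y : K} (h2 : A.valuation 2 = 1)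
    (hd1 : A.valuation d1 ≤ 1) (hd2 : A.valuation d2 = 1) (hd12 : A.valuation (d1 - d2) = 1)
    (hx : x ∈ A) (heq : (Wd d1 d2).toAffine.Equation x y)
    (hor : A.valuation d1 = 1 ∨ A.valuation x = 1) :
    NonsingRed A (Wd d1 d2).toAffine x y := by
  rw [equation_Wd] at heq
  obtain ⟨hy, h⟩ := val_deriv_eq_one A.valuation h2 hd1 hd2 hd12
    ((A.valuation_le_one_iff x).mpr hx) heq hor
  refine ⟨hx, (A.valuation_le_one_iff y).mp hy, ?_⟩
  rw [polynomialX_Wd, polynomialY_Wd, A.mem_nonunits_iff, A.mem_nonunits_iff, Valuation.map_neg]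
  rcases h with h | h
  · left; rw [h]; exact lt_irrefl 1
  · right; rw [h]; exact lt_irrefl 1

end Fermat.Agent.S05.Asm
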