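import Mathlib
import Fermat.Agent.S05.WdBasic

/-!
# M1 / S05, assembly piece T5: the good reduction case
-/

set_option autoImplicit false

namespace Fermat.Agent.S05.Asm

open WeierstrassCurve WeierstrassCurve.Affine
open Fermat.Agent.S05.Transfer (Wd Wd_baseChange)

variable {F K : Type*} [Field F] [Field K] [DecidableEq K] [Algebra F K]

omit [DecidableEq K] in
/-- On `Wd d1 d2` (with `2`, `d2`, `d1 - d2` units and `d1` integral), an affine point such that
`d1` is a unit or `1 ≤ v x` lies in `E0`. -/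
lemma inE0_some_Wd (A : ValuationSubring K) {d1 d2 : F} (h2 : A.valuation (2 : K) = 1)
    (hd1 : A.valuation (algebraMap F K d1) ≤ 1) (hd2 : A.valuation (algebraMap F K d2) = 1)
    (hd12 : A.valuation (algebraMap F K d1 - algebraMap F K d2) = 1) {x y : K}
    (h : ((Wd d1 d2 : Affine F)⁄K).Nonsingular x y)
    (hor : A.valuation (algebraMap F K d1) = 1 ∨ 1 ≤ A.valuation x) :
    InE0 A (Point.some x y h) := by
  by_cases hx : x ∈ A
  · refine Or.inr ⟨x, y, h, rfl, ?_⟩
    have heq := h.1
    rw [Wd_baseChange] at heq ⊢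
    refine nonsingRed_Wd A h2 hd1 hd2 hd12 hx heq ?_
    rcases hor with h' | h'
    · exact Or.inl h'
    · exact Or.inr (le_antisymm ((A.valuation_le_one_iff x).mpr hx) h')
  · exact Or.inl (Or.inr ⟨x, y, h, rfl, hx⟩)

/-- **T5**: in the good reduction case, inertia fixes the `p`-torsion. -/
theorem good_fixed {d1 d2 : F} {A : ValuationSubring K} {σ : K ≃ₐ[F] K} {p : ℕ}
    (hσ : IsInertial A σ) (hK : KernelFacts A ((Wd d1 d2 : Affine F)⁄K) p)
    (h2 : A.valuation (2 : K) = 1)
    (hd1 : A.valuation (algebraMap F K d1) = 1) (hd2 : A.valuation (algebraMap F K d2) = 1)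
    (hd12 : A.valuation (algebraMap F K d1 - algebraMap F K d2) = 1)
    (P : ((Wd d1 d2 : Affine F)⁄K).Point) (hP : p • P = 0) : σ • P = P := by
  refine smul_eq_self_of_inE0 hσ hK P ?_ (by rw [hP, smul_zero])
  cases P with
  | zero => exact inE0_zero A
  | some x y h => exact inE0_some_Wd A h2 hd1.le hd2 hd12 h (Or.inl hd1)

end Fermat.Agent.S05.Asm
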