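import Mathlib
import Fermat.Agent.S05.Good

/-!
# M1 / S05, assembly piece T7: the multiplicative reduction case

`Wd d1 d2 : y² = x (x - d1) (x - d2)` with `v d1 = v q ^ (p * n) < 1`, `d2`, `d1 - d2`, `2` units.
The facts coming from the "pair law" at the node are taken as a hypothesis structure `NodeFacts`.
-/

set_option autoImplicit false

namespace Fermat.Agent.S05.Asm

open WeierstrassCurve WeierstrassCurve.Affine
open Fermat.Agent.S05.Transfer (Wd Wd_baseChange)

variable {F K : Type*} [Field F] [Field K] [DecidableEq K] [Algebra F K]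

/-- The point at infinity, or an affine point with `1 ≤ v x`. -/
def XBig (A : ValuationSubring K) {W : Affine K} (P : W.Point) : Prop :=
  P = 0 ∨ ∃ x y h, P = Point.some x y h ∧ 1 ≤ A.valuation x

/-- The consequences of the pair law that are used in the multiplicative case. -/
structure NodeFacts (A : ValuationSubring K) (d1 d2 : F) (p : ℕ) : Prop where
  pair : ∀ (x1 y1 : K) (h1 : ((Wd d1 d2 : Affine F)⁄K).Nonsingular x1 y1) (x2 y2 : K)
    (h2 : ((Wd d1 d2 : Affine F)⁄K).Nonsingular x2 y2),
    A.valuation (algebraMap F K d1) < A.valuation x1 → A.valuation x1 < 1 →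
    A.valuation x2 = A.valuation x1 → x1 ≠ x2 →
    XBig A (Point.some x1 y1 h1 + Point.some x2 y2 h2) ∨
      XBig A (Point.some x1 y1 h1 - Point.some x2 y2 h2)
  tors : ∀ (x y : K) (h : ((Wd d1 d2 : Affine F)⁄K).Nonsingular x y),
    A.valuation (algebraMap F K d1) < A.valuation x → A.valuation x < 1 →
    p • Point.some x y h = 0 →
    ∃ j : ℤ, A.valuation x ^ p = (A.valuation (algebraMap F K d1) ^ 2) ^ j
  transl : ∀ (h0 : ((Wd d1 d2 : Affine F)⁄K).Nonsingular 0 0) (x y : K)
    (h : ((Wd d1 d2 : Affine F)⁄K).Nonsingular x y),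
    A.valuation x ≤ A.valuation (algebraMap F K d1) → x ≠ 0 →
    XBig A (Point.some x y h + Point.some 0 0 h0)

section Gamma

variable {Γ₀ : Type*} [LinearOrderedCommGroupWithZero Γ₀]

lemma exists_nat_pow {c g M : Γ₀} {p n : ℕ} (hc0 : 0 < c) (hc1 : c < 1) (hp : p ≠ 0)
    (hM : M = c ^ (p * n)) (hg1 : g < 1) {j : ℤ} (h : g ^ p = (M ^ 2) ^ j) :
    ∃ i : ℕ, g = c ^ i := by
  have e1 : g ^ p = (c ^ (2 * (n : ℤ) * j)) ^ p := by
    rw [h, hM, ← zpow_natCast (c ^ (2 * (n : ℤ) * j)) p, ← zpow_mul, ← pow_mul,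
      ← zpow_natCast c, ← zpow_mul]
    congr 1; push_cast; ring
  have e2 : g = c ^ (2 * (n : ℤ) * j) := (pow_left_inj hp).mp e1
  have hpos : 0 < 2 * (n : ℤ) * j := by
    rw [e2] at hg1
    exact (zpow_lt_one_iff_right_of_lt_one₀ hc0 hc1).mp hg1
  refine ⟨(2 * (n : ℤ) * j).toNat, ?_⟩
  rw [e2, ← zpow_natCast, Int.toNat_of_nonneg hpos.le]

end Gamma

omit [DecidableEq K] in
lemma point_some_congr {W : Affine K} {x y x' y' : K} (h : W.Nonsingular x y)
    (h' : W.Nonsingular x' y') (hx : x = x') (hy : y = y') :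
    Point.some x y h = Point.some x' y' h' := by
  subst hx hy; rfl

omit [DecidableEq K] in
lemma inE0_of_xBig (A : ValuationSubring K) {d1 d2 : F} (h2 : A.valuation (2 : K) = 1)
    (hd1 : A.valuation (algebraMap F K d1) ≤ 1) (hd2 : A.valuation (algebraMap F K d2) = 1)
    (hd12 : A.valuation (algebraMap F K d1 - algebraMap F K d2) = 1)
    {P : ((Wd d1 d2 : Affine F)⁄K).Point} (hP : XBig A P) : InE0 A P := by
  rcases hP with rfl | ⟨x, y, h, rfl, hx⟩
  · exact inE0_zero A
  · exact inE0_some_Wd A h2 hd1 hd2 hd12 h (Or.inr hx)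

/-- If `σ` fixes `R` and `p • P = 0` and `P + R ∈ E0`, then `σ` fixes `P`. -/
lemma fixed_of_add {W : Affine F} {A : ValuationSubring K} {σ : K ≃ₐ[F] K} {p : ℕ}
    (hσ : IsInertial A σ) (hK : KernelFacts A (W⁄K) p) {P R : (W⁄K).Point} (hP : p • P = 0)
    (hR : σ • R = R) (hE : InE0 A (P + R)) : σ • P = P := by
  have h1 : σ • (p • (P + R)) = p • (P + R) := by
    rw [smul_nsmul_point, smul_add, hR, nsmul_add, nsmul_add, ← smul_nsmul_point, hP, smul_zero]
  have h2 := smul_eq_self_of_inE0 hσ hK _ hE h1
  rw [smul_add, hR] at h2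
  exact add_right_cancel h2

/-- **T7**: in the multiplicative reduction case, inertia fixes the `p`-torsion. -/
theorem bad_fixed {d1 d2 : F} {A : ValuationSubring K} {σ : K ≃ₐ[F] K} {p n q : ℕ}
    (hσ : IsInertial A σ) (hK : KernelFacts A ((Wd d1 d2 : Affine F)⁄K) p)
    (hN : NodeFacts (K := K) A d1 d2 p) (hp : p ≠ 0)
    (hsq : ∀ z : K, ∃ t : K, t ^ 2 = z)
    (h2 : A.valuation (2 : K) = 1)
    (hq0 : (q : K) ≠ 0) (hq1 : A.valuation (q : K) < 1)
    (hd1 : A.valuation (algebraMap F K d1) = A.valuation (q : K) ^ (p * n))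
    (hd1lt : A.valuation (algebraMap F K d1) < 1)
    (hd2 : A.valuation (algebraMap F K d2) = 1)
    (P : ((Wd d1 d2 : Affine F)⁄K).Point) (hP : p • P = 0) : σ • P = P := by
  set v := A.valuation with hv
  set D1 : K := algebraMap F K d1 with hD1
  set D2 : K := algebraMap F K d2 with hD2
  have hd12 : v (D1 - D2) = 1 := by
    rw [v.map_sub_swap]
    have : D2 - D1 = D2 + (-D1) := by ring
    rw [this, v.map_add_eq_of_lt_left (by rw [Valuation.map_neg, hd2]; exact hd1lt), hd2]
  have hD1ne : D1 ≠ 0 := by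
    intro h0
    rw [h0, map_zero] at hd1
    exact pow_ne_zero _ ((Valuation.ne_zero_iff v).mpr hq0) hd1.symm
  have hD2ne : D2 ≠ 0 := by
    intro h0
    rw [h0, map_zero] at hd2
    exact zero_ne_one hd2
  have hE0 : ∀ {Q : ((Wd d1 d2 : Affine F)⁄K).Point}, XBig A Q → InE0 A Q :=
    fun hQ => inE0_of_xBig A h2 hd1lt.le hd2 hd12 hQ
  have hns : ∀ x y : K, ((Wd d1 d2 : Affine F)⁄K).Nonsingular x y ↔
      y ^ 2 = x * (x - D1) * (x - D2) ∧
        (3 * x ^ 2 - 2 * (D1 + D2) * x + D1 * D2 ≠ 0 ∨ 2 * y ≠ 0) := by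
    intro x y
    rw [Wd_baseChange, nonsingular_Wd]
  -- the 2-torsion point `(0, 0)`
  have h00 : ((Wd d1 d2 : Affine F)⁄K).Nonsingular 0 0 := by
    rw [hns]
    refine ⟨by ring, Or.inl ?_⟩
    simpa using mul_ne_zero hD1ne hD2ne
  have hT0 : σ • (Point.some 0 0 h00) = Point.some 0 0 h00 := by
    obtain ⟨h', e⟩ := smul_some σ 0 0 h00
    rw [e]
    exact point_some_congr _ _ (map_zero σ) (map_zero σ)
  cases P with
  | zero => exact smul_zero σ
  | some x y h =>
    rcases le_or_gt 1 (v x) with hx1 | hx1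
    · -- `1 ≤ v x` : the point is in `E0`
      exact smul_eq_self_of_inE0 hσ hK _ (hE0 (Or.inr ⟨x, y, h, rfl, hx1⟩))
        (by rw [hP, smul_zero])
    rcases le_or_gt (v x) (v D1) with hxM | hxM
    · -- `v x ≤ M` : translate by `(0, 0)`
      by_cases hx0 : x = 0
      · have hy0 : y = 0 := by
          have := ((hns x y).mp h).1
          rw [hx0] at this
          simpa using this
        obtain ⟨h', e⟩ := smul_some σ x y h
        rw [e]
        refine point_some_congr _ _ ?_ ?_
        · rw [hx0, map_zero]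
        · rw [hy0, map_zero]
      · exact fixed_of_add hσ hK hP hT0 (hE0 (hN.transl h00 x y h hxM hx0))
    · -- `M < v x < 1`
      obtain ⟨j, hj⟩ := hN.tors x y h hxM hx1 hP
      have hc0 : 0 < v (q : K) := by
        rw [Valuation.pos_iff]; exact hq0
      obtain ⟨i, hi⟩ := exists_nat_pow hc0 hq1 hp hd1 hx1 hj
      -- the inertia-fixed point with `x`-coordinate `q ^ i`
      set xR : K := (q : K) ^ i with hxR
      have hvxR : v xR = v x := by rw [hxR, map_pow, hi]
      have hxRne : xR ≠ 0 := pow_ne_zero _ hq0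
      set τ : F := ((q : F) ^ i - d1) * ((q : F) ^ i - d2) / (q : F) ^ i with hτ
      have hxRF : algebraMap F K ((q : F) ^ i) = xR := by
        rw [map_pow, map_natCast]
      have hτK : algebraMap F K τ = (xR - D1) * (xR - D2) / xR := by
        rw [hτ, map_div₀, map_mul, map_sub, map_sub, hxRF]
      have hvτ : v (algebraMap F K τ) = 1 := by
        rw [hτK, map_div₀, map_mul]
        have e1 : v (xR - D1) = v xR := by
          have : xR - D1 = xR + (-D1) := by ring
          rw [this, v.map_add_eq_of_lt_left (by rw [Valuation.map_neg, hvxR]; exact hxM)]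
        have e2 : v (xR - D2) = 1 := by
          have : xR - D2 = -D2 + xR := by ring
          rw [this, v.map_add_eq_of_lt_left
            (by rw [Valuation.map_neg, hd2, hvxR]; exact hx1), Valuation.map_neg, hd2]
        rw [e1, e2, mul_one]
        exact div_self ((Valuation.ne_zero_iff v).mpr hxRne)
      obtain ⟨t, ht⟩ := hsq (algebraMap F K τ)
      have hvt : v t = 1 := by
        have : v t ^ 2 = 1 := by rw [← map_pow, ht, hvτ]
        exact (pow_eq_one_iff_left two_ne_zero).mp this
      have htA : t ∈ A := (A.valuation_le_one_iff t).mp hvt.le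
      have hσt : σ t = t := by
        have hsq' : σ t ^ 2 = t ^ 2 := by
          rw [← map_pow, ht, AlgEquiv.commutes]
        rcases sq_eq_sq_iff_eq_or_eq_neg.mp hsq' with h' | h'
        · exact h'
        · exfalso
          have hm := hσ.sub_mem t htA
          rw [h', A.mem_nonunits_iff] at hm
          have : -t - t = -(2 * t) := by ring
          rw [this, Valuation.map_neg, map_mul] at hm
          change v 2 * v t < 1 at hm
          rw [h2, hvt, one_mul] at hm
          exact lt_irrefl _ hm
      have hσxR : σ xR = xR := by rw [← hxRF, AlgEquiv.commutes]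
      have hR : ((Wd d1 d2 : Affine F)⁄K).Nonsingular xR (xR * t) := by
        rw [hns]
        refine ⟨?_, Or.inr ?_⟩
        · rw [mul_pow, ht, hτK]
          field_simp
        · have : v (2 * (xR * t)) ≠ 0 := by
            rw [map_mul, map_mul]
            rw [h2, hvt, one_mul, mul_one]
            exact (Valuation.ne_zero_iff v).mpr hxRne
          exact (Valuation.ne_zero_iff v).mp this
      have hRfix : σ • (Point.some xR (xR * t) hR) = Point.some xR (xR * t) hR := by
        obtain ⟨h', e⟩ := smul_some σ xR (xR * t) hR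
        rw [e]
        refine point_some_congr _ _ hσxR ?_
        rw [map_mul, hσxR, hσt]
      by_cases hxx : x = xR
      · -- `P = ± R`
        have hy : y = xR * t ∨ y = -(xR * t) := by
          have e1 := ((hns x y).mp h).1
          have e2 := ((hns xR (xR * t)).mp hR).1
          rw [hxx, ← e2] at e1
          exact sq_eq_sq_iff_eq_or_eq_neg.mp e1
        rcases hy with hy | hy
        · have : Point.some x y h = Point.some xR (xR * t) hR := point_some_congr _ _ hxx hy
          rw [this]; exact hRfix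
        · have : Point.some x y h = -Point.some xR (xR * t) hR := by
            rw [Point.neg_some]
            refine point_some_congr _ _ hxx ?_
            rw [hy, Affine.negY]
            simp [Wd, WeierstrassCurve.baseChange, WeierstrassCurve.map]
          rw [this, smul_neg, hRfix]
      · rcases hN.pair x y h xR (xR * t) hR hxM hx1 hvxR hxx with hE | hE
        · exact fixed_of_add hσ hK hP hRfix (hE0 hE)
        · rw [sub_eq_add_neg] at hE
          refine fixed_of_add hσ hK hP ?_ (hE0 hE)
          rw [smul_neg, hRfix]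

end Fermat.Agent.S05.Asm
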