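import Mathlib

/-!
# S05 / T3: two integral points with the same nonsingular reduction differ by a point of the
kernel of reduction

`K` a field, `A` a valuation subring, `W` a Weierstrass curve over `K` with `a₁, a₂, a₃, a₄ ∈ A`.
If `P = (x, y)` and `P' = (x', y')` have coordinates in `A`, `x - x'` and `y - y'` are non-units and
the reduction of `P` is a nonsingular point (i.e. the two partial derivatives at `P` are not both
non-units), then `P - P'` is `0` or has an `x`-coordinate outside `A`.

Namespace `Fermat.Agent.S05.SameRed`.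
-/

set_option autoImplicit false

namespace Fermat.Agent.S05.SameRed

open WeierstrassCurve WeierstrassCurve.Affine

section ValuationSubring

variable {K : Type*} [Field K] (A : ValuationSubring K)

/-- The product of two elements outside a valuation subring is outside it. -/
theorem mul_not_mem {a b : K} (ha : a ∉ A) (hb : b ∉ A) : a * b ∉ A := by
  rw [← A.valuation_le_one_iff, not_le] at ha hb ⊢
  rw [map_mul]
  exact one_lt_mul'' ha hb |>.trans_le le_rfl

/-- If `ℓ * d = n` with `d` a non-unit and `ℓ ∈ A`, then `n` is a non-unit. -/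
theorem mul_mem_nonunits_of_mem {l d : K} (hl : l ∈ A) (hd : d ∈ A.nonunits) :
    l * d ∈ A.nonunits := by
  rw [A.mem_nonunits_iff] at hd ⊢
  rw [map_mul]
  have h1 : A.valuation l ≤ 1 := (A.valuation_le_one_iff l).mpr hl
  calc A.valuation l * A.valuation d ≤ 1 * A.valuation d := by gcongr
    _ = A.valuation d := one_mul _
    _ < 1 := hd

theorem two_mem : (2 : K) ∈ A := by
  have := A.add_mem _ _ A.one_mem A.one_mem
  rwa [one_add_one_eq_two] at this

theorem nonunits_subset {a : K} (ha : a ∈ A.nonunits) : a ∈ A :=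
  A.nonunits_subset ha

theorem mul_mem_nonunits_of_mem' {l d : K} (hl : l ∈ A) (hd : d ∈ A.nonunits) :
    d * l ∈ A.nonunits := by
  rw [mul_comm]; exact mul_mem_nonunits_of_mem A hl hd

end ValuationSubring

variable {K : Type*} [Field K] (W : Affine K) (A : ValuationSubring K)

/-- If the slope is not in `A` then neither is the `x`-coordinate of the sum. -/
theorem addX_not_mem (ha₁ : W.a₁ ∈ A) (ha₂ : W.a₂ ∈ A) {x₁ x₂ l : K}
    (hx₁ : x₁ ∈ A) (hx₂ : x₂ ∈ A) (hl : l ∉ A) : W.addX x₁ x₂ l ∉ A := by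
  intro h
  have h1 : l * (l + W.a₁) = W.addX x₁ x₂ l + (W.a₂ + x₁ + x₂) := by
    rw [addX]; ring
  have h2 : l * (l + W.a₁) ∈ A := by
    rw [h1]
    exact A.add_mem _ _ h (A.add_mem _ _ (A.add_mem _ _ ha₂ hx₁) hx₂)
  have h3 : l + W.a₁ ∉ A := by
    intro h4
    apply hl
    have : l = (l + W.a₁) - W.a₁ := by ring
    rw [this]
    exact sub_mem h4 ha₁
  exact mul_not_mem A hl h3 h2

variable [DecidableEq K]

/-- **Same nonsingular reduction ⇒ difference in the kernel of reduction** (definition-free form):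
if `P - P'` is an affine point `(x₃, y₃)` then `x₃ ∉ A`. -/
theorem X_not_mem_of_sub_eq_some
    (ha₁ : W.a₁ ∈ A) (ha₂ : W.a₂ ∈ A) (ha₃ : W.a₃ ∈ A)
    {x y x' y' : K} (h : W.Nonsingular x y) (h' : W.Nonsingular x' y')
    (hx : x ∈ A) (hx' : x' ∈ A) (hy' : y' ∈ A)
    (hxx : x - x' ∈ A.nonunits) (hyy : y - y' ∈ A.nonunits)
    (hns : ¬ (W.a₁ * y - (3 * x ^ 2 + 2 * W.a₂ * x + W.a₄) ∈ A.nonunits ∧
      2 * y + W.a₁ * x + W.a₃ ∈ A.nonunits))
    {x₃ y₃ : K} {h₃ : W.Nonsingular x₃ y₃}
    (hsub : Point.some x y h - Point.some x' y' h' = Point.some x₃ y₃ h₃) : x₃ ∉ A := by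
  have hnegY' : W.negY x' y' ∈ A := by
    rw [negY]
    exact sub_mem (sub_mem (A.neg_mem _ hy') (A.mul_mem _ _ ha₁ hx')) ha₃
  rw [sub_eq_add_neg, Point.neg_some] at hsub
  by_cases hxe : x = x'
  · subst hxe
    by_cases hye : y = y'
    · -- `P = P'`, so the difference is `0`
      subst hye
      rw [Point.add_of_Y_eq rfl (W.negY_negY x y).symm] at hsub
      exact absurd hsub (by simp)
    · -- `P = -P'`, the difference is `2 • P`
      have hyneg : y = W.negY x y' := by
        rcases Y_eq_of_X_eq h.1 h'.1 rfl with h1 | h1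
        · exact absurd h1 hye
        · exact h1
      have hy'eq : y' = W.negY x y := by rw [hyneg, negY_negY]
      have hne : y ≠ W.negY x (W.negY x y') := by rw [negY_negY]; exact hye
      rw [Point.add_of_Y_ne hne] at hsub
      have hx₃ : x₃ = W.addX x x (W.slope x x y (W.negY x y')) := by
        have := (Point.some.injEq ..).mp hsub
        exact this.1.symm
      rw [hx₃]
      refine addX_not_mem W A ha₁ ha₂ hx hx ?_
      rw [slope_of_Y_ne rfl hne]
      -- the denominator is a non-unit, the numerator is a unit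
      have hden : y - W.negY x y = 2 * y + W.a₁ * x + W.a₃ := by rw [negY]; ring
      have hden' : y - W.negY x y ∈ A.nonunits := by rw [← hy'eq]; exact hyy
      have hden0 : y - W.negY x y ≠ 0 := by
        rw [← hy'eq]; exact sub_ne_zero.mpr hye
      intro hl
      apply hns
      refine ⟨?_, hden ▸ hden'⟩
      have := mul_mem_nonunits_of_mem A hl hden'
      rw [div_mul_cancel₀ _ hden0] at this
      have h2 : W.a₁ * y - (3 * x ^ 2 + 2 * W.a₂ * x + W.a₄) =
          -(3 * x ^ 2 + 2 * W.a₂ * x + W.a₄ - W.a₁ * y) := by ring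
      rw [h2]
      exact A.nonunits.neg_mem this
  · -- `x ≠ x'`
    rw [Point.add_of_X_ne hxe] at hsub
    have hx₃ : x₃ = W.addX x x' (W.slope x x' y (W.negY x' y')) := by
      have := (Point.some.injEq ..).mp hsub
      exact this.1.symm
    rw [hx₃]
    refine addX_not_mem W A ha₁ ha₂ hx hx' ?_
    rw [slope_of_X_ne hxe]
    have hd0 : x - x' ≠ 0 := sub_ne_zero.mpr hxe
    intro hl
    apply hns
    -- `ℓ * (x - x') = n` and `ℓ * (y - y') = n'`
    have hn : (y - W.negY x' y') / (x - x') * (x - x') = y - W.negY x' y' :=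
      div_mul_cancel₀ _ hd0
    have heq : W.Equation x y := h.1
    have heq' : W.Equation x' y' := h'.1
    rw [equation_iff] at heq heq'
    have hn' : (y - W.negY x' y') / (x - x') * (y - y') =
        x ^ 2 + x * x' + x' ^ 2 + W.a₂ * (x + x') + W.a₄ - W.a₁ * y := by
      rw [div_mul_eq_mul_div, div_eq_iff hd0, negY]
      linear_combination heq - heq'
    have h1 := mul_mem_nonunits_of_mem A hl hxx
    have h2 := mul_mem_nonunits_of_mem A hl hyy
    rw [hn] at h1
    rw [hn'] at h2
    constructor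
    · -- `W_X`
      have e : W.a₁ * y - (3 * x ^ 2 + 2 * W.a₂ * x + W.a₄) =
          -(x ^ 2 + x * x' + x' ^ 2 + W.a₂ * (x + x') + W.a₄ - W.a₁ * y)
            - (x - x') * (x' + 2 * x + W.a₂) := by ring
      rw [e]
      refine A.nonunits.sub_mem (A.nonunits.neg_mem h2) ?_
      exact mul_mem_nonunits_of_mem' A
        (A.add_mem _ _ (A.add_mem _ _ hx' (A.mul_mem _ _ (two_mem A) hx)) ha₂) hxx
    · -- `W_Y`
      have e : 2 * y + W.a₁ * x + W.a₃ = (y - W.negY x' y') + ((y - y') + W.a₁ * (x - x')) := by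
        rw [negY]; ring
      rw [e]
      refine A.nonunits.add_mem h1 (A.nonunits.add_mem hyy ?_)
      exact mul_mem_nonunits_of_mem A ha₁ hxx

/-- The kernel of reduction, as a predicate on points: `P = 0` or the `x`-coordinate of `P` is not
in `A`. -/
def InE1 (P : W.Point) : Prop :=
  ∀ (x y : K) (h : W.Nonsingular x y), P = Point.some x y h → x ∉ A

omit [DecidableEq K] in
theorem inE1_zero : InE1 W A (0 : W.Point) := by
  intro x y h h0
  exact absurd h0 (by simp)

omit [DecidableEq K] in
theorem inE1_some_iff {x y : K} (h : W.Nonsingular x y) :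
    InE1 W A (Point.some x y h) ↔ x ∉ A := by
  constructor
  · intro hP
    exact hP x y h rfl
  · intro hx x' y' h' he
    have := (Point.some.injEq ..).mp he
    rw [← this.1]
    exact hx

omit [DecidableEq K] in
theorem inE1_iff (P : W.Point) :
    InE1 W A P ↔ P = 0 ∨ ∃ (x y : K) (h : W.Nonsingular x y), P = Point.some x y h ∧ x ∉ A := by
  cases P with
  | zero => exact ⟨fun _ => Or.inl rfl, fun _ => inE1_zero W A⟩
  | some x y h =>
    rw [inE1_some_iff]
    constructor
    · intro hx
      exact Or.inr ⟨x, y, h, rfl, hx⟩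
    · rintro (h0 | ⟨x', y', h', he, hx'⟩)
      · exact absurd h0 (by simp)
      · have := (Point.some.injEq ..).mp he
        rw [this.1]
        exact hx'

omit [DecidableEq K] in
theorem inE1_neg {P : W.Point} (hP : InE1 W A P) : InE1 W A (-P) := by
  cases P with
  | zero => exact hP
  | some x y h =>
    rw [Point.neg_some, inE1_some_iff]
    exact (inE1_some_iff W A h).mp hP

/-- **Same nonsingular reduction ⇒ difference in the kernel of reduction**. -/
theorem inE1_sub
    (ha₁ : W.a₁ ∈ A) (ha₂ : W.a₂ ∈ A) (ha₃ : W.a₃ ∈ A)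
    {x y x' y' : K} (h : W.Nonsingular x y) (h' : W.Nonsingular x' y')
    (hx : x ∈ A) (hx' : x' ∈ A) (hy' : y' ∈ A)
    (hxx : x - x' ∈ A.nonunits) (hyy : y - y' ∈ A.nonunits)
    (hns : ¬ (W.a₁ * y - (3 * x ^ 2 + 2 * W.a₂ * x + W.a₄) ∈ A.nonunits ∧
      2 * y + W.a₁ * x + W.a₃ ∈ A.nonunits)) :
    InE1 W A (Point.some x y h - Point.some x' y' h') := by
  intro x₃ y₃ h₃ hsub
  exact X_not_mem_of_sub_eq_some W A ha₁ ha₂ ha₃ h h' hx hx' hy' hxx hyy hns hsub

end Fermat.Agent.S05.SameRed
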