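import Mathlib
import Fermat.Agent.S05.Bad
import Fermat.Agent.S05.Inertia
import Fermat.Agent.S05.SameRed
import Fermat.Agent.S05.Assembly

/-!
# M1 / S05: from the kernel-of-reduction facts (T2) and the node facts (T6) to S05

`KernelStatement` and `NodeStatement` are the exact shapes that the T2 and T6 files must
deliver; `unramified_of_statements` then gives S05.
-/

set_option autoImplicit false

namespace Fermat.Agent.S05.Asm

open WeierstrassCurve WeierstrassCurve.Affine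
open Fermat.Agent.S05.Transfer (Wd Wd_baseChange)

local notation "Qbar" => AlgebraicClosure ℚ

section General

variable {F K : Type*} [Field F] [Field K] [Algebra F K]

theorem isInertial_of_mem (A : ValuationSubring K) {σ : K ≃ₐ[F] K}
    (hσ : σ ∈ A.inertiaSubgroupIn F) : IsInertial A σ :=
  ⟨Inertia.apply_mem_iff_of_mem_inertiaSubgroupIn A hσ,
    fun _ hx => Inertia.apply_sub_mem_nonunits_of_mem_inertiaSubgroupIn A hσ hx⟩

lemma inE1_iff_sameRed (A : ValuationSubring K) (W : Affine K) (P : W.Point) :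
    InE1 A P ↔ SameRed.InE1 W A P :=
  (SameRed.inE1_iff W A P).symm

/-- `KernelFacts` from closure under addition and absence of `p`-torsion (T2), using T3. -/
theorem kernelFacts_of [DecidableEq K] (A : ValuationSubring K) (W : Affine K) (p : ℕ)
    (ha₁ : W.a₁ ∈ A) (ha₂ : W.a₂ ∈ A) (ha₃ : W.a₃ ∈ A)
    (hadd : ∀ P Q : W.Point, InE1 A P → InE1 A Q → InE1 A (P + Q))
    (htors : ∀ P : W.Point, InE1 A P → p • P = 0 → P = 0) : KernelFacts A W p where
  neg P hP := by
    rw [inE1_iff_sameRed] at hP ⊢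
    exact SameRed.inE1_neg W A hP
  add := hadd
  tors := htors
  sameRed x y h x' y' h' hns hx' hy' hxx hyy := by
    rw [inE1_iff_sameRed]
    refine SameRed.inE1_sub W A ha₁ ha₂ ha₃ h h' hns.1 hx' hy' hxx hyy ?_
    rintro ⟨c1, c2⟩
    have h3 := hns.2.2
    rw [evalEval_polynomialX, evalEval_polynomialY] at h3
    rcases h3 with h3 | h3
    · exact h3 c1
    · exact h3 c2

end General

/-- Output shape required from T2 (kernel of reduction of `Wd d₁ d₂` over `Qbar`). -/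
def KernelStatement : Prop :=
  ∀ (A : ValuationSubring Qbar) (p : ℕ) (d₁ d₂ : ℚ), p.Prime → p ≠ 2 →
    A.valuation (2 : Qbar) = 1 → A.valuation (p : Qbar) = 1 →
    A.valuation (algebraMap ℚ Qbar d₁) ≤ 1 → A.valuation (algebraMap ℚ Qbar d₂) ≤ 1 →
    (∀ P Q : ((Wd d₁ d₂).toAffine⁄Qbar).Point, InE1 A P → InE1 A Q → InE1 A (P + Q)) ∧
    (∀ P : ((Wd d₁ d₂).toAffine⁄Qbar).Point, InE1 A P → p • P = 0 → P = 0)

/-- Output shape required from T6 (pair law at the node of `Wd d₁ d₂` over `Qbar`). -/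
def NodeStatement : Prop :=
  ∀ (A : ValuationSubring Qbar) (p : ℕ) (d₁ d₂ : ℚ), p.Prime → p ≠ 2 →
    A.valuation (2 : Qbar) = 1 →
    A.valuation (algebraMap ℚ Qbar d₁) < 1 → algebraMap ℚ Qbar d₁ ≠ 0 →
    A.valuation (algebraMap ℚ Qbar d₂) = 1 →
    NodeFacts (K := Qbar) A d₁ d₂ p

theorem kernelFacts_of_statement (hT2 : KernelStatement) (A : ValuationSubring Qbar) (p : ℕ)
    (d₁ d₂ : ℚ) (hp : p.Prime) (hp2 : p ≠ 2) (h2 : A.valuation (2 : Qbar) = 1)
    (hpv : A.valuation (p : Qbar) = 1) (hd1 : A.valuation (algebraMap ℚ Qbar d₁) ≤ 1)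
    (hd2 : A.valuation (algebraMap ℚ Qbar d₂) ≤ 1) :
    KernelFacts A ((Wd d₁ d₂).toAffine⁄Qbar) p := by
  obtain ⟨hadd, htors⟩ := hT2 A p d₁ d₂ hp hp2 h2 hpv hd1 hd2
  refine kernelFacts_of A _ p ?_ ?_ ?_ hadd htors
  · rw [Wd_baseChange]; simp
  · rw [Wd_baseChange]
    simp only [Transfer.Wd_a₂]
    exact A.neg_mem _ (A.add_mem _ _ ((A.valuation_le_one_iff _).mp hd1)
      ((A.valuation_le_one_iff _).mp hd2))
  · rw [Wd_baseChange]; simp

lemma torsion_fixed_of {W : Affine ℚ} {σ : Qbar ≃ₐ[ℚ] Qbar} {p : ℕ}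
    (h : ∀ P : (W⁄Qbar).Point, p • P = 0 → σ • P = P)
    (x : Submodule.torsionBy ℤ (W⁄Qbar).Point p) : σ • x = x := by
  apply Subtype.ext
  rw [Inertia.coe_smul_torsionBy]
  apply h
  have := x.2
  rw [Submodule.mem_torsionBy_iff] at this
  rw [← natCast_zsmul]
  exact this

theorem goodStatement (hT2 : KernelStatement) : Assembly.GoodStatement := by
  intro A p d₁ d₂ hp hp2 h2 hpv hd1 hd2 hd12 σ hσ x
  refine torsion_fixed_of (fun P hP => ?_) x
  refine good_fixed (isInertial_of_mem A hσ)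
    (kernelFacts_of_statement hT2 A p d₁ d₂ hp hp2 h2 hpv hd1.le hd2.le) h2 hd1 hd2 ?_ P hP
  rw [← map_sub]; exact hd12

theorem badStatement (hT2 : KernelStatement) (hT6 : NodeStatement) : Assembly.BadStatement := by
  intro A p q d₁ d₂ n hp hp2 hq hq2 hqp hA hn h2 hpv hd1 hd2 hd12 σ hσ x
  refine torsion_fixed_of (fun P hP => ?_) x
  have hq0 : (q : Qbar) ≠ 0 := by exact_mod_cast hq.ne_zero
  have hq1 : A.valuation (q : Qbar) < 1 := A.mem_nonunits_iff.mp hA
  have hd1lt : A.valuation (algebraMap ℚ Qbar d₁) < 1 := by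
    rw [hd1]
    exact pow_lt_one₀ zero_le hq1 (Nat.mul_ne_zero hp.ne_zero (by omega))
  have hd1ne : algebraMap ℚ Qbar d₁ ≠ 0 := by
    intro h0
    rw [h0, map_zero] at hd1
    exact pow_ne_zero _ ((Valuation.ne_zero_iff _).mpr hq0) hd1.symm
  exact bad_fixed (isInertial_of_mem A hσ)
    (kernelFacts_of_statement hT2 A p d₁ d₂ hp hp2 h2 hpv hd1lt.le hd2.le)
    (hT6 A p d₁ d₂ hp hp2 h2 hd1lt hd1ne hd2) hp.ne_zero
    (fun z => IsAlgClosed.exists_pow_nat_eq z (by norm_num)) h2 hq0 hq1 hd1 hd1lt hd2 P hP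

/-- S05 from the T2 and T6 statements. -/
theorem unramified_of_statements (hT2 : KernelStatement) (hT6 : NodeStatement)
    (P : FreyPackage) {q : ℕ} (hq : q.Prime) (hq2 : q ≠ 2) (hqp : q ≠ P.p) :
    P.GaloisRepUnramifiedAt q :=
  Assembly.unramified_of_good_bad (goodStatement hT2) (badStatement hT2 hT6) P hq hq2 hqp

end Fermat.Agent.S05.Asm
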