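import Mathlib

/-!
# S05 / T2: the kernel of reduction (abstract `x`-coordinate form)

We axiomatise what is needed from an elliptic curve as an *`x`-coordinate structure*: an additive
commutative group `G` with a function `x : G → K` to a valued field satisfying the classical
addition–subtraction identities

* `x(P+Q) x(P-Q) (x_P - x_Q)² = (x_P x_Q)² - b₄ x_P x_Q - b₆ (x_P + x_Q) - b₈`,
* `(x(P+Q) + x(P-Q)) (x_P - x_Q)² = 2 (x_P + x_Q) x_P x_Q + b₂ x_P x_Q + b₄ (x_P + x_Q) + b₆`,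
* `x(2P) (4 x_P³ + b₂ x_P² + 2 b₄ x_P + b₆) = x_P⁴ - b₄ x_P² - 2 b₆ x_P - b₈`

with `v`-integral `b₂, b₄, b₆, b₈`.  From these alone we prove:

* (T2a) for every `c > 1`, `{P | P = 0 ∨ c ≤ v (x P)}` is a subgroup (`XCoord.filt`), hence so is
  the kernel of reduction `E₁ = {P | P = 0 ∨ 1 < v (x P)}` (`XCoord.kernel`);
* (T2b) if `p` is an odd prime with `v p = 1` and `v 2 = 1`, then `E₁` has no `p`-torsion.

Namespace `Fermat.Agent.S05.XCoordKernel` (file renamed from KernelTorsion.lean, which is now helper7's).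
-/

set_option autoImplicit false

namespace Fermat.Agent.S05.XCoordKernel

section ValuationLemmas

variable {K : Type*} [Field K] {Γ : Type*} [LinearOrderedCommGroupWithZero Γ] (v : Valuation K Γ)

theorem v_natCast_le_one (n : ℕ) : v (n : K) ≤ 1 := by
  induction n with
  | zero => simp
  | succ n ih =>
    rw [Nat.cast_succ]
    exact v.map_add_le ih (le_of_eq v.map_one)

theorem v_two_le_one : v (2 : K) ≤ 1 := by
  simpa using v_natCast_le_one v 2

theorem v_four_le_one : v (4 : K) ≤ 1 := by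
  simpa using v_natCast_le_one v 4

theorem v_intCast_le_one (n : ℤ) : v (n : K) ≤ 1 := by
  cases n with
  | ofNat n => simpa using v_natCast_le_one v n
  | negSucc n =>
    rw [Int.cast_negSucc, Valuation.map_neg]
    exact v_natCast_le_one v (n + 1)

theorem v_pos_of_one_lt {a : K} (ha : 1 < v a) : 0 < v a := lt_trans zero_lt_one ha

/-- Valuation of the numerator of the product identity. -/
theorem v_prodPoly {a b b4 b6 b8 : K} (hb4 : v b4 ≤ 1) (hb6 : v b6 ≤ 1) (hb8 : v b8 ≤ 1)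
    (ha : 1 < v a) (hb : 1 < v b) :
    v ((a * b) ^ 2 - b4 * (a * b) - b6 * (a + b) - b8) = (v a * v b) ^ 2 := by
  have hab : 1 < v a * v b := one_lt_mul'' ha hb
  have h1 : v (b4 * (a * b) + b6 * (a + b) + b8) ≤ v a * v b := by
    refine v.map_add_le (v.map_add_le ?_ ?_) ?_
    · rw [map_mul, map_mul]
      calc v b4 * (v a * v b) ≤ 1 * (v a * v b) := by gcongr
        _ = _ := one_mul _
    · rw [map_mul]
      have : v (a + b) ≤ v a * v b :=
        v.map_add_le (le_mul_of_one_le_right' hb.le) (le_mul_of_one_le_left' ha.le)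
      calc v b6 * v (a + b) ≤ 1 * (v a * v b) := by gcongr
        _ = _ := one_mul _
    · exact hb8.trans hab.le
  have h2 : v a * v b < (v a * v b) ^ 2 := by
    rw [sq]
    exact lt_mul_of_one_lt_left (lt_trans zero_lt_one hab) hab
  have e : (a * b) ^ 2 - b4 * (a * b) - b6 * (a + b) - b8 =
      (a * b) ^ 2 - (b4 * (a * b) + b6 * (a + b) + b8) := by ring
  rw [e, v.map_sub_eq_of_lt_left]
  · rw [map_pow, map_mul]
  · rw [map_pow, map_mul]
    exact lt_of_le_of_lt h1 h2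

/-- Valuation bound for the numerator of the sum identity. -/
theorem v_sumPoly_le {a b b2 b4 b6 : K} (hb2 : v b2 ≤ 1) (hb4 : v b4 ≤ 1) (hb6 : v b6 ≤ 1)
    (ha : 1 < v a) (hb : 1 < v b) (hba : v b ≤ v a) :
    v (2 * (a + b) * (a * b) + b2 * (a * b) + b4 * (a + b) + b6) ≤ v a * (v a * v b) := by
  have hab : 1 < v a * v b := one_lt_mul'' ha hb
  have hsum : v (a + b) ≤ v a := v.map_add_le le_rfl hba
  have hbig : 1 ≤ v a * (v a * v b) := (one_lt_mul'' ha hab).le
  refine v.map_add_le (v.map_add_le (v.map_add_le ?_ ?_) ?_) ?_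
  · simp only [map_mul]
    calc v 2 * v (a + b) * (v a * v b) ≤ 1 * v a * (v a * v b) := by
          gcongr
          exact v_two_le_one v
      _ = _ := by rw [one_mul]
  · rw [map_mul, map_mul]
    calc v b2 * (v a * v b) ≤ 1 * (v a * v b) := by gcongr
      _ = v a * v b := one_mul _
      _ ≤ v a * (v a * v b) := le_mul_of_one_le_left' ha.le
  · rw [map_mul]
    calc v b4 * v (a + b) ≤ 1 * v a := by gcongr
      _ = v a := one_mul _
      _ ≤ v a * (v a * v b) := le_mul_of_one_le_right' hab.le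
  · exact hb6.trans hbig

/-- **Roots of the addition–subtraction quadratic**: if `v b ≤ v a`, both `> 1`, then each of the
two roots `r, t` has valuation at least `v b`. -/
theorem v_root_ge {a b r t b2 b4 b6 b8 : K} (hb2 : v b2 ≤ 1) (hb4 : v b4 ≤ 1) (hb6 : v b6 ≤ 1)
    (hb8 : v b8 ≤ 1) (ha : 1 < v a) (hb : 1 < v b) (hba : v b ≤ v a) (hne : a ≠ b)
    (hprod : r * t * (a - b) ^ 2 = (a * b) ^ 2 - b4 * (a * b) - b6 * (a + b) - b8)
    (hsum : (r + t) * (a - b) ^ 2 =
      2 * (a + b) * (a * b) + b2 * (a * b) + b4 * (a + b) + b6) :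
    v b ≤ v r := by
  by_contra hlt
  rw [not_le] at hlt
  have ha0 : 0 < v a := v_pos_of_one_lt v ha
  have hb0 : 0 < v b := v_pos_of_one_lt v hb
  have hD0 : 0 < v ((a - b) ^ 2) := by
    rw [zero_lt_iff, Ne, v.zero_iff]
    exact pow_ne_zero 2 (sub_ne_zero.mpr hne)
  have hDle : v ((a - b) ^ 2) ≤ v a * v a := by
    rw [map_pow, sq]
    have : v (a - b) ≤ v a := v.map_sub_le le_rfl hba
    gcongr
  have hP : v r * v t * v ((a - b) ^ 2) = (v a * v b) ^ 2 := by
    rw [← map_mul, ← map_mul, hprod, v_prodPoly v hb4 hb6 hb8 ha hb]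
  have hS : v (r + t) * v ((a - b) ^ 2) ≤ v a * (v a * v b) := by
    rw [← map_mul, hsum]
    exact v_sumPoly_le v hb2 hb4 hb6 ha hb hba
  have hpos : 0 < v a * (v a * v b) := mul_pos ha0 (mul_pos ha0 hb0)
  have h1 : v a * (v a * v b) < v t * v ((a - b) ^ 2) := by
    apply lt_of_mul_lt_mul_left' (a := v r)
    calc v r * (v a * (v a * v b)) < v b * (v a * (v a * v b)) :=
          mul_lt_mul_of_pos_right hlt hpos
      _ = (v a * v b) ^ 2 := by rw [sq]; ac_rfl
      _ = v r * (v t * v ((a - b) ^ 2)) := by rw [← hP, mul_assoc]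
  have h2 : v r < v t := by
    apply lt_of_mul_lt_mul_right' (a := v ((a - b) ^ 2))
    calc v r * v ((a - b) ^ 2) ≤ v r * (v a * v a) := by gcongr
      _ < v b * (v a * v a) := mul_lt_mul_of_pos_right hlt (mul_pos ha0 ha0)
      _ = v a * (v a * v b) := by ac_rfl
      _ < v t * v ((a - b) ^ 2) := h1
  have h3 : v (r + t) = v t := v.map_add_eq_of_lt_right h2
  rw [h3] at hS
  exact absurd hS (not_le.mpr h1)

/-- Valuation of the numerator of the duplication formula. -/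
theorem v_dblNum {a b4 b6 b8 : K} (hb4 : v b4 ≤ 1) (hb6 : v b6 ≤ 1) (hb8 : v b8 ≤ 1)
    (ha : 1 < v a) : v (a ^ 4 - b4 * a ^ 2 - 2 * b6 * a - b8) = v a ^ 4 := by
  have ha0 : 0 < v a := v_pos_of_one_lt v ha
  have h1 : v (b4 * a ^ 2 + 2 * b6 * a + b8) ≤ v a ^ 2 := by
    refine v.map_add_le (v.map_add_le ?_ ?_) ?_
    · rw [map_mul, map_pow]
      calc v b4 * v a ^ 2 ≤ 1 * v a ^ 2 := by gcongr
        _ = _ := one_mul _
    · simp only [map_mul]
      calc v 2 * v b6 * v a ≤ 1 * 1 * v a := by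
            gcongr
            exact v_two_le_one v
        _ = v a := by rw [one_mul, one_mul]
        _ ≤ v a ^ 2 := by
            rw [sq]
            exact le_mul_of_one_le_left' ha.le
    · exact hb8.trans (one_le_pow₀ ha.le)
  have h2 : v a ^ 2 < v a ^ 4 := pow_lt_pow_right₀ ha (by norm_num)
  have e : a ^ 4 - b4 * a ^ 2 - 2 * b6 * a - b8 = a ^ 4 - (b4 * a ^ 2 + 2 * b6 * a + b8) := by
    ring
  rw [e, v.map_sub_eq_of_lt_left]
  · rw [map_pow]
  · rw [map_pow]
    exact lt_of_le_of_lt h1 h2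

/-- Valuation bound for the denominator of the duplication formula. -/
theorem v_dblDen_le {a b2 b4 b6 : K} (hb2 : v b2 ≤ 1) (hb4 : v b4 ≤ 1) (hb6 : v b6 ≤ 1)
    (ha : 1 < v a) : v (4 * a ^ 3 + b2 * a ^ 2 + 2 * b4 * a + b6) ≤ v a ^ 3 := by
  refine v.map_add_le (v.map_add_le (v.map_add_le ?_ ?_) ?_) ?_
  · rw [map_mul, map_pow]
    calc v 4 * v a ^ 3 ≤ 1 * v a ^ 3 := by
          gcongr
          exact v_four_le_one v
      _ = _ := one_mul _
  · rw [map_mul, map_pow]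
    calc v b2 * v a ^ 2 ≤ 1 * v a ^ 2 := by gcongr
      _ = v a ^ 2 := one_mul _
      _ ≤ v a ^ 3 := pow_le_pow_right₀ ha.le (by norm_num)
  · simp only [map_mul]
    calc v 2 * v b4 * v a ≤ 1 * 1 * v a := by
          gcongr
          exact v_two_le_one v
      _ = v a ^ 1 := by rw [one_mul, one_mul, pow_one]
      _ ≤ v a ^ 3 := pow_le_pow_right₀ ha.le (by norm_num)
  · exact hb6.trans (one_le_pow₀ ha.le)

/-- **Duplication**: `v (x (2P)) ≥ v (x P)` when `v (x P) > 1`. -/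
theorem v_dbl_ge {a r b2 b4 b6 b8 : K} (hb2 : v b2 ≤ 1) (hb4 : v b4 ≤ 1) (hb6 : v b6 ≤ 1)
    (hb8 : v b8 ≤ 1) (ha : 1 < v a)
    (hdbl : r * (4 * a ^ 3 + b2 * a ^ 2 + 2 * b4 * a + b6) =
      a ^ 4 - b4 * a ^ 2 - 2 * b6 * a - b8) : v a ≤ v r := by
  by_contra hlt
  rw [not_le] at hlt
  have ha0 : 0 < v a := v_pos_of_one_lt v ha
  have h1 := congrArg v hdbl
  rw [map_mul, v_dblNum v hb4 hb6 hb8 ha] at h1
  have h2 : v r * v (4 * a ^ 3 + b2 * a ^ 2 + 2 * b4 * a + b6) < v a ^ 4 := by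
    calc v r * v (4 * a ^ 3 + b2 * a ^ 2 + 2 * b4 * a + b6) ≤ v r * v a ^ 3 := by
          gcongr
          exact v_dblDen_le v hb2 hb4 hb6 ha
      _ < v a * v a ^ 3 := mul_lt_mul_of_pos_right hlt (pow_pos ha0 3)
      _ = v a ^ 4 := by rw [← pow_succ']
  exact absurd h1 (ne_of_lt h2)

/-- The inductive step of the no-torsion argument, as a statement about a valued field. -/
theorem step_lemma {a b r t κ b2 b4 b6 b8 : K} {R : Γ} (hR : 1 < R)
    (hb2 : v b2 ≤ 1) (hb4 : v b4 ≤ 1) (hb6 : v b6 ≤ 1) (hb8 : v b8 ≤ 1)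
    (hva : v a = R) (hvb : v b = R) (hvr : v r = R) (hvt : v t = R)
    (hprod : r * t * (a - b) ^ 2 = (a * b) ^ 2 - b4 * (a * b) - b6 * (a + b) - b8)
    (hsum : (r + t) * (a - b) ^ 2 =
      2 * (a + b) * (a * b) + b2 * (a * b) + b4 * (a + b) + b6)
    (hκ : v κ = 1) (hκ1 : v (κ - 1) = 1)
    (h1 : v (a * κ ^ 2 - b) < R) (h2 : v (t * (κ - 1) ^ 2 - b) < R) :
    v (κ + 1) = 1 ∧ v (r * (κ + 1) ^ 2 - b) < R := by
  have hR0 : 0 < R := lt_trans zero_lt_one hR
  have hRne : R ≠ 0 := ne_of_gt hR0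
  have ha1 : 1 < v a := hva ▸ hR
  have hb1 : 1 < v b := hvb ▸ hR
  -- (i) `v (a - b) = R`
  have hab : v (a - b) = R := by
    have h := congrArg v hprod
    rw [v_prodPoly v hb4 hb6 hb8 ha1 hb1, map_mul, map_mul, map_pow, hvr, hvt, hva, hvb] at h
    have h' : v (a - b) ^ 2 = R ^ 2 := by
      apply mul_left_cancel₀ (mul_ne_zero hRne hRne)
      rw [h, sq, sq]
    exact (pow_left_inj₀ zero_le zero_le two_ne_zero).mp h'
  -- (ii) `v (1 - κ²) = 1`
  have hk2 : v (1 - κ ^ 2) = 1 := by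
    have e : b * (1 - κ ^ 2) = (a - b) * κ ^ 2 - (a * κ ^ 2 - b) := by ring
    have h := congrArg v e
    rw [v.map_sub_eq_of_lt_left (by rw [map_mul, map_pow, hab, hκ, one_pow, mul_one]; exact h1),
      map_mul, map_mul, map_pow, hab, hκ, one_pow, mul_one, hvb] at h
    have : R * v (1 - κ ^ 2) = R * 1 := by rw [h, mul_one]
    exact mul_left_cancel₀ hRne this
  -- (iii) `v (κ + 1) = 1`
  have hk3 : v (κ + 1) = 1 := by
    have e : 1 - κ ^ 2 = -((κ - 1) * (κ + 1)) := by ring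
    rw [e, Valuation.map_neg, map_mul, hκ1, one_mul] at hk2
    exact hk2
  refine ⟨hk3, ?_⟩
  -- (iv) the main congruence
  set E1 := a * κ ^ 2 - b with hE1
  set E2 := t * (κ - 1) ^ 2 - b with hE2
  set E3 := b2 * (a * b) + b4 * (a + b) + b6 with hE3
  set c := (κ - 1) ^ 2 * ((r + t) * (2 * (1 - κ ^ 2) * b + E1) - 2 * b * (2 * b + κ ^ 2 * b + E1))
    with hc
  have key : (κ - 1) ^ 4 * (r * (κ + 1) ^ 2 - b) * b ^ 2 =
      κ ^ 4 * (κ - 1) ^ 2 * E3 - c * E1 - (1 - κ ^ 2) ^ 2 * E2 * b ^ 2 := by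
    have hE3' : E3 = (r + t) * (a - b) ^ 2 - 2 * (a + b) * (a * b) := by
      rw [hsum, hE3]; ring
    rw [hE3', hc, hE1, hE2]
    ring
  have hv2 : v (2 : K) ≤ 1 := v_two_le_one v
  have hrt : v (r + t) ≤ R := v.map_add_le hvr.le hvt.le
  have hE1le : v E1 ≤ R := h1.le
  have hRR : R ≤ R * R := le_mul_of_one_le_left' hR.le
  -- bound on `E3`
  have hvE3 : v E3 ≤ R * R := by
    refine v.map_add_le (v.map_add_le ?_ ?_) ?_
    · rw [map_mul, map_mul, hva, hvb]
      calc v b2 * (R * R) ≤ 1 * (R * R) := by gcongr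
        _ = R * R := one_mul _
    · rw [map_mul]
      have : v (a + b) ≤ R := v.map_add_le hva.le hvb.le
      calc v b4 * v (a + b) ≤ 1 * R := by gcongr
        _ = R := one_mul _
        _ ≤ R * R := hRR
    · exact hb6.trans (hR.le.trans hRR)
  -- bound on `c`
  have hvc : v c ≤ R * R := by
    rw [hc, map_mul, map_pow, hκ1, one_pow, one_mul]
    refine v.map_sub_le ?_ ?_
    · rw [map_mul]
      have : v (2 * (1 - κ ^ 2) * b + E1) ≤ R := by
        refine v.map_add_le ?_ hE1le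
        rw [map_mul, map_mul, hk2, mul_one, hvb]
        calc v 2 * R ≤ 1 * R := by gcongr
          _ = R := one_mul _
      gcongr
    · rw [map_mul, map_mul, hvb]
      have : v (2 * b + κ ^ 2 * b + E1) ≤ R := by
        refine v.map_add_le (v.map_add_le ?_ ?_) hE1le
        · rw [map_mul, hvb]
          calc v 2 * R ≤ 1 * R := by gcongr
            _ = R := one_mul _
        · rw [map_mul, map_pow, hκ, one_pow, one_mul, hvb]
      calc v 2 * R * v (2 * b + κ ^ 2 * b + E1) ≤ 1 * R * R := by gcongr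
        _ = R * R := by rw [one_mul]
  have hRRR : R * R < R * R * R := by
    calc R * R = R * R * 1 := (mul_one _).symm
      _ < R * R * R := mul_lt_mul_of_pos_left hR (mul_pos hR0 hR0)
  have hrhs : v (κ ^ 4 * (κ - 1) ^ 2 * E3 - c * E1 - (1 - κ ^ 2) ^ 2 * E2 * b ^ 2) < R * R * R := by
    refine lt_of_le_of_lt (v.map_sub _ _) (max_lt (lt_of_le_of_lt (v.map_sub _ _) (max_lt ?_ ?_)) ?_)
    · rw [map_mul, map_mul, map_pow, map_pow, hκ, hκ1, one_pow, one_pow, one_mul, one_mul]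
      exact lt_of_le_of_lt hvE3 hRRR
    · rw [map_mul]
      calc v c * v E1 ≤ R * R * v E1 := by gcongr
        _ < R * R * R := mul_lt_mul_of_pos_left h1 (mul_pos hR0 hR0)
    · rw [map_mul, map_mul, map_pow, map_pow, hk2, one_pow, one_mul, hvb, sq]
      calc v E2 * (R * R) < R * (R * R) := mul_lt_mul_of_pos_right h2 (mul_pos hR0 hR0)
        _ = R * R * R := by ac_rfl
  rw [← key, map_mul, map_mul, map_pow, map_pow, hκ1, one_pow, one_mul, hvb, sq R] at hrhs
  apply lt_of_mul_lt_mul_right' (a := R * R)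
  calc v (r * (κ + 1) ^ 2 - b) * (R * R) < R * R * R := hrhs
    _ = R * (R * R) := by ac_rfl


/-- The base case (duplication) of the no-torsion argument. -/
theorem dbl_lemma {a r b2 b4 b6 b8 : K} {R : Γ} (hR : 1 < R)
    (hb2 : v b2 ≤ 1) (hb4 : v b4 ≤ 1) (hb6 : v b6 ≤ 1) (hb8 : v b8 ≤ 1)
    (hva : v a = R) (hvr : v r = R)
    (hdbl : r * (4 * a ^ 3 + b2 * a ^ 2 + 2 * b4 * a + b6) =
      a ^ 4 - b4 * a ^ 2 - 2 * b6 * a - b8) : v (r * 2 ^ 2 - a) < R := by
  have hR0 : 0 < R := lt_trans zero_lt_one hR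
  have hv2 : v (2 : K) ≤ 1 := v_two_le_one v
  have key : (r * 2 ^ 2 - a) * a ^ 3 =
      -(r * (b2 * a ^ 2 + 2 * b4 * a + b6)) - (b4 * a ^ 2 + 2 * b6 * a + b8) := by
    linear_combination hdbl
  have hR1 : R ≤ R ^ 2 := by
    rw [sq]; exact le_mul_of_one_le_left' hR.le
  have h1 : v (b2 * a ^ 2 + 2 * b4 * a + b6) ≤ R ^ 2 := by
    refine v.map_add_le (v.map_add_le ?_ ?_) ?_
    · rw [map_mul, map_pow, hva]
      calc v b2 * R ^ 2 ≤ 1 * R ^ 2 := by gcongr
        _ = _ := one_mul _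
    · simp only [map_mul]
      rw [hva]
      calc v 2 * v b4 * R ≤ 1 * 1 * R := by gcongr
        _ = R := by rw [one_mul, one_mul]
        _ ≤ R ^ 2 := hR1
    · exact hb6.trans (one_le_pow₀ hR.le)
  have h2 : v (b4 * a ^ 2 + 2 * b6 * a + b8) ≤ R ^ 2 := by
    refine v.map_add_le (v.map_add_le ?_ ?_) ?_
    · rw [map_mul, map_pow, hva]
      calc v b4 * R ^ 2 ≤ 1 * R ^ 2 := by gcongr
        _ = _ := one_mul _
    · simp only [map_mul]
      rw [hva]
      calc v 2 * v b6 * R ≤ 1 * 1 * R := by gcongr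
        _ = R := by rw [one_mul, one_mul]
        _ ≤ R ^ 2 := hR1
    · exact hb8.trans (one_le_pow₀ hR.le)
  have h3 : v ((r * 2 ^ 2 - a) * a ^ 3) ≤ R ^ 3 := by
    rw [key]
    refine v.map_sub_le ?_ ?_
    · rw [Valuation.map_neg, map_mul, hvr]
      calc R * v (b2 * a ^ 2 + 2 * b4 * a + b6) ≤ R * R ^ 2 := by gcongr
        _ = R ^ 3 := by rw [← pow_succ']
    · exact h2.trans (pow_le_pow_right₀ hR.le (by norm_num))
  rw [map_mul, map_pow, hva] at h3
  have h4 : v (r * 2 ^ 2 - a) ≤ 1 := by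
    have : v (r * 2 ^ 2 - a) * R ^ 3 ≤ 1 * R ^ 3 := by rwa [one_mul]
    exact le_of_mul_le_mul_right this (pow_pos hR0 3)
  exact lt_of_le_of_lt h4 hR

/-- The final contradiction of the no-torsion argument. -/
theorem final_lemma {a b κ : K} {R : Γ} (hR : 1 < R) (hva : v a = R)
    (h1 : v (a * κ ^ 2 - b) < R) (h2 : v (a * (κ + 1) ^ 2 - b) < R) : v (2 * κ + 1) < 1 := by
  have hR0 : 0 < R := lt_trans zero_lt_one hR
  have e : a * (2 * κ + 1) = (a * (κ + 1) ^ 2 - b) - (a * κ ^ 2 - b) := by ring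
  have h3 : v (a * (2 * κ + 1)) < R := by
    rw [e]
    exact lt_of_le_of_lt (v.map_sub _ _) (max_lt h2 h1)
  rw [map_mul, hva] at h3
  apply lt_of_mul_lt_mul_left' (a := R)
  rwa [mul_one]

end ValuationLemmas

/-- An abstract `x`-coordinate structure on an additive commutative group `G` with values in a
valued field: the addition–subtraction identities and the duplication formula hold, with
`v`-integral coefficients `b₂, b₄, b₆, b₈`. -/
structure XCoord {G K Γ : Type*} [AddCommGroup G] [Field K] [LinearOrderedCommGroupWithZero Γ]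
    (v : Valuation K Γ) (x : G → K) (b2 b4 b6 b8 : K) : Prop where
  hb2 : v b2 ≤ 1
  hb4 : v b4 ≤ 1
  hb6 : v b6 ≤ 1
  hb8 : v b8 ≤ 1
  x_neg : ∀ P : G, x (-P) = x P
  x_eq_iff : ∀ P Q : G, P ≠ 0 → Q ≠ 0 → (x P = x Q ↔ P = Q ∨ P = -Q)
  prod_id : ∀ P Q : G, P ≠ 0 → Q ≠ 0 → x P ≠ x Q →
    x (P + Q) * x (P - Q) * (x P - x Q) ^ 2 =
      (x P * x Q) ^ 2 - b4 * (x P * x Q) - b6 * (x P + x Q) - b8
  sum_id : ∀ P Q : G, P ≠ 0 → Q ≠ 0 → x P ≠ x Q →
    (x (P + Q) + x (P - Q)) * (x P - x Q) ^ 2 =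
      2 * (x P + x Q) * (x P * x Q) + b2 * (x P * x Q) + b4 * (x P + x Q) + b6
  dbl_id : ∀ P : G, P ≠ 0 → 2 • P ≠ 0 →
    x (2 • P) * (4 * x P ^ 3 + b2 * x P ^ 2 + 2 * b4 * x P + b6) =
      x P ^ 4 - b4 * x P ^ 2 - 2 * b6 * x P - b8

namespace XCoord

variable {G K Γ : Type*} [AddCommGroup G] [Field K] [LinearOrderedCommGroupWithZero Γ]
  {v : Valuation K Γ} {x : G → K} {b2 b4 b6 b8 : K}

/-- Membership in the `c`-th step of the filtration: `P = 0` or `c ≤ v (x P)`. -/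
def InFilt (v : Valuation K Γ) (x : G → K) (c : Γ) (P : G) : Prop := P = 0 ∨ c ≤ v (x P)

theorem inFilt_zero (c : Γ) : InFilt v x c (0 : G) := Or.inl rfl

theorem inFilt_neg (hX : XCoord v x b2 b4 b6 b8) {c : Γ} {P : G} (hP : InFilt v x c P) :
    InFilt v x c (-P) := by
  rcases hP with rfl | hP
  · left; simp
  · right; rwa [hX.x_neg]

theorem add_ne_zero_of_x_ne (hX : XCoord v x b2 b4 b6 b8) {P Q : G}
    (hne : x P ≠ x Q) : P + Q ≠ 0 := by
  intro h
  apply hne
  have : P = -Q := eq_neg_of_add_eq_zero_left h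
  rw [this, hX.x_neg]

omit [Field K] in
theorem sub_ne_zero_of_x_ne {P Q : G} (hne : x P ≠ x Q) : P - Q ≠ 0 := by
  intro h
  apply hne
  rw [sub_eq_zero.mp h]

/-- Ultrametric inequality for `P + Q` when `x P ≠ x Q`. -/
theorem le_v_x_add_of_x_ne (hX : XCoord v x b2 b4 b6 b8) {c : Γ} (hc : 1 < c) {P Q : G}
    (hP0 : P ≠ 0) (hQ0 : Q ≠ 0) (hP : c ≤ v (x P)) (hQ : c ≤ v (x Q)) (hne : x P ≠ x Q) :
    c ≤ v (x (P + Q)) := by
  have ha : 1 < v (x P) := lt_of_lt_of_le hc hP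
  have hb : 1 < v (x Q) := lt_of_lt_of_le hc hQ
  rcases le_total (v (x Q)) (v (x P)) with hba | hab
  · exact hQ.trans (v_root_ge v hX.hb2 hX.hb4 hX.hb6 hX.hb8 ha hb hba hne
      (hX.prod_id P Q hP0 hQ0 hne) (hX.sum_id P Q hP0 hQ0 hne))
  · -- swap the roles of `P` and `Q`
    have hne' : x Q ≠ x P := fun h => hne h.symm
    have h1 := hX.prod_id Q P hQ0 hP0 hne'
    have h2 := hX.sum_id Q P hQ0 hP0 hne'
    have e : x (Q - P) = x (P - Q) := by rw [← hX.x_neg, neg_sub]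
    rw [add_comm Q P, e] at h1 h2
    exact hP.trans (v_root_ge v hX.hb2 hX.hb4 hX.hb6 hX.hb8 hb ha hab hne' h1 h2)

/-- Ultrametric inequality for `2 • P`. -/
theorem le_v_x_two_nsmul (hX : XCoord v x b2 b4 b6 b8) {c : Γ} (hc : 1 < c) {P : G}
    (hP0 : P ≠ 0) (hP : c ≤ v (x P)) (h2P : 2 • P ≠ 0) : c ≤ v (x (2 • P)) :=
  hP.trans (v_dbl_ge v hX.hb2 hX.hb4 hX.hb6 hX.hb8 (lt_of_lt_of_le hc hP) (hX.dbl_id P hP0 h2P))

theorem inFilt_add (hX : XCoord v x b2 b4 b6 b8) {c : Γ} (hc : 1 < c) {P Q : G}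
    (hP : InFilt v x c P) (hQ : InFilt v x c Q) : InFilt v x c (P + Q) := by
  rcases hP with rfl | hP
  · rwa [zero_add]
  rcases hQ with rfl | hQ
  · rw [add_zero]; exact Or.inr hP
  by_cases hP0 : P = 0
  · subst hP0; rw [zero_add]; exact Or.inr hQ
  by_cases hQ0 : Q = 0
  · subst hQ0; rw [add_zero]; exact Or.inr hP
  by_cases hne : x P = x Q
  · rcases (hX.x_eq_iff P Q hP0 hQ0).mp hne with rfl | rfl
    · by_cases h2 : 2 • P = 0
      · left; rw [← two_nsmul]; exact h2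
      · right; rw [← two_nsmul]; exact le_v_x_two_nsmul hX hc hP0 hP h2
    · left; simp
  · exact Or.inr (le_v_x_add_of_x_ne hX hc hP0 hQ0 hP hQ hne)

/-- The `c`-th step of the filtration of the kernel of reduction, `c > 1`, as a subgroup. -/
def filt (hX : XCoord v x b2 b4 b6 b8) (c : Γ) (hc : 1 < c) : AddSubgroup G where
  carrier := {P | InFilt v x c P}
  zero_mem' := inFilt_zero c
  add_mem' := fun hP hQ => inFilt_add hX hc hP hQ
  neg_mem' := fun hP => inFilt_neg hX hP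

theorem mem_filt (hX : XCoord v x b2 b4 b6 b8) {c : Γ} (hc : 1 < c) {P : G} :
    P ∈ hX.filt c hc ↔ P = 0 ∨ c ≤ v (x P) := Iff.rfl

/-- The kernel of reduction: `P = 0` or `1 < v (x P)`. -/
def InKernel (v : Valuation K Γ) (x : G → K) (P : G) : Prop := P = 0 ∨ 1 < v (x P)

theorem inKernel_zero : InKernel v x (0 : G) := Or.inl rfl

theorem inKernel_neg (hX : XCoord v x b2 b4 b6 b8) {P : G} (hP : InKernel v x P) :
    InKernel v x (-P) := by
  rcases hP with rfl | hP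
  · left; simp
  · right; rwa [hX.x_neg]

theorem inKernel_of_inFilt {c : Γ} (hc : 1 < c) {P : G} (hP : InFilt v x c P) :
    InKernel v x P := by
  rcases hP with rfl | hP
  · exact Or.inl rfl
  · exact Or.inr (lt_of_lt_of_le hc hP)

theorem inKernel_add (hX : XCoord v x b2 b4 b6 b8) {P Q : G}
    (hP : InKernel v x P) (hQ : InKernel v x Q) : InKernel v x (P + Q) := by
  rcases hP with rfl | hP
  · rwa [zero_add]
  rcases hQ with rfl | hQ
  · rw [add_zero]; exact Or.inr hP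
  have hc : 1 < min (v (x P)) (v (x Q)) := lt_min hP hQ
  exact inKernel_of_inFilt hc
    (inFilt_add hX hc (Or.inr (min_le_left _ _)) (Or.inr (min_le_right _ _)))

/-- **T2a**: the kernel of reduction is a subgroup. -/
def kernel (hX : XCoord v x b2 b4 b6 b8) : AddSubgroup G where
  carrier := {P | InKernel v x P}
  zero_mem' := inKernel_zero
  add_mem' := fun hP hQ => inKernel_add hX hP hQ
  neg_mem' := fun hP => inKernel_neg hX hP

theorem mem_kernel (hX : XCoord v x b2 b4 b6 b8) {P : G} :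
    P ∈ hX.kernel ↔ P = 0 ∨ 1 < v (x P) := Iff.rfl

theorem inKernel_sub (hX : XCoord v x b2 b4 b6 b8) {P Q : G}
    (hP : InKernel v x P) (hQ : InKernel v x Q) : InKernel v x (P - Q) :=
  hX.kernel.sub_mem hP hQ

/-- Ultrametric inequality in the kernel of reduction (T2a). -/
theorem le_v_x_add (hX : XCoord v x b2 b4 b6 b8) {c : Γ} (hc : 1 < c) {P Q : G}
    (hP : P = 0 ∨ c ≤ v (x P)) (hQ : Q = 0 ∨ c ≤ v (x Q)) (hPQ : P + Q ≠ 0) :
    c ≤ v (x (P + Q)) := by
  rcases inFilt_add hX hc hP hQ with h | h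
  · exact absurd h hPQ
  · exact h

theorem le_v_x_sub (hX : XCoord v x b2 b4 b6 b8) {c : Γ} (hc : 1 < c) {P Q : G}
    (hP : P = 0 ∨ c ≤ v (x P)) (hQ : Q = 0 ∨ c ≤ v (x Q)) (hPQ : P - Q ≠ 0) :
    c ≤ v (x (P - Q)) := by
  rcases (hX.filt c hc).sub_mem hP hQ with h | h
  · exact absurd h hPQ
  · exact h

/-- In a cyclic subgroup of prime order inside the kernel of reduction, all nonzero points have
the same `v (x ·)`. -/
theorem v_x_nsmul_eq (hX : XCoord v x b2 b4 b6 b8) {p : ℕ} (hp : p.Prime) {P : G}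
    (hP0 : P ≠ 0) (hP : 1 < v (x P)) (hpP : p • P = 0) {k : ℕ} (hk0 : 0 < k) (hkp : k < p) :
    k • P ≠ 0 ∧ v (x (k • P)) = v (x P) := by
  have : Fact p.Prime := ⟨hp⟩
  have hord : addOrderOf P = p := addOrderOf_eq_prime hpP hP0
  have hndvd : ¬ p ∣ k := Nat.not_dvd_of_pos_of_lt hk0 hkp
  have hkP : k • P ≠ 0 := by
    intro h
    rw [← addOrderOf_dvd_iff_nsmul_eq_zero, hord] at h
    exact hndvd h
  refine ⟨hkP, ?_⟩
  have h1 : v (x P) ≤ v (x (k • P)) := by
    have hmem : P ∈ hX.filt (v (x P)) hP := Or.inr le_rfl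
    rcases (hX.filt (v (x P)) hP).nsmul_mem hmem k with h | h
    · exact absurd h hkP
    · exact h
  have hR' : 1 < v (x (k • P)) := lt_of_lt_of_le hP h1
  have hcop : Nat.Coprime k p := ((Nat.Prime.coprime_iff_not_dvd hp).mpr hndvd).symm
  obtain ⟨j, -, hj⟩ := Nat.exists_mul_mod_eq_one_of_coprime hcop hp.one_lt
  have hjP : j • (k • P) = P := by
    rw [← mul_nsmul', mul_comm j k, ← Nat.div_add_mod (k * j) p, hj, add_nsmul, mul_nsmul, hpP, smul_zero,
      zero_add, one_nsmul]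
  have h2 : v (x (k • P)) ≤ v (x P) := by
    have hmem : k • P ∈ hX.filt (v (x (k • P))) hR' := Or.inr le_rfl
    have := (hX.filt (v (x (k • P))) hR').nsmul_mem hmem j
    rw [hjP] at this
    rcases this with h | h
    · exact absurd h hP0
    · exact h
  exact le_antisymm h2 h1

/-- **T2b**: the kernel of reduction has no `p`-torsion, for an odd prime `p` which is a `v`-unit,
provided `2` is a `v`-unit as well. -/
theorem eq_zero_of_nsmul_eq_zero (hX : XCoord v x b2 b4 b6 b8) {p : ℕ} (hp : p.Prime)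
    (hp2 : p ≠ 2) (hvp : v (p : K) = 1) (hv2 : v (2 : K) = 1) {P : G}
    (hP : P = 0 ∨ 1 < v (x P)) (hpP : p • P = 0) : P = 0 := by
  by_contra hP0
  have hR : 1 < v (x P) := hP.resolve_left hP0
  set R := v (x P) with hRdef
  have hall : ∀ k : ℕ, 0 < k → k < p → k • P ≠ 0 ∧ v (x (k • P)) = R :=
    fun k hk0 hkp => v_x_nsmul_eq hX hp hP0 hR hpP hk0 hkp
  -- the claim `C k`
  have claim : ∀ k : ℕ, 1 ≤ k → k + 1 < p →
      (v (k : K) = 1 ∧ v (x (k • P) * (k : K) ^ 2 - x P) < R) ∧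
      (v ((k + 1 : ℕ) : K) = 1 ∧ v (x ((k + 1) • P) * ((k + 1 : ℕ) : K) ^ 2 - x P) < R) := by
    intro k hk
    induction k, hk using Nat.le_induction with
    | base =>
      intro h2p
      refine ⟨⟨by simp, ?_⟩, ⟨by simpa using hv2, ?_⟩⟩
      · simp only [one_nsmul, Nat.cast_one, one_pow, mul_one, sub_self, map_zero]
        exact lt_trans zero_lt_one hR
      · obtain ⟨h2P, hv2P⟩ := hall 2 (by norm_num) h2p
        have := dbl_lemma v hR hX.hb2 hX.hb4 hX.hb6 hX.hb8 rfl hv2P (hX.dbl_id P hP0 h2P)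
        simpa using this
    | succ k hk ih =>
      intro hk2
      obtain ⟨⟨hCk1, hCk2⟩, ⟨hCk1', hCk2'⟩⟩ := ih (by omega)
      refine ⟨⟨hCk1', hCk2'⟩, ?_⟩
      obtain ⟨hkP, hvk⟩ := hall k (by omega) (by omega)
      obtain ⟨hk1P, hvk1⟩ := hall (k + 1) (by omega) (by omega)
      obtain ⟨hk2P, hvk2⟩ := hall (k + 1 + 1) (by omega) (by omega)
      have hadd : (k + 1) • P + P = (k + 1 + 1) • P := (succ_nsmul P (k + 1)).symm
      have hsub : (k + 1) • P - P = k • P := by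
        rw [succ_nsmul]; abel
      have hne : x ((k + 1) • P) ≠ x P := by
        intro h
        rcases (hX.x_eq_iff _ _ hk1P hP0).mp h with h' | h'
        · apply hkP
          rw [← hsub, h', sub_self]
        · apply hk2P
          rw [← hadd, h', neg_add_cancel]
      have hprod := hX.prod_id _ _ hk1P hP0 hne
      have hsum := hX.sum_id _ _ hk1P hP0 hne
      rw [hadd, hsub] at hprod hsum
      have hκ1 : v (((k + 1 : ℕ) : K) - 1) = 1 := by
        have : ((k + 1 : ℕ) : K) - 1 = (k : K) := by push_cast; ring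
        rw [this]; exact hCk1
      have := step_lemma v hR hX.hb2 hX.hb4 hX.hb6 hX.hb8 hvk1 rfl hvk2 hvk hprod hsum hCk1' hκ1
        hCk2' (by
          have : ((k + 1 : ℕ) : K) - 1 = (k : K) := by push_cast; ring
          rw [this]; exact hCk2)
      have e : ((k + 1 + 1 : ℕ) : K) = ((k + 1 : ℕ) : K) + 1 := by push_cast; ring
      rw [e]
      exact this
  -- `p = 2 m + 1`
  obtain ⟨m, hm⟩ := hp.odd_of_ne_two hp2
  have hm1 : 1 ≤ m := by
    rcases Nat.eq_zero_or_pos m with h | h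
    · subst h
      exact absurd hp (by rw [hm]; norm_num)
    · exact h
  obtain ⟨⟨-, hC1⟩, ⟨-, hC2⟩⟩ := claim m hm1 (by omega)
  obtain ⟨hmP, hvm⟩ := hall m (by omega) (by omega)
  have hxeq : x ((m + 1) • P) = x (m • P) := by
    have : (m + 1) • P = -(m • P) := by
      apply eq_neg_of_add_eq_zero_left
      rw [← add_nsmul]
      have : m + 1 + m = p := by omega
      rw [this, hpP]
    rw [this, hX.x_neg]
  rw [hxeq] at hC2
  have e : ((m + 1 : ℕ) : K) = (m : K) + 1 := by push_cast; ring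
  rw [e] at hC2
  have hfin := final_lemma v hR hvm hC1 hC2
  have e2 : (2 * (m : K) + 1) = (p : K) := by rw [hm]; push_cast; ring
  rw [e2, hvp] at hfin
  exact lt_irrefl _ hfin


/-! ### Valuation-subring forms -/

section ValuationSubring

variable {A : ValuationSubring K}

theorem one_lt_valuation_iff (a : K) : 1 < A.valuation a ↔ a ∉ A := by
  rw [← A.valuation_le_one_iff, not_le]

theorem valuation_eq_one_iff (a : K) : A.valuation a = 1 ↔ a ∈ A ∧ a ∉ A.nonunits := by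
  rw [← A.valuation_le_one_iff, A.mem_nonunits_iff, not_lt]
  exact ⟨fun h => ⟨h.le, h.ge⟩, fun h => le_antisymm h.1 h.2⟩

/-- Constructor for `XCoord` over the valuation of a valuation subring. -/
theorem mk_of_mem (hb2 : b2 ∈ A) (hb4 : b4 ∈ A) (hb6 : b6 ∈ A) (hb8 : b8 ∈ A)
    (x_neg : ∀ P : G, x (-P) = x P)
    (x_eq_iff : ∀ P Q : G, P ≠ 0 → Q ≠ 0 → (x P = x Q ↔ P = Q ∨ P = -Q))
    (prod_id : ∀ P Q : G, P ≠ 0 → Q ≠ 0 → x P ≠ x Q →
      x (P + Q) * x (P - Q) * (x P - x Q) ^ 2 =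
        (x P * x Q) ^ 2 - b4 * (x P * x Q) - b6 * (x P + x Q) - b8)
    (sum_id : ∀ P Q : G, P ≠ 0 → Q ≠ 0 → x P ≠ x Q →
      (x (P + Q) + x (P - Q)) * (x P - x Q) ^ 2 =
        2 * (x P + x Q) * (x P * x Q) + b2 * (x P * x Q) + b4 * (x P + x Q) + b6)
    (dbl_id : ∀ P : G, P ≠ 0 → 2 • P ≠ 0 →
      x (2 • P) * (4 * x P ^ 3 + b2 * x P ^ 2 + 2 * b4 * x P + b6) =
        x P ^ 4 - b4 * x P ^ 2 - 2 * b6 * x P - b8) :
    XCoord A.valuation x b2 b4 b6 b8 :=
  ⟨(A.valuation_le_one_iff _).mpr hb2, (A.valuation_le_one_iff _).mpr hb4,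
    (A.valuation_le_one_iff _).mpr hb6, (A.valuation_le_one_iff _).mpr hb8,
    x_neg, x_eq_iff, prod_id, sum_id, dbl_id⟩

/-- T2a in valuation-subring form: `{P | P = 0 ∨ x P ∉ A}` is closed under subtraction. -/
theorem sub_mem_E1 (hX : XCoord A.valuation x b2 b4 b6 b8) {P Q : G}
    (hP : P = 0 ∨ x P ∉ A) (hQ : Q = 0 ∨ x Q ∉ A) : P - Q = 0 ∨ x (P - Q) ∉ A := by
  have := hX.inKernel_sub (P := P) (Q := Q)
    (hP.imp id (one_lt_valuation_iff _).mpr) (hQ.imp id (one_lt_valuation_iff _).mpr)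
  exact this.imp id (one_lt_valuation_iff _).mp

theorem add_mem_E1 (hX : XCoord A.valuation x b2 b4 b6 b8) {P Q : G}
    (hP : P = 0 ∨ x P ∉ A) (hQ : Q = 0 ∨ x Q ∉ A) : P + Q = 0 ∨ x (P + Q) ∉ A := by
  have := hX.inKernel_add (P := P) (Q := Q)
    (hP.imp id (one_lt_valuation_iff _).mpr) (hQ.imp id (one_lt_valuation_iff _).mpr)
  exact this.imp id (one_lt_valuation_iff _).mp

/-- T2b in valuation-subring form: no `p`-torsion in `{P | P = 0 ∨ x P ∉ A}` when `p` is an odd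
prime and `p`, `2` are units of `A`. -/
theorem eq_zero_of_nsmul_eq_zero_of_not_mem (hX : XCoord A.valuation x b2 b4 b6 b8) {p : ℕ}
    (hp : p.Prime) (hp2 : p ≠ 2) (hpA : (p : K) ∉ A.nonunits) (h2A : (2 : K) ∉ A.nonunits)
    {P : G} (hP : P = 0 ∨ x P ∉ A) (hpP : p • P = 0) : P = 0 := by
  have hpmem : (p : K) ∈ A := by
    have := v_natCast_le_one A.valuation p
    exact (A.valuation_le_one_iff _).mp this
  have h2mem : (2 : K) ∈ A := by
    have := v_two_le_one A.valuation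
    exact (A.valuation_le_one_iff _).mp this
  exact hX.eq_zero_of_nsmul_eq_zero hp hp2 ((valuation_eq_one_iff _).mpr ⟨hpmem, hpA⟩)
    ((valuation_eq_one_iff _).mpr ⟨h2mem, h2A⟩) (hP.imp id (one_lt_valuation_iff _).mpr) hpP

end ValuationSubring

end XCoord

end Fermat.Agent.S05.XCoordKernel
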