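/-
M1 / S05: the kernel-of-reduction input `Glue.KernelStatement` (T2a + T2b), obtained by
instantiating the abstract `x`-coordinate structure `KernelTorsion.XCoord` with the
addition–subtraction identities of `AddSub.lean`.
Owner: helper2.
-/
import Mathlib
import Fermat.Agent.S05.AddSub
import Fermat.Agent.S05.XCoordKernel
import Fermat.Agent.S05.GoodBad

set_option autoImplicit false

namespace Fermat.Agent.S05.KernelGeneral

open WeierstrassCurve WeierstrassCurve.Affine
open Fermat.Agent.S05.XCoordKernel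

variable {K : Type*} [Field K] [DecidableEq K]

/-- The `x`-coordinate of a Weierstrass curve with `A`-integral coefficients is an abstract
`x`-coordinate structure. -/
theorem xCoord (A : ValuationSubring K) {W : Affine K} (hW : IntegralAt W A) :
    XCoord A.valuation (xc : W.Point → K) W.b₂ W.b₄ W.b₆ W.b₈ := by
  refine XCoord.mk_of_mem hW.b₂ hW.b₄ hW.b₆ hW.b₈ xc_neg
    (fun P Q hP hQ => xc_eq_iff hP hQ)
    (fun P Q hP hQ hx => xc_add_mul_xc_sub hP hQ hx)
    (fun P Q hP hQ hx => xc_add_add_xc_sub hP hQ hx) ?_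
  intro P hP h2
  rw [two_nsmul] at h2 ⊢
  have := xc_add_self hP h2
  rw [twoDiv, dupNum] at this
  exact this

omit [DecidableEq K] in
theorem inE1_iff_xc (A : ValuationSubring K) {W : Affine K} (P : W.Point) :
    Asm.InE1 A P ↔ P = 0 ∨ xc P ∉ A := by
  constructor
  · rintro (h | ⟨x, y, h, rfl, hx⟩)
    · exact Or.inl h
    · exact Or.inr hx
  · rintro (h | h)
    · exact Or.inl h
    · rcases P with _ | ⟨x, y, hxy⟩
      · exact Or.inl rfl
      · exact Or.inr ⟨x, y, hxy, rfl, h⟩

/-- T2a: the kernel of reduction is closed under addition. -/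
theorem inE1_add (A : ValuationSubring K) {W : Affine K} (hW : IntegralAt W A)
    (P Q : W.Point) (hP : Asm.InE1 A P) (hQ : Asm.InE1 A Q) : Asm.InE1 A (P + Q) := by
  rw [inE1_iff_xc] at hP hQ ⊢
  exact (xCoord A hW).add_mem_E1 hP hQ

/-- T2b: the kernel of reduction has no `p`-torsion. -/
theorem inE1_tors (A : ValuationSubring K) {W : Affine K} (hW : IntegralAt W A)
    {p : ℕ} (hp : p.Prime) (hp2 : p ≠ 2) (h2 : A.valuation (2 : K) = 1)
    (hpv : A.valuation (p : K) = 1)
    (P : W.Point) (hP : Asm.InE1 A P) (hpP : p • P = 0) : P = 0 := by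
  rw [inE1_iff_xc] at hP
  exact (xCoord A hW).eq_zero_of_nsmul_eq_zero hp hp2 hpv h2
    (hP.imp id (XCoord.one_lt_valuation_iff _).mpr) hpP

/-- `Asm.KernelFacts` for every Weierstrass curve with `A`-integral coefficients. -/
theorem kernelFacts (A : ValuationSubring K) {W : Affine K} (hW : IntegralAt W A)
    {p : ℕ} (hp : p.Prime) (hp2 : p ≠ 2) (h2 : A.valuation (2 : K) = 1)
    (hpv : A.valuation (p : K) = 1) : Asm.KernelFacts A W p :=
  Asm.kernelFacts_of A W p hW.a₁ hW.a₂ hW.a₃ (inE1_add A hW) (inE1_tors A hW hp hp2 h2 hpv)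

local notation "Qbar" => AlgebraicClosure ℚ

/-- The kernel-of-reduction input of the assembly (T2). -/
theorem kernelStatement : Asm.KernelStatement := by
  intro A p d₁ d₂ hp hp2 h2 hpv hd₁ hd₂
  rw [A.valuation_le_one_iff] at hd₁ hd₂
  have hW : IntegralAt ((Transfer.Wd d₁ d₂).toAffine⁄Qbar) A := by
    rw [Transfer.Wd_baseChange]
    refine ⟨?_, ?_, ?_, ?_, ?_⟩
    · simp
    · simp only [Transfer.Wd_a₂]
      exact A.neg_mem _ (A.add_mem _ _ hd₁ hd₂)
    · simp
    · simp only [Transfer.Wd_a₄]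
      exact A.mul_mem _ _ hd₁ hd₂
    · simp
  exact ⟨inE1_add A hW, inE1_tors A hW hp hp2 h2 hpv⟩

end Fermat.Agent.S05.KernelGeneral
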