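/-
M1 / S05, task T2b: the kernel of reduction `E1` of the curve `y² = x³ + a x² + b x`
(`a b` integral for a valuation `v`) has no `n`-torsion when `v n = 1`.

Method: the parameter `t = x / y` is additive up to second order on `E1`.
-/
import Mathlib

set_option autoImplicit false

namespace Fermat.Agent.S05.KernelTorsion

open WeierstrassCurve WeierstrassCurve.Affine

/-! ## Section A: valued-field algebra -/

section Algebra

variable {K : Type*} [Field K] {Γ₀ : Type*} [LinearOrderedCommGroupWithZero Γ₀]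
  (v : Valuation K Γ₀)

lemma val_mul_le {x y : K} {α β : Γ₀} (hx : v x ≤ α) (hy : v y ≤ β) : v (x * y) ≤ α * β := by
  rw [map_mul]
  exact mul_le_mul' hx hy

lemma val_pow_le {x : K} {α : Γ₀} (hx : v x ≤ α) (n : ℕ) : v (x ^ n) ≤ α ^ n := by
  rw [map_pow]
  exact pow_le_pow_left' hx n

lemma val_natCast_le_one (k : ℕ) : v (k : K) ≤ 1 := by
  induction k with
  | zero => rw [Nat.cast_zero, map_zero]; exact zero_le
  | succ m ihm =>
    rw [Nat.cast_succ]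
    exact v.map_add_le ihm (by rw [map_one])

lemma pow_le_of_le_one {μ : Γ₀} (hμ : μ ≤ 1) {m n : ℕ} (h : m ≤ n) : μ ^ n ≤ μ ^ m :=
  pow_le_pow_right_of_le_one' hμ h

/-- If `y² = x³ + a x² + b x` with `1 < v x` and `a, b` integral then `v y ^ 2 = v x ^ 3`. -/
lemma val_y_sq {a b x y : K} (ha : v a ≤ 1) (hb : v b ≤ 1) (hx : 1 < v x)
    (h : y ^ 2 = x ^ 3 + a * x ^ 2 + b * x) : v y ^ 2 = v x ^ 3 := by
  have hx0 : (0 : Γ₀) < v x := lt_trans zero_lt_one hx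
  have h1 : v (a * x ^ 2 + b * x) < v (x ^ 3) := by
    have h2 : v (a * x ^ 2) ≤ v x ^ 2 := by
      rw [map_mul, map_pow]
      exact mul_le_of_le_one_left' ha
    have h3 : v (b * x) ≤ v x ^ 2 := by
      rw [map_mul]
      calc v b * v x ≤ 1 * v x := by gcongr
        _ = v x := one_mul _
        _ ≤ v x ^ 2 := by
          rw [pow_two]
          exact le_mul_of_one_le_left' hx.le
    have h4 : v (a * x ^ 2 + b * x) ≤ v x ^ 2 := v.map_add_le h2 h3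
    have h5 : v x ^ 2 < v x ^ 3 := by
      rw [pow_succ (v x) 2]
      exact lt_mul_of_one_lt_right (pow_pos hx0 2) hx
    rw [map_pow]
    exact lt_of_le_of_lt h4 h5
  have h6 : v (x ^ 3 + (a * x ^ 2 + b * x)) = v (x ^ 3) :=
    Valuation.map_add_eq_of_lt_left v h1
  rw [← map_pow, h, add_assoc, h6, map_pow]

/-- Basic facts on the `(t, w)`-chart: for an affine point of `E1`. -/
lemma tw_basic {a b x y : K} (ha : v a ≤ 1) (hb : v b ≤ 1) (hx : 1 < v x)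
    (h : y ^ 2 = x ^ 3 + a * x ^ 2 + b * x) :
    y ≠ 0 ∧ v (x / y) ^ 2 * v x = 1 ∧ v (x / y) < 1 ∧ v (1 / y) = v (x / y) ^ 3 ∧
      1 / y = (x / y) ^ 3 + a * (x / y) ^ 2 * (1 / y) + b * (x / y) * (1 / y) ^ 2 := by
  have hx0 : (0 : Γ₀) < v x := lt_trans zero_lt_one hx
  have hxne : x ≠ 0 := fun h0 => by simp [h0] at hx0
  have hy2 := val_y_sq v ha hb hx h
  have hy0 : v y ≠ 0 := by
    intro h0
    rw [h0, zero_pow two_ne_zero] at hy2
    exact (pow_pos hx0 3).ne hy2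
  have hyne : y ≠ 0 := fun h0 => hy0 (by simp [h0])
  have ht2 : v (x / y) ^ 2 * v x = 1 := by
    rw [map_div₀, div_pow, hy2]
    field_simp
  have ht : v (x / y) < 1 := by
    by_contra hcon
    rw [not_lt] at hcon
    have : (1 : Γ₀) < v (x / y) ^ 2 * v x := by
      calc (1 : Γ₀) < v x := hx
        _ = 1 * v x := (one_mul _).symm
        _ ≤ v (x / y) ^ 2 * v x := by
          gcongr
          exact one_le_pow_of_one_le' hcon 2
    exact this.ne' ht2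
  refine ⟨hyne, ht2, ht, ?_, ?_⟩
  · -- v (1/y) = v (x/y)^3
    have hsq : (v (1 / y)) ^ 2 = (v (x / y) ^ 3) ^ 2 := by
      have e1 : v x ^ 6 = (v y ^ 2) ^ 2 := by rw [hy2, ← pow_mul]
      rw [map_div₀, map_div₀, map_one, div_pow, div_pow, div_pow, ← pow_mul, ← pow_mul, one_pow,
        show 3 * 2 = 6 from rfl, e1]
      field_simp
    exact (pow_left_injective two_ne_zero) hsq
  · field_simp
    linear_combination h


/-- The chord/tangent datum in the `(t, w)`-plane: bounds for the slope `lam` and the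
intercept `nu`.  Here `N = lam * D` is the relation obtained from the two curve relations
(resp. the tangency condition), and only the curve relation of the first point is used. -/
lemma lam_nu_bounds {a b t₁ w₁ t₂ w₂ lam nu : K} {μ : Γ₀} (ha : v a ≤ 1) (hb : v b ≤ 1)
    (hμ : μ < 1) (ht₁ : v t₁ ≤ μ) (ht₂ : v t₂ ≤ μ) (hw₁ : v w₁ ≤ μ) (hw₂ : v w₂ ≤ μ)
    (hF₁ : w₁ = t₁ ^ 3 + a * t₁ ^ 2 * w₁ + b * t₁ * w₁ ^ 2)
    (hlam : lam * (1 - a * t₂ ^ 2 - b * t₂ * (w₁ + w₂)) =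
      t₁ ^ 2 + t₁ * t₂ + t₂ ^ 2 + a * (t₁ + t₂) * w₁ + b * w₁ ^ 2)
    (hnu : nu = w₁ - lam * t₁) :
    v lam ≤ μ ^ 2 ∧ v nu ≤ v t₁ * v t₂ * μ := by
  have hμ1 : μ ≤ 1 := hμ.le
  have hμ2 : μ ^ 2 ≤ μ := by
    calc μ ^ 2 ≤ μ ^ 1 := pow_le_of_le_one hμ1 (by norm_num)
      _ = μ := pow_one μ
  have hμ3 : μ ^ 2 < 1 := lt_of_le_of_lt hμ2 hμ
  -- the denominator is a unit
  have hD : v (1 - a * t₂ ^ 2 - b * t₂ * (w₁ + w₂)) = 1 := by
    have h1 : v (a * t₂ ^ 2 + b * t₂ * (w₁ + w₂)) < 1 := by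
      refine lt_of_le_of_lt (v.map_add_le (g := μ ^ 2) ?_ ?_) hμ3
      · calc v (a * t₂ ^ 2) ≤ 1 * μ ^ 2 := val_mul_le v ha (val_pow_le v ht₂ 2)
          _ = μ ^ 2 := one_mul _
      · calc v (b * t₂ * (w₁ + w₂)) ≤ (1 * μ) * μ :=
            val_mul_le v (val_mul_le v hb ht₂) (v.map_add_le hw₁ hw₂)
          _ = μ ^ 2 := by rw [one_mul, pow_two]
    have h2 : (1 : K) - a * t₂ ^ 2 - b * t₂ * (w₁ + w₂) =
        1 - (a * t₂ ^ 2 + b * t₂ * (w₁ + w₂)) := by ring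
    rw [h2]
    exact Valuation.map_one_sub_of_lt v h1
  have hlam' : v lam ≤ μ ^ 2 := by
    have h1 : v lam = v (t₁ ^ 2 + t₁ * t₂ + t₂ ^ 2 + a * (t₁ + t₂) * w₁ + b * w₁ ^ 2) := by
      rw [← hlam, map_mul, hD, mul_one]
    rw [h1]
    refine v.map_add_le (v.map_add_le (v.map_add_le (v.map_add_le ?_ ?_) ?_) ?_) ?_
    · exact val_pow_le v ht₁ 2
    · calc v (t₁ * t₂) ≤ μ * μ := val_mul_le v ht₁ ht₂
        _ = μ ^ 2 := (pow_two μ).symm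
    · exact val_pow_le v ht₂ 2
    · calc v (a * (t₁ + t₂) * w₁) ≤ (1 * μ) * μ :=
          val_mul_le v (val_mul_le v ha (v.map_add_le ht₁ ht₂)) hw₁
        _ = μ ^ 2 := by rw [one_mul, pow_two]
    · calc v (b * w₁ ^ 2) ≤ 1 * μ ^ 2 := val_mul_le v hb (val_pow_le v hw₁ 2)
        _ = μ ^ 2 := one_mul _
  refine ⟨hlam', ?_⟩
  -- formula for `nu`
  have hnu' : nu = -(t₁ * t₂ * (t₁ + t₂ + a * w₁ + lam * (a * t₂ + b * (w₁ + w₂)))) := by
    rw [hnu]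
    linear_combination hF₁ - t₁ * hlam
  rw [hnu', Valuation.map_neg, map_mul, map_mul]
  gcongr
  refine v.map_add_le (v.map_add_le (v.map_add_le ht₁ ht₂) ?_) ?_
  · calc v (a * w₁) ≤ 1 * μ := val_mul_le v ha hw₁
      _ = μ := one_mul _
  · calc v (lam * (a * t₂ + b * (w₁ + w₂))) ≤ μ ^ 2 * μ := by
          refine val_mul_le v hlam' (v.map_add_le ?_ ?_)
          · calc v (a * t₂) ≤ 1 * μ := val_mul_le v ha ht₂
              _ = μ := one_mul _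
          · calc v (b * (w₁ + w₂)) ≤ 1 * μ := val_mul_le v hb (v.map_add_le hw₁ hw₂)
              _ = μ := one_mul _
      _ ≤ 1 * μ := mul_le_mul' hμ3.le le_rfl
      _ = μ := one_mul _


/-- On the `(t, w)`-chart near the origin, `t` determines `w`. -/
lemma tw_inj {a b t w₁ w₂ : K} (ha : v a ≤ 1) (hb : v b ≤ 1) (ht : v t < 1)
    (hw₁ : v w₁ < 1) (hw₂ : v w₂ < 1)
    (hF₁ : w₁ = t ^ 3 + a * t ^ 2 * w₁ + b * t * w₁ ^ 2)
    (hF₂ : w₂ = t ^ 3 + a * t ^ 2 * w₂ + b * t * w₂ ^ 2) : w₁ = w₂ := by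
  have h1 : (w₁ - w₂) * (1 - (a * t ^ 2 + b * t * (w₁ + w₂))) = 0 := by
    linear_combination hF₁ - hF₂
  have h2 : v (a * t ^ 2 + b * t * (w₁ + w₂)) < 1 := by
    refine v.map_add_lt ?_ ?_
    · calc v (a * t ^ 2) ≤ 1 * v t ^ 2 := val_mul_le v ha (val_pow_le v le_rfl 2)
        _ = v t ^ 2 := one_mul _
        _ ≤ v t ^ 1 := pow_le_of_le_one ht.le (by norm_num)
        _ = v t := pow_one _
        _ < 1 := ht
    · calc v (b * t * (w₁ + w₂)) ≤ (1 * v t) * 1 :=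
          val_mul_le v (val_mul_le v hb le_rfl) (v.map_add_le hw₁.le hw₂.le)
        _ = v t := by rw [one_mul, mul_one]
        _ < 1 := ht
  have h3 : v (1 - (a * t ^ 2 + b * t * (w₁ + w₂))) = 1 := Valuation.map_one_sub_of_lt v h2
  have h4 : (1 - (a * t ^ 2 + b * t * (w₁ + w₂))) ≠ 0 := by
    intro h0
    rw [h0, map_zero] at h3
    exact zero_ne_one h3
  rcases mul_eq_zero.mp h1 with h | h
  · exact sub_eq_zero.mp h
  · exact absurd h h4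

/-- Core chord computation: closure of `E1` and second-order additivity of `t = x / y`. -/
lemma chord_core {a b x₁ y₁ x₂ y₂ x₃ ℓ c : K} (ha : v a ≤ 1) (hb : v b ≤ 1)
    (hx₁ : 1 < v x₁) (hx₂ : 1 < v x₂)
    (hE₁ : y₁ ^ 2 = x₁ ^ 3 + a * x₁ ^ 2 + b * x₁) (hE₂ : y₂ ^ 2 = x₂ ^ 3 + a * x₂ ^ 2 + b * x₂)
    (hy₁ : y₁ = ℓ * x₁ + c) (hy₂ : y₂ = ℓ * x₂ + c)
    (h₁ : x₁ + x₂ + x₃ = ℓ ^ 2 - a) (h₂ : x₁ * x₂ + x₁ * x₃ + x₂ * x₃ = b - 2 * ℓ * c)
    (h₃ : x₁ * x₂ * x₃ = c ^ 2) (hc : c ≠ 0)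
    (hlam : (-ℓ / c) * (1 - a * (x₂ / y₂) ^ 2 - b * (x₂ / y₂) * (1 / y₁ + 1 / y₂)) =
      (x₁ / y₁) ^ 2 + (x₁ / y₁) * (x₂ / y₂) + (x₂ / y₂) ^ 2 +
        a * (x₁ / y₁ + x₂ / y₂) * (1 / y₁) + b * (1 / y₁) ^ 2) :
    1 < v x₃ ∧ ℓ * x₃ + c ≠ 0 ∧
      v (x₃ / (-(ℓ * x₃ + c)) - x₁ / y₁ - x₂ / y₂) ≤
        v (x₁ / y₁) * v (x₂ / y₂) * max (v (x₁ / y₁)) (v (x₂ / y₂)) := by
  obtain ⟨hy₁0, hτ₁, hτ₁1, hw₁, hF₁⟩ := tw_basic v ha hb hx₁ hE₁
  obtain ⟨hy₂0, hτ₂, hτ₂1, hw₂, hF₂⟩ := tw_basic v ha hb hx₂ hE₂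
  set t₁ := x₁ / y₁ with ht₁
  set t₂ := x₂ / y₂ with ht₂
  set w₁ := 1 / y₁ with hw₁d
  set w₂ := 1 / y₂ with hw₂d
  set lam := -ℓ / c with hlamd
  set nu := 1 / c with hnud
  set μ := max (v t₁) (v t₂) with hμd
  have hμ : μ < 1 := max_lt hτ₁1 hτ₂1
  have hτ₁μ : v t₁ ≤ μ := le_max_left _ _
  have hτ₂μ : v t₂ ≤ μ := le_max_right _ _
  have hcube : ∀ {τ : Γ₀}, τ < 1 → τ ^ 3 ≤ τ := fun {τ} h => by
    calc τ ^ 3 ≤ τ ^ 1 := pow_le_of_le_one h.le (by norm_num)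
      _ = τ := pow_one τ
  have hw₁μ : v w₁ ≤ μ := by rw [hw₁]; exact (hcube hτ₁1).trans hτ₁μ
  have hw₂μ : v w₂ ≤ μ := by rw [hw₂]; exact (hcube hτ₂1).trans hτ₂μ
  have hnu : nu = w₁ - lam * t₁ := by
    rw [hnud, hw₁d, hlamd, ht₁]
    field_simp
    linear_combination hy₁
  obtain ⟨hvlam, hvnu⟩ := lam_nu_bounds v ha hb hμ hτ₁μ hτ₂μ hw₁μ hw₂μ hF₁ hlam hnu
  have hμ2 : μ ^ 2 < 1 := by
    calc μ ^ 2 ≤ μ ^ 1 := pow_le_of_le_one hμ.le (by norm_num)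
      _ = μ := pow_one μ
      _ < 1 := hμ
  have hτ₁0 : v t₁ ≠ 0 := by
    intro h0
    rw [h0, zero_pow two_ne_zero, zero_mul] at hτ₁
    exact zero_ne_one hτ₁
  have hτ₂0 : v t₂ ≠ 0 := by
    intro h0
    rw [h0, zero_pow two_ne_zero, zero_mul] at hτ₂
    exact zero_ne_one hτ₂
  have hnuc : nu * c = 1 := by rw [hnud]; field_simp
  -- closure
  have hclos : 1 < v x₃ := by
    by_contra hcon
    rw [not_lt] at hcon
    have e1 : v x₃ * v nu ^ 2 = v t₁ ^ 2 * v t₂ ^ 2 := by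
      have e2 : v x₁ * v x₂ * v x₃ * v nu ^ 2 = 1 := by
        rw [← map_mul, ← map_mul, ← map_pow, ← map_mul, h₃, ← mul_pow, mul_comm c nu, hnuc,
          one_pow, map_one]
      calc v x₃ * v nu ^ 2 = (v t₁ ^ 2 * v x₁) * (v t₂ ^ 2 * v x₂) * (v x₃ * v nu ^ 2) := by
            rw [hτ₁, hτ₂, one_mul, one_mul]
        _ = v t₁ ^ 2 * v t₂ ^ 2 * (v x₁ * v x₂ * v x₃ * v nu ^ 2) := by ac_rfl
        _ = v t₁ ^ 2 * v t₂ ^ 2 := by rw [e2, mul_one]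
    have e3 : v x₃ * v nu ^ 2 ≤ 1 * (v t₁ * v t₂ * μ) ^ 2 :=
      mul_le_mul' hcon (pow_le_pow_left' hvnu 2)
    have e4 : (v t₁ * v t₂ * μ) ^ 2 = (v t₁ ^ 2 * v t₂ ^ 2) * μ ^ 2 := by
      rw [mul_pow, mul_pow]
    rw [one_mul, e4, e1] at e3
    have hpos : 0 < v t₁ ^ 2 * v t₂ ^ 2 :=
      mul_pos (pow_pos (zero_lt_iff.mpr hτ₁0) 2) (pow_pos (zero_lt_iff.mpr hτ₂0) 2)
    exact absurd e3 (not_le.mpr (mul_lt_of_lt_one_right hpos hμ2))
  refine ⟨hclos, ?_⟩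
  -- the unit `α`
  have hα : v (1 + (a * lam + b * lam ^ 2)) = 1 := by
    refine Valuation.map_one_add_of_lt v (v.map_add_lt ?_ ?_)
    · calc v (a * lam) ≤ 1 * μ ^ 2 := val_mul_le v ha hvlam
        _ = μ ^ 2 := one_mul _
        _ < 1 := hμ2
    · calc v (b * lam ^ 2) ≤ 1 * (μ ^ 2) ^ 2 := val_mul_le v hb (val_pow_le v hvlam 2)
        _ = (μ ^ 2) ^ 2 := one_mul _
        _ ≤ (μ ^ 2) ^ 1 := pow_le_of_le_one hμ2.le (by norm_num)
        _ = μ ^ 2 := pow_one _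
        _ < 1 := hμ2
  have hα0 : (1 + (a * lam + b * lam ^ 2)) ≠ 0 := by
    intro h0
    rw [h0, map_zero] at hα
    exact zero_ne_one hα
  -- product and sum formulas
  have hprod : y₁ * y₂ * (ℓ * x₃ + c) = c ^ 3 * (1 + (a * lam + b * lam ^ 2)) := by
    rw [hlamd]
    field_simp
    rw [hy₁, hy₂]
    linear_combination ℓ ^ 3 * h₃ + ℓ ^ 2 * c * h₂ + ℓ * c ^ 2 * h₁
  have hy₃0 : ℓ * x₃ + c ≠ 0 := by
    intro h0
    rw [h0, mul_zero] at hprod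
    exact (mul_ne_zero (pow_ne_zero 3 hc) hα0) hprod.symm
  refine ⟨hy₃0, ?_⟩
  have hsum : x₁ * y₂ * (ℓ * x₃ + c) + x₂ * y₁ * (ℓ * x₃ + c) + x₃ * y₁ * y₂ =
      -(c ^ 2 * (a + 2 * b * lam)) := by
    rw [hlamd]
    field_simp
    rw [hy₁, hy₂]
    linear_combination 3 * ℓ ^ 2 * h₃ + 2 * ℓ * c * h₂ + c ^ 2 * h₁
  have hE : x₃ / (-(ℓ * x₃ + c)) - t₁ - t₂ =
      nu * (a + 2 * b * lam) / (1 + (a * lam + b * lam ^ 2)) := by
    have e1 : x₃ / (-(ℓ * x₃ + c)) - t₁ - t₂ =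
        -((x₁ * y₂ * (ℓ * x₃ + c) + x₂ * y₁ * (ℓ * x₃ + c) + x₃ * y₁ * y₂) /
          (y₁ * y₂ * (ℓ * x₃ + c))) := by
      rw [ht₁, ht₂]
      generalize ℓ * x₃ + c = Y₃ at hy₃0
      field_simp
      ring
    rw [e1, hsum, hprod, hnud]
    field_simp
  rw [hE, map_div₀, hα, div_one, map_mul]
  calc v nu * v (a + 2 * b * lam) ≤ (v t₁ * v t₂ * μ) * 1 := by
        refine mul_le_mul' hvnu (v.map_add_le ha ?_)
        calc v (2 * b * lam) ≤ (1 * 1) * 1 := by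
              refine val_mul_le v (val_mul_le v ?_ hb) (hvlam.trans hμ2.le)
              have : v (2 : K) = v ((1 : K) + 1) := by norm_num
              rw [this]
              exact v.map_add_le (by rw [map_one]) (by rw [map_one])
          _ = 1 := by rw [one_mul, one_mul]
    _ = v t₁ * v t₂ * μ := mul_one _


omit [LinearOrderedCommGroupWithZero Γ₀] in
/-- The slope relation in the `(t, w)`-plane for a chord through two distinct points. -/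
lemma hlam_of_line {a b t₁ w₁ t₂ w₂ ℓ c : K}
    (hF₁ : w₁ = t₁ ^ 3 + a * t₁ ^ 2 * w₁ + b * t₁ * w₁ ^ 2)
    (hF₂ : w₂ = t₂ ^ 3 + a * t₂ ^ 2 * w₂ + b * t₂ * w₂ ^ 2)
    (hL₁ : ℓ * t₁ + c * w₁ = 1) (hL₂ : ℓ * t₂ + c * w₂ = 1) (hc : c ≠ 0) (ht : t₁ ≠ t₂) :
    (-ℓ / c) * (1 - a * t₂ ^ 2 - b * t₂ * (w₁ + w₂)) =
      t₁ ^ 2 + t₁ * t₂ + t₂ ^ 2 + a * (t₁ + t₂) * w₁ + b * w₁ ^ 2 := by
  have hδ : t₁ - t₂ ≠ 0 := sub_ne_zero.mpr ht
  have h1 : (t₁ - t₂) * (t₁ ^ 2 + t₁ * t₂ + t₂ ^ 2 + a * (t₁ + t₂) * w₁ + b * w₁ ^ 2) =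
      (w₁ - w₂) * (1 - a * t₂ ^ 2 - b * t₂ * (w₁ + w₂)) := by
    linear_combination hF₂ - hF₁
  have h2 : c * (w₁ - w₂) = -ℓ * (t₁ - t₂) := by linear_combination hL₁ - hL₂
  have h3 : c * (t₁ - t₂) ≠ 0 := mul_ne_zero hc hδ
  apply mul_left_cancel₀ h3
  have h4 : c * (t₁ - t₂) * (-ℓ / c * (1 - a * t₂ ^ 2 - b * t₂ * (w₁ + w₂))) =
      (-ℓ * (t₁ - t₂)) * (1 - a * t₂ ^ 2 - b * t₂ * (w₁ + w₂)) := by
    field_simp
  rw [h4, ← h2]
  linear_combination (-c) * h1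

end Algebra

/-! ## Section B: chords and tangents on the curve `y² = x³ + a₂ x² + a₄ x` -/

section Curve

variable {K : Type*} [Field K] [DecidableEq K] {W : WeierstrassCurve K}

/-- Vieta's relations for the chord/tangent cubic, extracted from Mathlib's
`addPolynomial_slope`. -/
lemma vieta {x₁ x₂ y₁ y₂ : K} (hE₁ : W.toAffine.Equation x₁ y₁)
    (hE₂ : W.toAffine.Equation x₂ y₂) (hxy : ¬(x₁ = x₂ ∧ y₁ = W.toAffine.negY x₂ y₂)) :
    x₁ * x₂ + x₁ * W.toAffine.addX x₁ x₂ (W.toAffine.slope x₁ x₂ y₁ y₂) +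
        x₂ * W.toAffine.addX x₁ x₂ (W.toAffine.slope x₁ x₂ y₁ y₂) =
      2 * x₁ * (W.toAffine.slope x₁ x₂ y₁ y₂) ^ 2 +
        (W.a₁ * x₁ - 2 * y₁ - W.a₃) * (W.toAffine.slope x₁ x₂ y₁ y₂) + (-W.a₁ * y₁ + W.a₄) ∧
    -(x₁ * x₂ * W.toAffine.addX x₁ x₂ (W.toAffine.slope x₁ x₂ y₁ y₂)) =
      -x₁ ^ 2 * (W.toAffine.slope x₁ x₂ y₁ y₂) ^ 2 +
        (2 * x₁ * y₁ + W.a₃ * x₁) * (W.toAffine.slope x₁ x₂ y₁ y₂) -
        (y₁ ^ 2 + W.a₃ * y₁ - W.a₆) := by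
  have h := addPolynomial_slope hE₁ hE₂ hxy
  rw [addPolynomial_eq, neg_inj, Cubic.prod_X_sub_C_eq, Cubic.toPoly_injective] at h
  have hc := congrArg Cubic.c h
  have hd := congrArg Cubic.d h
  simp only at hc hd
  exact ⟨hc.symm, hd.symm⟩


variable {Γ₀ : Type*} [LinearOrderedCommGroupWithZero Γ₀] (v : Valuation K Γ₀)

omit [DecidableEq K] in
lemma equation_iff_of_zero (h₁ : W.a₁ = 0) (h₃ : W.a₃ = 0) (h₆ : W.a₆ = 0) (x y : K) :
    W.toAffine.Equation x y ↔ y ^ 2 = x ^ 3 + W.a₂ * x ^ 2 + W.a₄ * x := by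
  rw [equation_iff, h₁, h₃, h₆]
  constructor
  · intro h
    linear_combination h
  · intro h
    linear_combination h

/-- Closure of `E1` under addition and second-order additivity of `t = x / y`, in terms of
Mathlib's addition formulas. -/
lemma add_core (h₁ : W.a₁ = 0) (h₃ : W.a₃ = 0) (h₆ : W.a₆ = 0) (ha : v W.a₂ ≤ 1)
    (hb : v W.a₄ ≤ 1) {x₁ x₂ y₁ y₂ : K} (hE₁ : W.toAffine.Equation x₁ y₁)
    (hE₂ : W.toAffine.Equation x₂ y₂) (hx₁ : 1 < v x₁) (hx₂ : 1 < v x₂)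
    (hxy : ¬(x₁ = x₂ ∧ y₁ = W.toAffine.negY x₂ y₂)) :
    1 < v (W.toAffine.addX x₁ x₂ (W.toAffine.slope x₁ x₂ y₁ y₂)) ∧
    W.toAffine.addY x₁ x₂ y₁ (W.toAffine.slope x₁ x₂ y₁ y₂) ≠ 0 ∧
    v (W.toAffine.addX x₁ x₂ (W.toAffine.slope x₁ x₂ y₁ y₂) /
        W.toAffine.addY x₁ x₂ y₁ (W.toAffine.slope x₁ x₂ y₁ y₂) - x₁ / y₁ - x₂ / y₂) ≤
      v (x₁ / y₁) * v (x₂ / y₂) * max (v (x₁ / y₁)) (v (x₂ / y₂)) := by
  obtain ⟨hv₂, hv₃⟩ := vieta hE₁ hE₂ hxy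
  have hE₁' := (equation_iff_of_zero h₁ h₃ h₆ x₁ y₁).mp hE₁
  have hE₂' := (equation_iff_of_zero h₁ h₃ h₆ x₂ y₂).mp hE₂
  obtain ⟨hy₁0, hτ₁, hτ₁1, hw₁, hF₁⟩ := tw_basic v ha hb hx₁ hE₁'
  obtain ⟨hy₂0, hτ₂, hτ₂1, hw₂, hF₂⟩ := tw_basic v ha hb hx₂ hE₂'
  have hx₁0 : x₁ ≠ 0 := fun h0 => by
    rw [h0, map_zero] at hx₁
    exact not_lt_of_gt hx₁ zero_lt_one
  have hx₂0 : x₂ ≠ 0 := fun h0 => by
    rw [h0, map_zero] at hx₂
    exact not_lt_of_gt hx₂ zero_lt_one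
  have hcube : ∀ {τ : Γ₀}, τ < 1 → τ ^ 3 < 1 := fun {τ} h => by
    calc τ ^ 3 ≤ τ ^ 1 := pow_le_of_le_one h.le (by norm_num)
      _ = τ := pow_one τ
      _ < 1 := h
  have hw₁1 : v (1 / y₁) < 1 := by rw [hw₁]; exact hcube hτ₁1
  have hw₂1 : v (1 / y₂) < 1 := by rw [hw₂]; exact hcube hτ₂1
  set ℓ := W.toAffine.slope x₁ x₂ y₁ y₂ with hℓ
  set x₃ := W.toAffine.addX x₁ x₂ ℓ with hx₃
  have hx₃' : x₁ + x₂ + x₃ = ℓ ^ 2 - W.a₂ := by
    rw [hx₃, addX, h₁]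
    ring
  have hy₃ : W.toAffine.addY x₁ x₂ y₁ ℓ = -(ℓ * x₃ + (y₁ - ℓ * x₁)) := by
    rw [addY, negAddY, negY, h₁, h₃, ← hx₃]
    ring
  have hv₂' : x₁ * x₂ + x₁ * x₃ + x₂ * x₃ = W.a₄ - 2 * ℓ * (y₁ - ℓ * x₁) := by
    rw [hv₂, h₁, h₃]
    ring
  have hv₃' : x₁ * x₂ * x₃ = (y₁ - ℓ * x₁) ^ 2 := by
    have := hv₃
    rw [h₃, h₆] at this
    linear_combination (-1 : K) * this
  -- the remaining inputs of `chord_core`
  have key : y₂ = ℓ * x₂ + (y₁ - ℓ * x₁) ∧ y₁ - ℓ * x₁ ≠ 0 ∧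
      (-ℓ / (y₁ - ℓ * x₁)) * (1 - W.a₂ * (x₂ / y₂) ^ 2 - W.a₄ * (x₂ / y₂) * (1 / y₁ + 1 / y₂)) =
      (x₁ / y₁) ^ 2 + (x₁ / y₁) * (x₂ / y₂) + (x₂ / y₂) ^ 2 +
        W.a₂ * (x₁ / y₁ + x₂ / y₂) * (1 / y₁) + W.a₄ * (1 / y₁) ^ 2 := by
    by_cases hx : x₁ = x₂
    · have hy : y₁ ≠ W.toAffine.negY x₂ y₂ := fun h => hxy ⟨hx, h⟩
      have hyy : y₁ = y₂ := Y_eq_of_Y_ne hE₁ hE₂ hx hy
      have hℓ' : ℓ = (3 * x₁ ^ 2 + 2 * W.a₂ * x₁ + W.a₄) / (2 * y₁) := by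
        rw [hℓ, slope_of_Y_ne hx hy, negY, h₁, h₃]
        congr 1 <;> ring
      have h2y : 2 * y₁ ≠ 0 := by
        intro h0
        apply hy
        rw [← hyy, ← hx, negY, h₁, h₃]
        linear_combination h0
      have h2 : (2 : K) ≠ 0 := left_ne_zero_of_mul h2y
      rw [← hx, ← hyy]
      have hc2 : 2 * y₁ * (y₁ - ℓ * x₁) = x₁ * (W.a₄ - x₁ ^ 2) := by
        rw [hℓ']
        field_simp
        linear_combination 2 * hE₁'
      have hbx : W.a₄ - x₁ ^ 2 ≠ 0 := by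
        intro h0
        have : v (x₁ ^ 2) = v W.a₄ := by rw [← sub_eq_zero.mp h0]
        rw [map_pow] at this
        have h1 : (1 : Γ₀) < v x₁ ^ 2 := one_lt_pow' hx₁ two_ne_zero
        rw [this] at h1
        exact not_lt_of_ge hb h1
      have hc : y₁ - ℓ * x₁ ≠ 0 := by
        intro h0
        rw [h0, mul_zero] at hc2
        exact (mul_ne_zero hx₁0 hbx) hc2.symm
      refine ⟨by ring, hc, ?_⟩
      have hc' : y₁ - ℓ * x₁ = x₁ * (W.a₄ - x₁ ^ 2) / (2 * y₁) := by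
        rw [eq_div_iff h2y, ← hc2]
        ring
      rw [hc', hℓ']
      field_simp
      linear_combination (-(3 * x₁ ^ 2 + 2 * W.a₂ * x₁ + W.a₄)) * hE₁'
    · have hd : x₁ - x₂ ≠ 0 := sub_ne_zero.mpr hx
      have hℓ' : ℓ = (y₁ - y₂) / (x₁ - x₂) := by rw [hℓ, slope_of_X_ne hx]
      have hy₂ : y₂ = ℓ * x₂ + (y₁ - ℓ * x₁) := by
        rw [hℓ']
        field_simp
        ring
      have hL₁ : ℓ * (x₁ / y₁) + (y₁ - ℓ * x₁) * (1 / y₁) = 1 := by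
        field_simp
        ring
      have hL₂ : ℓ * (x₂ / y₂) + (y₁ - ℓ * x₁) * (1 / y₂) = 1 := by
        field_simp
        linear_combination (-1 : K) * hy₂
      -- `t₁ ≠ t₂`
      have ht : x₁ / y₁ ≠ x₂ / y₂ := by
        intro hteq
        rw [← hteq] at hF₂
        have hw := tw_inj v ha hb hτ₁1 hw₁1 hw₂1 hF₁ hF₂
        have hyy : y₁ = y₂ := by
          have := congrArg (fun z => 1 / z) hw
          simpa using this
        rw [hyy] at hteq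
        exact hx (by field_simp at hteq; exact hteq)
      have hc : y₁ - ℓ * x₁ ≠ 0 := by
        intro hc0
        rw [hc0, zero_mul, add_zero] at hL₁ hL₂
        have hℓ0 : ℓ ≠ 0 := by
          intro h0
          rw [h0, zero_mul] at hL₁
          exact zero_ne_one hL₁
        exact ht (mul_left_cancel₀ hℓ0 (hL₁.trans hL₂.symm))
      exact ⟨hy₂, hc, hlam_of_line hF₁ hF₂ hL₁ hL₂ hc ht⟩
  obtain ⟨hy₂, hc, hlam⟩ := key
  have hy₁ : y₁ = ℓ * x₁ + (y₁ - ℓ * x₁) := by ring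
  obtain ⟨r1, r2, r3⟩ := chord_core v ha hb hx₁ hx₂ hE₁' hE₂' hy₁ hy₂ hx₃' hv₂' hv₃' hc hlam
  refine ⟨r1, ?_, ?_⟩
  · rw [hy₃]
    exact neg_ne_zero.mpr r2
  · rw [hy₃]
    exact r3

end Curve

/-! ## Section C: the kernel of reduction as a set of points -/

section Points

variable {K : Type*} [Field K] [DecidableEq K] {W : WeierstrassCurve K}
  {Γ₀ : Type*} [LinearOrderedCommGroupWithZero Γ₀] (v : Valuation K Γ₀)

/-- The kernel of reduction: the point at infinity and the affine points with `1 < v x`. -/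
def InE1 : W.toAffine.Point → Prop
  | .zero => True
  | .some x _ _ => 1 < v x

/-- The parameter `t = x / y` (and `t = 0` at infinity). -/
def tPar : W.toAffine.Point → K
  | .zero => 0
  | .some x y _ => x / y

omit [DecidableEq K] in
@[simp] lemma inE1_zero : InE1 v (0 : W.toAffine.Point) := trivial

omit [DecidableEq K] in
@[simp] lemma inE1_some {x y : K} (h : W.toAffine.Nonsingular x y) :
    InE1 v (Point.some x y h) ↔ 1 < v x := Iff.rfl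

omit [DecidableEq K] in
@[simp] lemma tPar_zero : tPar (0 : W.toAffine.Point) = 0 := rfl

omit [DecidableEq K] in
@[simp] lemma tPar_some {x y : K} (h : W.toAffine.Nonsingular x y) :
    tPar (Point.some x y h) = x / y := rfl

omit [DecidableEq K] in
lemma inE1_neg {P : W.toAffine.Point} (hP : InE1 v P) : InE1 v (-P) := by
  rcases P with _ | ⟨x, y, h⟩
  · exact trivial
  · rw [Point.neg_some]
    exact hP

omit [DecidableEq K] in
lemma tPar_neg (h₁ : W.a₁ = 0) (h₃ : W.a₃ = 0) (P : W.toAffine.Point) :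
    tPar (-P) = -tPar P := by
  rcases P with _ | ⟨x, y, h⟩
  · change (0 : K) = -0
    rw [neg_zero]
  · rw [Point.neg_some, tPar_some, tPar_some, negY, h₁, h₃]
    have : -y - 0 * x - 0 = -y := by ring
    rw [this, div_neg]

omit [DecidableEq K] in
lemma val_tPar_lt_one (h₁ : W.a₁ = 0) (h₃ : W.a₃ = 0) (h₆ : W.a₆ = 0) (ha : v W.a₂ ≤ 1)
    (hb : v W.a₄ ≤ 1) {P : W.toAffine.Point} (hP : InE1 v P) : v (tPar P) < 1 := by
  rcases P with _ | ⟨x, y, h⟩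
  · change v 0 < 1
    rw [map_zero]
    exact zero_lt_one
  · exact (tw_basic v ha hb hP ((equation_iff_of_zero h₁ h₃ h₆ x y).mp h.1)).2.2.1

omit [DecidableEq K] in
lemma tPar_eq_zero_iff (h₁ : W.a₁ = 0) (h₃ : W.a₃ = 0) (h₆ : W.a₆ = 0) (ha : v W.a₂ ≤ 1)
    (hb : v W.a₄ ≤ 1) {P : W.toAffine.Point} (hP : InE1 v P) : tPar P = 0 ↔ P = 0 := by
  rcases P with _ | ⟨x, y, h⟩
  · exact ⟨fun _ => rfl, fun _ => rfl⟩
  · have hy := (tw_basic v ha hb hP ((equation_iff_of_zero h₁ h₃ h₆ x y).mp h.1)).1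
    have hx : x ≠ 0 := fun h0 => by
      rw [inE1_some, h0, map_zero] at hP
      exact not_lt_of_gt hP zero_lt_one
    constructor
    · intro h0
      rw [tPar_some] at h0
      exact absurd h0 (div_ne_zero hx hy)
    · intro h0
      exact absurd h0 (Point.some_ne_zero h)

/-- Closure of `E1` under addition together with second-order additivity of `t`. -/
lemma inE1_add_and (h₁ : W.a₁ = 0) (h₃ : W.a₃ = 0) (h₆ : W.a₆ = 0) (ha : v W.a₂ ≤ 1)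
    (hb : v W.a₄ ≤ 1) {P Q : W.toAffine.Point} (hP : InE1 v P) (hQ : InE1 v Q) :
    InE1 v (P + Q) ∧
      v (tPar (P + Q) - tPar P - tPar Q) ≤ (max (v (tPar P)) (v (tPar Q))) ^ 2 := by
  rcases P with _ | ⟨x₁, y₁, hP'⟩
  · change InE1 v (0 + Q) ∧ v (tPar (0 + Q) - tPar 0 - tPar Q) ≤ _
    rw [zero_add, tPar_zero, sub_zero, sub_self, map_zero]
    exact ⟨hQ, zero_le⟩
  rcases Q with _ | ⟨x₂, y₂, hQ'⟩
  · change InE1 v (_ + 0) ∧ v (tPar (_ + 0) - tPar _ - tPar 0) ≤ _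
    rw [add_zero, tPar_zero, sub_zero, sub_self, map_zero]
    exact ⟨hP, zero_le⟩
  by_cases hxy : x₁ = x₂ ∧ y₁ = W.toAffine.negY x₂ y₂
  · rw [Point.add_of_Y_eq hxy.1 hxy.2]
    refine ⟨trivial, ?_⟩
    have : tPar (Point.some x₁ y₁ hP') = -tPar (Point.some x₂ y₂ hQ') := by
      rw [← tPar_neg h₁ h₃, Point.neg_some]
      simp only [tPar_some, hxy.1, hxy.2]
    rw [this, tPar_zero]
    have : (0 : K) - -tPar (Point.some x₂ y₂ hQ') - tPar (Point.some x₂ y₂ hQ') = 0 := by ring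
    rw [this, map_zero]
    exact zero_le
  · rw [Point.add_some hxy]
    obtain ⟨r1, r2, r3⟩ := add_core v h₁ h₃ h₆ ha hb hP'.1 hQ'.1 hP hQ hxy
    refine ⟨r1, ?_⟩
    simp only [tPar_some]
    refine r3.trans ?_
    have hτ₁ := val_tPar_lt_one v h₁ h₃ h₆ ha hb hP
    have hτ₂ := val_tPar_lt_one v h₁ h₃ h₆ ha hb hQ
    simp only [tPar_some] at hτ₁ hτ₂
    set μ := max (v (x₁ / y₁)) (v (x₂ / y₂)) with hμ
    have hμ1 : μ ≤ 1 := (max_lt hτ₁ hτ₂).le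
    calc v (x₁ / y₁) * v (x₂ / y₂) * μ ≤ μ * μ * 1 :=
          mul_le_mul' (mul_le_mul' (le_max_left _ _) (le_max_right _ _)) hμ1
      _ = μ ^ 2 := by rw [mul_one, pow_two]

lemma inE1_add (h₁ : W.a₁ = 0) (h₃ : W.a₃ = 0) (h₆ : W.a₆ = 0) (ha : v W.a₂ ≤ 1)
    (hb : v W.a₄ ≤ 1) {P Q : W.toAffine.Point} (hP : InE1 v P) (hQ : InE1 v Q) :
    InE1 v (P + Q) := (inE1_add_and v h₁ h₃ h₆ ha hb hP hQ).1

/-- Multiples: `t (k • P) ≡ k * t P` modulo `v (t P) ^ 2`. -/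
lemma inE1_nsmul_and (h₁ : W.a₁ = 0) (h₃ : W.a₃ = 0) (h₆ : W.a₆ = 0) (ha : v W.a₂ ≤ 1)
    (hb : v W.a₄ ≤ 1) {P : W.toAffine.Point} (hP : InE1 v P) (k : ℕ) :
    InE1 v (k • P) ∧ v (tPar (k • P) - (k : K) * tPar P) ≤ v (tPar P) ^ 2 := by
  have hτ := val_tPar_lt_one v h₁ h₃ h₆ ha hb hP
  have hτ2 : v (tPar P) ^ 2 ≤ v (tPar P) := by
    calc v (tPar P) ^ 2 ≤ v (tPar P) ^ 1 := pow_le_of_le_one hτ.le (by norm_num)
      _ = v (tPar P) := pow_one _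
  induction k with
  | zero =>
    rw [zero_smul, Nat.cast_zero, zero_mul, tPar_zero, sub_zero, map_zero]
    exact ⟨trivial, zero_le⟩
  | succ k ih =>
    obtain ⟨ih1, ih2⟩ := ih
    rw [succ_nsmul]
    obtain ⟨r1, r2⟩ := inE1_add_and v h₁ h₃ h₆ ha hb ih1 hP
    refine ⟨r1, ?_⟩
    have hk : v ((k : K) * tPar P) ≤ v (tPar P) := by
      have hk1 : v (k : K) ≤ 1 := val_natCast_le_one v k
      calc v ((k : K) * tPar P) ≤ 1 * v (tPar P) := val_mul_le v hk1 le_rfl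
        _ = v (tPar P) := one_mul _
    have hkP : v (tPar (k • P)) ≤ v (tPar P) := by
      have : tPar (k • P) = (tPar (k • P) - (k : K) * tPar P) + (k : K) * tPar P := by ring
      rw [this]
      exact v.map_add_le (ih2.trans hτ2) hk
    have hmax : max (v (tPar (k • P))) (v (tPar P)) ≤ v (tPar P) := max_le hkP le_rfl
    have e : tPar (k • P + P) - ((k + 1 : ℕ) : K) * tPar P =
        (tPar (k • P + P) - tPar (k • P) - tPar P) + (tPar (k • P) - (k : K) * tPar P) := by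
      push_cast
      ring
    rw [e]
    exact v.map_add_le (r2.trans (pow_le_pow_left' hmax 2)) ih2

/-- **No torsion in the kernel of reduction**: if `v n = 1`, `P ∈ E1` and `n • P = 0`,
then `P = 0`. -/
theorem no_torsion_inE1 (h₁ : W.a₁ = 0) (h₃ : W.a₃ = 0) (h₆ : W.a₆ = 0) (ha : v W.a₂ ≤ 1)
    (hb : v W.a₄ ≤ 1) {n : ℕ} (hn : v (n : K) = 1) {P : W.toAffine.Point} (hP : InE1 v P)
    (h : n • P = 0) : P = 0 := by
  by_contra hP0
  have ht0 : tPar P ≠ 0 := fun h0 => hP0 ((tPar_eq_zero_iff v h₁ h₃ h₆ ha hb hP).mp h0)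
  have hτ0 : 0 < v (tPar P) := zero_lt_iff.mpr ((Valuation.ne_zero_iff v).mpr ht0)
  have hτ := val_tPar_lt_one v h₁ h₃ h₆ ha hb hP
  obtain ⟨-, h2⟩ := inE1_nsmul_and v h₁ h₃ h₆ ha hb hP n
  rw [h, tPar_zero, zero_sub, Valuation.map_neg, map_mul, hn, one_mul, pow_two] at h2
  exact absurd h2 (not_le.mpr (mul_lt_of_lt_one_right hτ0 hτ))

end Points

/-! ## Section D: statements for a valuation subring -/

section ValSubring

variable {K : Type*} [Field K] [DecidableEq K] {W : WeierstrassCurve K} (A : ValuationSubring K)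

/-- The kernel of reduction with respect to a valuation subring `A`: the point at infinity
together with the affine points whose `x`-coordinate is not in `A`. -/
def InKer (P : W.toAffine.Point) : Prop :=
  P = 0 ∨ ∃ (x y : K) (h : W.toAffine.Nonsingular x y), P = Point.some x y h ∧ x ∉ A

omit [DecidableEq K] in
lemma inKer_iff (P : W.toAffine.Point) : InKer A P ↔ InE1 A.valuation P := by
  rcases P with _ | ⟨x, y, h⟩
  · exact ⟨fun _ => trivial, fun _ => Or.inl rfl⟩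
  · rw [inE1_some, ← not_le, A.valuation_le_one_iff]
    constructor
    · rintro (h0 | ⟨x', y', h', heq, hx'⟩)
      · exact absurd h0 (Point.some_ne_zero h)
      · rw [Point.some.injEq] at heq
        rw [heq.1]
        exact hx'
    · intro hx
      exact Or.inr ⟨x, y, h, rfl, hx⟩

omit [DecidableEq K] in
lemma inKer_zero : InKer A (0 : W.toAffine.Point) := Or.inl rfl

omit [DecidableEq K] in
lemma inKer_some {x y : K} (h : W.toAffine.Nonsingular x y) :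
    InKer A (Point.some x y h) ↔ x ∉ A := by
  rw [inKer_iff, inE1_some, ← not_le, A.valuation_le_one_iff]

omit [DecidableEq K] in
lemma inKer_neg {P : W.toAffine.Point} (hP : InKer A P) : InKer A (-P) :=
  (inKer_iff A _).mpr (inE1_neg _ ((inKer_iff A _).mp hP))

lemma inKer_add (h₁ : W.a₁ = 0) (h₃ : W.a₃ = 0) (h₆ : W.a₆ = 0) (ha : W.a₂ ∈ A)
    (hb : W.a₄ ∈ A) {P Q : W.toAffine.Point} (hP : InKer A P) (hQ : InKer A Q) :
    InKer A (P + Q) :=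
  (inKer_iff A _).mpr (inE1_add _ h₁ h₃ h₆ ((A.valuation_le_one_iff _).mpr ha)
    ((A.valuation_le_one_iff _).mpr hb) ((inKer_iff A _).mp hP) ((inKer_iff A _).mp hQ))

lemma inKer_sub (h₁ : W.a₁ = 0) (h₃ : W.a₃ = 0) (h₆ : W.a₆ = 0) (ha : W.a₂ ∈ A)
    (hb : W.a₄ ∈ A) {P Q : W.toAffine.Point} (hP : InKer A P) (hQ : InKer A Q) :
    InKer A (P - Q) := by
  rw [sub_eq_add_neg]
  exact inKer_add A h₁ h₃ h₆ ha hb hP (inKer_neg A hQ)

omit [DecidableEq K] in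
lemma valuation_natCast_eq_one {n : ℕ} (hn : (n : K) ∉ A.nonunits) : A.valuation (n : K) = 1 := by
  have h1 : A.valuation (n : K) ≤ 1 := val_natCast_le_one _ n
  rcases lt_or_eq_of_le h1 with h | h
  · exact absurd (A.mem_nonunits_iff.mpr h) hn
  · exact h

/-- **No torsion in the kernel of reduction** (valuation subring form). -/
theorem no_torsion_inKer (h₁ : W.a₁ = 0) (h₃ : W.a₃ = 0) (h₆ : W.a₆ = 0) (ha : W.a₂ ∈ A)
    (hb : W.a₄ ∈ A) {n : ℕ} (hn : (n : K) ∉ A.nonunits) {P : W.toAffine.Point}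
    (hP : InKer A P) (h : n • P = 0) : P = 0 :=
  no_torsion_inE1 _ h₁ h₃ h₆ ((A.valuation_le_one_iff _).mpr ha)
    ((A.valuation_le_one_iff _).mpr hb) (valuation_natCast_eq_one A hn)
    ((inKer_iff A _).mp hP) h

/-- `ℤ`-scalar version, in the shape of `Submodule.torsionBy ℤ _ n`. -/
theorem no_torsion_inKer_zsmul (h₁ : W.a₁ = 0) (h₃ : W.a₃ = 0) (h₆ : W.a₆ = 0) (ha : W.a₂ ∈ A)
    (hb : W.a₄ ∈ A) {n : ℕ} (hn : (n : K) ∉ A.nonunits) {P : W.toAffine.Point}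
    (hP : InKer A P) (h : (n : ℤ) • P = 0) : P = 0 :=
  no_torsion_inKer A h₁ h₃ h₆ ha hb hn hP (by rwa [natCast_zsmul] at h)

end ValSubring

end Fermat.Agent.S05.KernelTorsion
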