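/-
M1 / S05: discharge of `Asm.KernelStatement` (T2) from `KernelTorsion.lean`.
-/
import Mathlib
import Fermat.Agent.S05.KernelTorsion
import Fermat.Agent.S05.GoodBad

set_option autoImplicit false

namespace Fermat.Agent.S05.KernelProof

open WeierstrassCurve WeierstrassCurve.Affine
open Fermat.Agent.S05.Transfer (Wd Wd_baseChange)

local notation "Qbar" => AlgebraicClosure ℚ

/-- `Asm.InE1` is literally `KernelTorsion.InKer`. -/
lemma inE1_iff_inKer {K : Type*} [Field K] (A : ValuationSubring K) {W : Affine K}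
    (P : W.Point) : Asm.InE1 A P ↔ KernelTorsion.InKer A P := Iff.rfl

/-- The T2 statement: the kernel of reduction of `Wd d₁ d₂` is closed under addition and
has no `p`-torsion. -/
theorem kernelStatement : Asm.KernelStatement := by
  intro A p d₁ d₂ _hp _hp2 _h2 hpv hd1 hd2
  have hd1' : algebraMap ℚ Qbar d₁ ∈ A := (A.valuation_le_one_iff _).mp hd1
  have hd2' : algebraMap ℚ Qbar d₂ ∈ A := (A.valuation_le_one_iff _).mp hd2
  have hW : (Wd d₁ d₂)⁄Qbar = Wd (algebraMap ℚ Qbar d₁) (algebraMap ℚ Qbar d₂) :=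
    Wd_baseChange d₁ d₂
  have h₁ : ((Wd d₁ d₂)⁄Qbar).a₁ = 0 := by rw [hW]; rfl
  have h₃ : ((Wd d₁ d₂)⁄Qbar).a₃ = 0 := by rw [hW]; rfl
  have h₆ : ((Wd d₁ d₂)⁄Qbar).a₆ = 0 := by rw [hW]; rfl
  have ha : ((Wd d₁ d₂)⁄Qbar).a₂ ∈ A := by
    rw [hW, Transfer.Wd_a₂]
    exact A.neg_mem _ (A.add_mem _ _ hd1' hd2')
  have hb : ((Wd d₁ d₂)⁄Qbar).a₄ ∈ A := by
    rw [hW, Transfer.Wd_a₄]
    exact A.mul_mem _ _ hd1' hd2'
  have hpn : (p : Qbar) ∉ A.nonunits := by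
    rw [A.mem_nonunits_iff, hpv]
    exact lt_irrefl _
  refine ⟨fun P Q hP hQ => ?_, fun P hP hpP => ?_⟩
  · exact KernelTorsion.inKer_add A h₁ h₃ h₆ ha hb hP hQ
  · exact KernelTorsion.no_torsion_inKer A h₁ h₃ h₆ ha hb hpn hP hpP

end Fermat.Agent.S05.KernelProof
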