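/-
S05 project, T6 (K): the iteration lemma.  Pure group theory.

Let `ν : G → Γ` be a map from an additive commutative group to a commutative group, `N : Γ`, and
write `a ≈ b` (`Rel N a b`) if `a = b * N ^ j` or `a = b⁻¹ * N ^ j` for some integer `j`.
If `ν 0 = 1` and the "pair law" `{ν (P + Q), ν (P - Q)} ≈ {ν P * ν Q, ν P / ν Q}` holds, then
`ν (k • P) ≈ ν P ^ k` for all `k`; in particular `p • P = 0` implies `ν P ^ p ∈ N ^ ℤ`.
-/
import Mathlib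

set_option autoImplicit false

namespace Fermat.Agent.S05.NodeIter

section Group

variable {Γ : Type*} [CommGroup Γ]

/-- Equality modulo `N ^ ℤ` and inversion. -/
def Rel (N a b : Γ) : Prop := ∃ j : ℤ, a = b * N ^ j ∨ a = b⁻¹ * N ^ j

lemma Rel.refl (N a : Γ) : Rel N a a := ⟨0, Or.inl (by simp)⟩

lemma Rel.symm {N a b : Γ} (h : Rel N a b) : Rel N b a := by
  obtain ⟨j, h | h⟩ := h
  · exact ⟨-j, Or.inl (by rw [h, zpow_neg, mul_inv_cancel_right])⟩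
  · exact ⟨j, Or.inr (by rw [h, mul_inv, inv_inv, inv_mul_cancel_right])⟩

lemma Rel.trans {N a b c : Γ} (h₁ : Rel N a b) (h₂ : Rel N b c) : Rel N a c := by
  obtain ⟨j, h₁ | h₁⟩ := h₁ <;> obtain ⟨i, h₂ | h₂⟩ := h₂
  · exact ⟨i + j, Or.inl (by rw [h₁, h₂, zpow_add, mul_assoc])⟩
  · exact ⟨i + j, Or.inr (by rw [h₁, h₂, zpow_add, mul_assoc])⟩
  · exact ⟨j - i, Or.inr (by
      rw [h₁, h₂, zpow_sub, mul_inv]; ac_rfl)⟩
  · exact ⟨j - i, Or.inl (by
      rw [h₁, h₂, zpow_sub, mul_inv, inv_inv]; ac_rfl)⟩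

lemma Rel.inv_right {N a b : Γ} (h : Rel N a b) : Rel N a b⁻¹ := by
  obtain ⟨j, h | h⟩ := h
  · exact ⟨j, Or.inr (by rw [h, inv_inv])⟩
  · exact ⟨j, Or.inl h⟩

lemma rel_div_swap (N a b : Γ) : Rel N (b / a) (a / b) :=
  ⟨0, Or.inr (by simp)⟩

lemma rel_div_zpow (N a : Γ) (j : ℤ) : Rel N (N ^ j / a) a :=
  ⟨j, Or.inr (by rw [div_eq_mul_inv, mul_comm])⟩

/-- Replacing `a` by an equivalent `a'` in the pair `{a * b, a / b}` gives an equivalent pair,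
possibly swapped. -/
lemma rel_mul_div {N a a' : Γ} (h : Rel N a a') (b : Γ) :
    (Rel N (a * b) (a' * b) ∧ Rel N (a / b) (a' / b)) ∨
      (Rel N (a * b) (a' / b) ∧ Rel N (a / b) (a' * b)) := by
  obtain ⟨j, h | h⟩ := h
  · left
    exact ⟨⟨j, Or.inl (by rw [h]; ac_rfl)⟩,
      ⟨j, Or.inl (by rw [h, div_eq_mul_inv, div_eq_mul_inv]; ac_rfl)⟩⟩
  · right
    exact ⟨⟨j, Or.inr (by rw [h, inv_div, div_eq_mul_inv]; ac_rfl)⟩,
      ⟨j, Or.inr (by rw [h, mul_inv, div_eq_mul_inv, mul_right_comm])⟩⟩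

variable {G : Type*} [AddCommGroup G]

/-- The pair law in `Rel` form. -/
def PairLaw (N : Γ) (ν : G → Γ) : Prop :=
  ∀ P Q : G, (Rel N (ν (P + Q)) (ν P * ν Q) ∧ Rel N (ν (P - Q)) (ν P / ν Q)) ∨
    (Rel N (ν (P + Q)) (ν P / ν Q) ∧ Rel N (ν (P - Q)) (ν P * ν Q))

/-- **Iteration**: `ν (k • P) ≈ ν P ^ k`. -/
theorem rel_nsmul {N : Γ} {ν : G → Γ} (h0 : ν 0 = 1) (hpair : PairLaw N ν) (P : G) (k : ℕ) :
    Rel N (ν (k • P)) (ν P ^ k) := by
  have key : ∀ k : ℕ, Rel N (ν (k • P)) (ν P ^ k) ∧ Rel N (ν ((k + 1) • P)) (ν P ^ (k + 1)) := by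
    intro k
    induction k with
    | zero =>
      refine ⟨?_, ?_⟩
      · rw [zero_smul, h0, pow_zero]; exact Rel.refl _ _
      · rw [zero_add, one_smul, pow_one]; exact Rel.refl _ _
    | succ k ih =>
      refine ⟨ih.2, ?_⟩
      have e1 : (k + 1) • P + P = (k + 1 + 1) • P := (succ_nsmul P (k + 1)).symm
      have e2 : (k + 1) • P - P = k • P := by rw [succ_nsmul P k]; abel
      have hp := hpair ((k + 1) • P) P
      rw [e1, e2] at hp
      have hs := rel_mul_div ih.2 (ν P)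
      have p1 : ν P ^ (k + 1) * ν P = ν P ^ (k + 1 + 1) := (pow_succ _ _).symm
      have p2 : ν P ^ (k + 1) / ν P = ν P ^ k := by rw [pow_succ, mul_div_cancel_right]
      rw [p1, p2] at hs
      rcases hp with ⟨hA, hB⟩ | ⟨hA, hB⟩ <;> rcases hs with ⟨hC, hD⟩ | ⟨hC, hD⟩
      · exact hA.trans hC
      · -- `ν ((k+2)P) ≈ ν^k` and `ν (kP) ≈ ν^(k+2)`
        have h1 : Rel N (ν P ^ k) (ν P ^ (k + 1 + 1)) := ih.1.symm.trans (hB.trans hD)
        exact (hA.trans hC).trans h1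
      · have h1 : Rel N (ν P ^ k) (ν P ^ (k + 1 + 1)) := ih.1.symm.trans (hB.trans hC)
        exact (hA.trans hD).trans h1
      · exact hA.trans hD
  exact (key k).1

/-- If `p • P = 0` then `ν P ^ p` is an integral power of `N`. -/
theorem exists_zpow_of_nsmul_eq_zero {N : Γ} {ν : G → Γ} (h0 : ν 0 = 1) (hpair : PairLaw N ν)
    {P : G} {p : ℕ} (hP : p • P = 0) : ∃ j : ℤ, ν P ^ p = N ^ j := by
  have h := rel_nsmul h0 hpair P p
  rw [hP, h0] at h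
  obtain ⟨j, h | h⟩ := h
  · refine ⟨-j, ?_⟩
    rw [zpow_neg, eq_inv_iff_mul_eq_one]
    exact h.symm
  · refine ⟨j, ?_⟩
    have : ν P ^ p * 1 = ν P ^ p * ((ν P ^ p)⁻¹ * N ^ j) := by rw [← h]
    rw [mul_one, mul_inv_cancel_left] at this
    exact this

end Group

section GroupWithZero

variable {Γ₀ : Type*} [CommGroupWithZero Γ₀] {G : Type*} [AddCommGroup G]

/-- The relation for a group with zero. -/
def Rel₀ (N a b : Γ₀) : Prop := ∃ j : ℤ, a = b * N ^ j ∨ a = b⁻¹ * N ^ j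

/-- The pair law in `Rel₀` form. -/
def PairLaw₀ (N : Γ₀) (ν : G → Γ₀) : Prop :=
  ∀ P Q : G, (Rel₀ N (ν (P + Q)) (ν P * ν Q) ∧ Rel₀ N (ν (P - Q)) (ν P / ν Q)) ∨
    (Rel₀ N (ν (P + Q)) (ν P / ν Q) ∧ Rel₀ N (ν (P - Q)) (ν P * ν Q))

lemma Rel₀.refl (N a : Γ₀) : Rel₀ N a a := ⟨0, Or.inl (by simp)⟩

lemma rel₀_div_swap (N a b : Γ₀) : Rel₀ N (b / a) (a / b) :=
  ⟨0, Or.inr (by simp)⟩

lemma rel₀_div_self (N t : Γ₀) : Rel₀ N (N / t) t :=
  ⟨1, Or.inr (by rw [zpow_one, div_eq_mul_inv, mul_comm])⟩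

/-- `fold t = max t (N / t)` is equivalent to `t`. -/
lemma rel₀_max {Γ₁ : Type*} [LinearOrderedCommGroupWithZero Γ₁] (N t : Γ₁) :
    Rel₀ N (max t (N / t)) t := by
  rcases max_choice t (N / t) with h | h <;> rw [h]
  · exact Rel₀.refl _ _
  · exact rel₀_div_self _ _

/-- `min (a / b) (b / a)` is equivalent to `a / b`. -/
lemma rel₀_min {Γ₁ : Type*} [LinearOrderedCommGroupWithZero Γ₁] (N a b : Γ₁) :
    Rel₀ N (min (a / b) (b / a)) (a / b) := by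
  rcases min_choice (a / b) (b / a) with h | h <;> rw [h]
  · exact Rel₀.refl _ _
  · exact rel₀_div_swap _ _ _

lemma rel_iff_rel₀ (N a b : Γ₀ˣ) : Rel N a b ↔ Rel₀ (N : Γ₀) (a : Γ₀) (b : Γ₀) := by
  unfold Rel Rel₀
  refine exists_congr fun j => or_congr ?_ ?_
  · rw [Units.ext_iff]; simp
  · rw [Units.ext_iff]; simp

/-- Group-with-zero version: if `p • P = 0` then `ν P ^ p` is an integral power of `N`. -/
theorem exists_zpow_of_nsmul_eq_zero₀ {N : Γ₀} (hN : N ≠ 0) {ν : G → Γ₀} (hν : ∀ P, ν P ≠ 0)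
    (h0 : ν 0 = 1) (hpair : PairLaw₀ N ν) {P : G} {p : ℕ} (hP : p • P = 0) :
    ∃ j : ℤ, ν P ^ p = N ^ j := by
  set N' : Γ₀ˣ := Units.mk0 N hN with hN'
  set ν' : G → Γ₀ˣ := fun P => Units.mk0 (ν P) (hν P) with hν'
  have h0' : ν' 0 = 1 := by
    rw [hν', Units.ext_iff]; simpa using h0
  have hpair' : PairLaw N' ν' := by
    intro P Q
    have := hpair P Q
    simp only [rel_iff_rel₀]
    simpa [hν', hN'] using this
  obtain ⟨j, hj⟩ := exists_zpow_of_nsmul_eq_zero h0' hpair' hP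
  refine ⟨j, ?_⟩
  have := congrArg (Units.val) hj
  simpa [hν', hN'] using this

end GroupWithZero

end Fermat.Agent.S05.NodeIter
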