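import Mathlib

/-!
# S05 / T6a: the pair law at a node, valued-field algebra

Pure algebra in a linearly ordered commutative group with zero `Γ₀` and in a valued field:
no elliptic-curve API is used in this file.
-/

set_option autoImplicit false

namespace Fermat.Agent.S05.NodePair

variable {Γ₀ : Type*} [LinearOrderedCommGroupWithZero Γ₀]

/-- clamp into `[M, 1]` -/
def clamp (M t : Γ₀) : Γ₀ := max (min t 1) M

/-- fold `[M^2, 1]` onto `[M, 1]` -/
def fold (M t : Γ₀) : Γ₀ := max t (M ^ 2 / t)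

theorem clamp_of_one_le {M t : Γ₀} (hM : M ≤ 1) (h : 1 ≤ t) : clamp M t = 1 := by
  rw [clamp, min_eq_right h, max_eq_left hM]

theorem clamp_of_le {M t : Γ₀} (hM : M ≤ 1) (h : t ≤ M) : clamp M t = M := by
  rw [clamp, min_eq_left (h.trans hM), max_eq_right h]

theorem clamp_of_mem {M t : Γ₀} (h1 : M ≤ t) (h2 : t ≤ 1) : clamp M t = t := by
  rw [clamp, min_eq_left h2, max_eq_left h1]

theorem clamp_le_one {M t : Γ₀} (hM : M ≤ 1) : clamp M t ≤ 1 :=
  max_le (min_le_right _ _) hM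

theorem le_clamp {M t : Γ₀} : M ≤ clamp M t := le_max_right _ _

theorem fold_of_le {M t : Γ₀} (hM : M ≠ 0) (h : M ≤ t) : fold M t = t := by
  have ht : 0 < t := lt_of_lt_of_le (zero_lt_iff.mpr hM) h
  rw [fold, max_eq_left]
  rw [div_le_iff₀ ht, sq]
  exact mul_le_mul' h h

theorem fold_of_ge {M t : Γ₀} (ht : t ≠ 0) (h : t ≤ M) : fold M t = M ^ 2 / t := by
  rw [fold, max_eq_right]
  rw [le_div_iff₀ (zero_lt_iff.mpr ht), sq]
  exact mul_le_mul' h h

theorem min_div_div {a b : Γ₀} (ha : a ≠ 0) (hb : b ≠ 0) (h : b ≤ a) :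
    min (a / b) (b / a) = b / a := by
  rw [min_eq_right]
  calc b / a ≤ 1 := (div_le_one₀ (zero_lt_iff.mpr ha)).mpr h
    _ ≤ a / b := (one_le_div₀ (zero_lt_iff.mpr hb)).mpr h

section roots

variable {ρ1 ρ2 σ π : Γ₀}

theorem roots_one_le_aux (hπ : ρ1 * ρ2 = π) (hσ2 : ρ1 ≠ ρ2 → σ = max ρ1 ρ2)
    (h1 : 1 ≤ π) (h2 : σ ≤ π) : 1 ≤ ρ1 := by
  by_contra h
  rw [not_le] at h
  have h3 : 1 < ρ2 := by
    by_contra h3
    rw [not_lt] at h3
    have : ρ1 * ρ2 < 1 := by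
      calc ρ1 * ρ2 ≤ ρ1 * 1 := by gcongr
        _ = ρ1 := mul_one _
        _ < 1 := h
    exact absurd (hπ ▸ h1) (not_le.mpr this)
  have hne : ρ1 ≠ ρ2 := (h.trans h3).ne
  have hσ : σ = ρ2 := by rw [hσ2 hne, max_eq_right (h.trans h3).le]
  have h0 : 0 < ρ2 := lt_trans zero_lt_one h3
  have : π < ρ2 := by
    rw [← hπ]
    calc ρ1 * ρ2 < 1 * ρ2 := mul_lt_mul_of_pos_right h h0
      _ = ρ2 := one_mul _
  exact absurd (hσ ▸ h2) (not_le.mpr this)

theorem roots_one_le (hπ : ρ1 * ρ2 = π) (hσ2 : ρ1 ≠ ρ2 → σ = max ρ1 ρ2)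
    (h1 : 1 ≤ π) (h2 : σ ≤ π) : 1 ≤ ρ1 ∧ 1 ≤ ρ2 :=
  ⟨roots_one_le_aux hπ hσ2 h1 h2,
    roots_one_le_aux (by rwa [mul_comm]) (fun h => by rw [max_comm]; exact hσ2 h.symm) h1 h2⟩

theorem roots_le_aux {t : Γ₀} (hπ : ρ1 * ρ2 = π) (hσ2 : ρ1 ≠ ρ2 → σ = max ρ1 ρ2)
    (h1 : σ ≤ t) (h2 : π ≤ t ^ 2) : ρ1 ≤ t := by
  by_contra h
  rw [not_le] at h
  rcases le_or_gt ρ1 ρ2 with h3 | h3
  · have : t ^ 2 < π := by
      rw [← hπ, sq]
      calc t * t ≤ t * ρ1 := by gcongr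
        _ < ρ1 * ρ1 := mul_lt_mul_of_pos_right h (lt_of_le_of_lt zero_le h)
        _ ≤ ρ1 * ρ2 := by gcongr
    exact absurd h2 (not_le.mpr this)
  · have hσ : σ = ρ1 := by rw [hσ2 h3.ne', max_eq_left h3.le]
    exact absurd (hσ ▸ h1) (not_le.mpr h)

theorem roots_le {t : Γ₀} (hπ : ρ1 * ρ2 = π) (hσ2 : ρ1 ≠ ρ2 → σ = max ρ1 ρ2)
    (h1 : σ ≤ t) (h2 : π ≤ t ^ 2) : ρ1 ≤ t ∧ ρ2 ≤ t :=
  ⟨roots_le_aux hπ hσ2 h1 h2,
    roots_le_aux (by rwa [mul_comm]) (fun h => by rw [max_comm]; exact hσ2 h.symm) h1 h2⟩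

theorem roots_eq (hπ : ρ1 * ρ2 = π) (hσ2 : ρ1 ≠ ρ2 → σ = max ρ1 ρ2)
    (h : σ ^ 2 ≤ π) : ρ1 = ρ2 := by
  by_contra hne
  have hσ := hσ2 hne
  rcases lt_or_gt_of_ne hne with h3 | h3
  · rw [max_eq_right h3.le] at hσ
    have : π < σ ^ 2 := by
      rw [← hπ, hσ, sq]
      exact mul_lt_mul_of_pos_right h3 (lt_of_le_of_lt zero_le h3)
    exact absurd h (not_le.mpr this)
  · rw [max_eq_left h3.le] at hσ
    have : π < σ ^ 2 := by
      rw [← hπ, hσ, sq]
      exact mul_lt_mul_of_pos_left h3 (lt_of_le_of_lt zero_le h3)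
    exact absurd h (not_le.mpr this)

theorem roots_split (hπ : ρ1 * ρ2 = π) (hσ1 : σ ≤ max ρ1 ρ2) (hσ2 : ρ1 ≠ ρ2 → σ = max ρ1 ρ2)
    (h : π < σ ^ 2) : (ρ1 = σ ∧ ρ2 * σ = π) ∨ (ρ2 = σ ∧ ρ1 * σ = π) := by
  have hne : ρ1 ≠ ρ2 := by
    intro heq
    subst heq
    rw [max_self] at hσ1
    have : σ ^ 2 ≤ π := by
      rw [← hπ, sq]
      gcongr
    exact absurd h (not_lt.mpr this)
  have hσ := hσ2 hne
  rcases le_total ρ2 ρ1 with h3 | h3
  · rw [max_eq_left h3] at hσ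
    left
    exact ⟨hσ.symm, by rw [hσ, mul_comm, hπ]⟩
  · rw [max_eq_right h3] at hσ
    right
    exact ⟨hσ.symm, by rw [hσ, hπ]⟩

end roots

/-- The pair law as a statement about two values and two expected values. -/
def PairLaw (M ρ1 ρ2 ν1 ν2 : Γ₀) : Prop :=
  (clamp M ρ1 = fold M (ν1 * ν2) ∧ clamp M ρ2 = min (ν1 / ν2) (ν2 / ν1)) ∨
  (clamp M ρ1 = min (ν1 / ν2) (ν2 / ν1) ∧ clamp M ρ2 = fold M (ν1 * ν2))

section main

variable {V1 V2 M Δ e s σ ρ1 ρ2 : Γ₀}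

theorem pairLaw_of_le (hM0 : M ≠ 0) (hM1 : M < 1) (hΔ0 : Δ ≠ 0)
    (h21 : V2 ≤ V1)
    (hΔ : Δ ≤ V1) (hΔ' : V2 < V1 → Δ = V1)
    (he : e ≤ max (V1 * V2) M) (he' : V1 * V2 ≠ M → e = max (V1 * V2) M)
    (hs : s ≤ max (V1 * max (V1 * V2) M) (V1 * V2))
    (hs' : V1 * max (V1 * V2) M < V1 * V2 → s = V1 * V2)
    (hπ : ρ1 * ρ2 * Δ ^ 2 = e ^ 2) (hσ : σ * Δ ^ 2 = s)
    (hσ1 : σ ≤ max ρ1 ρ2) (hσ2 : ρ1 ≠ ρ2 → σ = max ρ1 ρ2) :
    PairLaw M ρ1 ρ2 (clamp M V1) (clamp M V2) := by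
  have hMpos : 0 < M := zero_lt_iff.mpr hM0
  have hΔpos : 0 < Δ ^ 2 := pow_pos (zero_lt_iff.mpr hΔ0) 2
  have hMsq : M ^ 2 ≤ 1 := Right.pow_le_one_of_le hM1.le
  rcases le_or_gt 1 V2 with h2 | h2
  · -- Case 11
    have h1 : 1 ≤ V1 := h2.trans h21
    have hVV : 1 ≤ V1 * V2 := Right.one_le_mul h1 h2
    have hee : e = V1 * V2 := by
      rw [he' (ne_of_gt (hM1.trans_le hVV)), max_eq_left (hM1.le.trans hVV)]
    have hΔe : Δ ≤ e := by
      rw [hee]; exact hΔ.trans (le_mul_of_one_le_right' h2)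
    have hπ1 : 1 ≤ ρ1 * ρ2 := by
      apply le_of_mul_le_mul_right _ hΔpos
      rw [hπ, one_mul]
      exact pow_le_pow_left₀ zero_le hΔe 2
    have hσπ : σ ≤ ρ1 * ρ2 := by
      apply le_of_mul_le_mul_right _ hΔpos
      rw [hπ, hσ, hee]
      refine hs.trans (max_le ?_ ?_)
      · rw [max_eq_left (hM1.le.trans hVV), sq]
        exact mul_le_mul' (le_mul_of_one_le_right' h2) le_rfl
      · rw [sq]; exact le_mul_of_one_le_right' hVV
    obtain ⟨hr1, hr2⟩ := roots_one_le rfl hσ2 hπ1 hσπ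
    left
    rw [clamp_of_one_le hM1.le hr1, clamp_of_one_le hM1.le hr2, clamp_of_one_le hM1.le h1,
      clamp_of_one_le hM1.le h2, mul_one, div_one, min_self, fold_of_le hM0 hM1.le]
    exact ⟨rfl, rfl⟩
  rcases le_or_gt 1 V1 with h1 | h1
  · -- x1 in E0, x2 not
    have hV1pos : 0 < V1 := lt_of_lt_of_le zero_lt_one h1
    have hΔV : Δ = V1 := hΔ' (h2.trans_le h1)
    have hV1sq : 0 < V1 ^ 2 := pow_pos hV1pos 2
    rw [hΔV] at hπ hσ
    rcases lt_or_ge M V2 with h2M | h2M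
    · -- Case 12
      have hVV : M < V1 * V2 := h2M.trans_le (le_mul_of_one_le_left' h1)
      have hee : e = V1 * V2 := by rw [he' (ne_of_gt hVV), max_eq_left hVV.le]
      have hπ' : ρ1 * ρ2 = V2 ^ 2 := by
        apply mul_right_cancel₀ hV1sq.ne'
        rw [hπ, hee, mul_pow, mul_comm]
      have hσ' : σ ≤ V2 := by
        apply le_of_mul_le_mul_right _ hV1sq
        rw [hσ]
        refine hs.trans (max_le ?_ ?_)
        · rw [max_eq_left hVV.le, sq, mul_comm V2, mul_assoc]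
        · rw [sq, mul_comm V2, mul_assoc]
          exact le_mul_of_one_le_left' h1
      have hρ : ρ1 = ρ2 := roots_eq hπ' hσ2 (pow_le_pow_left₀ zero_le hσ' 2)
      have hρ2 : ρ2 = V2 := by
        rw [hρ, ← sq] at hπ'
        exact (pow_left_inj₀ zero_le zero_le (by norm_num)).mp hπ'
      have hV2pos : 0 < V2 := hMpos.trans h2M
      left
      rw [hρ, hρ2, clamp_of_one_le hM1.le h1, clamp_of_mem h2M.le h2.le, one_mul,
        fold_of_le hM0 h2M.le, div_one, min_eq_right]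
      · exact ⟨rfl, rfl⟩
      · rw [le_div_iff₀ hV2pos]
        exact Left.mul_le_one h2.le h2.le
    · -- Case 13
      have hmax : max (V1 * V2) M ≤ M * V1 := by
        refine max_le ?_ (le_mul_of_one_le_right' h1)
        rw [mul_comm]; exact mul_le_mul' h2M le_rfl
      have hπ' : ρ1 * ρ2 ≤ M ^ 2 := by
        apply le_of_mul_le_mul_right _ hV1sq
        rw [hπ, ← mul_pow]
        exact pow_le_pow_left₀ zero_le (he.trans hmax) 2
      have hσ' : σ ≤ M := by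
        apply le_of_mul_le_mul_right _ hV1sq
        rw [hσ]
        refine hs.trans (max_le ?_ ?_)
        · rw [sq, ← mul_assoc, mul_comm V1]
          exact mul_le_mul' hmax le_rfl
        · calc V1 * V2 ≤ V1 * M := mul_le_mul' le_rfl h2M
            _ = M * V1 := mul_comm _ _
            _ ≤ M * V1 ^ 2 := by
                rw [sq, ← mul_assoc]; exact le_mul_of_one_le_right' h1
      obtain ⟨hr1, hr2⟩ := roots_le rfl hσ2 hσ' hπ'
      left
      rw [clamp_of_le hM1.le hr1, clamp_of_le hM1.le hr2, clamp_of_one_le hM1.le h1,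
        clamp_of_le hM1.le h2M, one_mul, fold_of_le hM0 le_rfl, div_one, min_eq_right]
      · exact ⟨rfl, rfl⟩
      · rw [le_div_iff₀ hMpos]
        exact Left.mul_le_one hM1.le hM1.le
  rcases le_or_gt V1 M with h1M | h1M
  · -- Case 33
    have h2M : V2 ≤ M := h21.trans h1M
    have hVV : V1 * V2 < M := by
      calc V1 * V2 ≤ M * M := mul_le_mul' h1M h2M
        _ < M := mul_lt_of_lt_one_left hMpos hM1
    have hee : e = M := by rw [he' hVV.ne, max_eq_right hVV.le]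
    have hπ1 : 1 ≤ ρ1 * ρ2 := by
      apply le_of_mul_le_mul_right _ hΔpos
      rw [hπ, one_mul, hee]
      exact pow_le_pow_left₀ zero_le (hΔ.trans h1M) 2
    have hσπ : σ ≤ ρ1 * ρ2 := by
      apply le_of_mul_le_mul_right _ hΔpos
      rw [hπ, hσ, hee, sq]
      refine hs.trans (max_le ?_ ?_)
      · rw [max_eq_right hVV.le]; exact mul_le_mul' h1M le_rfl
      · exact mul_le_mul' h1M h2M
    obtain ⟨hr1, hr2⟩ := roots_one_le rfl hσ2 hπ1 hσπ
    left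
    rw [clamp_of_one_le hM1.le hr1, clamp_of_one_le hM1.le hr2, clamp_of_le hM1.le h1M,
      clamp_of_le hM1.le h2M, div_self hM0, min_self, fold_of_ge (mul_ne_zero hM0 hM0) ?_,
      sq, div_self (mul_ne_zero hM0 hM0)]
    · exact ⟨rfl, rfl⟩
    · exact mul_le_of_le_one_left' hM1.le
  have hV1pos : 0 < V1 := hMpos.trans h1M
  have hV1sq : 0 < V1 ^ 2 := pow_pos hV1pos 2
  rcases le_or_gt V2 M with h2M | h2M
  · -- Case 23
    have hΔV : Δ = V1 := hΔ' (h2M.trans_lt h1M)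
    rw [hΔV] at hπ hσ
    have hVV : V1 * V2 < M := by
      calc V1 * V2 ≤ V1 * M := mul_le_mul' le_rfl h2M
        _ < M := mul_lt_of_lt_one_left hMpos h1
    have hee : e = M := by rw [he' hVV.ne, max_eq_right hVV.le]
    rw [hee] at hπ
    have hσ' : σ * V1 ≤ M := by
      apply le_of_mul_le_mul_right _ hV1pos
      rw [mul_assoc, ← sq, hσ]
      refine hs.trans (max_le ?_ ?_)
      · rw [max_eq_right hVV.le, mul_comm]
      · rw [mul_comm M]; exact mul_le_mul' le_rfl h2M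
    have hρ : ρ1 = ρ2 := by
      apply roots_eq rfl hσ2
      apply le_of_mul_le_mul_right _ hV1sq
      rw [hπ, ← mul_pow]
      exact pow_le_pow_left₀ zero_le hσ' 2
    have hρ2 : ρ2 = M / V1 := by
      rw [hρ, ← sq, ← mul_pow] at hπ
      rw [eq_div_iff hV1pos.ne']
      exact (pow_left_inj₀ zero_le zero_le (by norm_num)).mp hπ
    have hmem1 : M ≤ M / V1 := by
      rw [le_div_iff₀ hV1pos]; exact mul_le_of_le_one_right' h1.le
    have hmem2 : M / V1 ≤ 1 := (div_le_one₀ hV1pos).mpr h1M.le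
    left
    rw [hρ, hρ2, clamp_of_mem hmem1 hmem2, clamp_of_mem h1M.le h1.le, clamp_of_le hM1.le h2M,
      min_div_div hV1pos.ne' hM0 h1M.le,
      fold_of_ge (mul_ne_zero hV1pos.ne' hM0) (mul_le_of_le_one_left' h1.le)]
    refine ⟨?_, rfl⟩
    rw [sq, mul_comm V1 M, mul_div_mul_left _ _ hM0]
  · -- Case 22
    have hV2pos : 0 < V2 := hMpos.trans h2M
    have hVVpos : 0 < V1 * V2 := mul_pos hV1pos hV2pos
    have hmaxlt : max (V1 * V2) M < V2 := max_lt (mul_lt_of_lt_one_left hV2pos h1) h2M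
    have hs_eq : s = V1 * V2 := hs' (mul_lt_mul_of_pos_left hmaxlt hV1pos)
    rw [hs_eq] at hσ
    have he_lt : e < V2 := he.trans_lt hmaxlt
    have hlt : ρ1 * ρ2 < σ ^ 2 := by
      apply lt_of_mul_lt_mul_right (a := (Δ ^ 2) ^ 2) _ zero_le
      rw [← mul_pow, hσ, sq (Δ ^ 2), ← mul_assoc, hπ, ← mul_pow]
      apply pow_lt_pow_left₀ _ zero_le (by norm_num)
      calc e * Δ ≤ e * V1 := mul_le_mul' le_rfl hΔ
        _ < V2 * V1 := mul_lt_mul_of_pos_right he_lt hV1pos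
        _ = V1 * V2 := mul_comm _ _
    rw [clamp_of_mem h1M.le h1.le, clamp_of_mem h2M.le h2.le]
    unfold PairLaw
    rw [min_div_div hV1pos.ne' hV2pos.ne' h21]
    -- the root equal to `σ`
    have hB : clamp M σ = V2 / V1 := by
      rcases lt_or_eq_of_le h21 with h | h
      · rw [hΔ' h] at hσ
        have : σ = V2 / V1 := by
          rw [eq_div_iff hV1pos.ne']
          apply mul_right_cancel₀ hV1pos.ne'
          rw [mul_assoc, ← sq, hσ, mul_comm]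
        rw [this, clamp_of_mem _ ((div_le_one₀ hV1pos).mpr h21)]
        rw [le_div_iff₀ hV1pos]
        exact (mul_le_of_le_one_right' h1.le).trans h2M.le
      · rw [h, div_self hV1pos.ne']
        apply clamp_of_one_le hM1.le
        apply le_of_mul_le_mul_right _ hΔpos
        rw [hσ, one_mul, h, sq]
        exact mul_le_mul' hΔ hΔ
    -- the other root
    have hA : ∀ ρ' : Γ₀, ρ' * σ = ρ1 * ρ2 → clamp M ρ' = fold M (V1 * V2) := by
      intro ρ' hρ'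
      have hρ'' : ρ' * (V1 * V2) = e ^ 2 := by
        rw [← hσ, ← mul_assoc, hρ', hπ]
      rcases lt_trichotomy (V1 * V2) M with h | h | h
      · have hee : e = M := by rw [he' h.ne, max_eq_right h.le]
        have : ρ' = M ^ 2 / (V1 * V2) := by
          rw [eq_div_iff hVVpos.ne', hρ'', hee]
        rw [this, fold_of_ge hVVpos.ne' h.le]
        apply clamp_of_mem
        · rw [le_div_iff₀ hVVpos, sq]; exact mul_le_mul' le_rfl h.le
        · rw [div_le_one₀ hVVpos, sq]; exact mul_le_mul' h1M.le h2M.le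
      · have hee : e ≤ M := by rw [← max_eq_right h.le]; exact he
        rw [h, fold_of_le hM0 le_rfl]
        apply clamp_of_le hM1.le
        apply le_of_mul_le_mul_right _ hMpos
        rw [← h, hρ'', h, ← sq]
        exact pow_le_pow_left₀ zero_le hee 2
      · have hee : e = V1 * V2 := by rw [he' h.ne', max_eq_left h.le]
        have : ρ' = V1 * V2 := by
          apply mul_right_cancel₀ hVVpos.ne'
          rw [hρ'', hee, sq]
        rw [this, fold_of_le hM0 h.le]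
        exact clamp_of_mem h.le (Left.mul_le_one h1.le h2.le)
    rcases roots_split rfl hσ1 hσ2 hlt with ⟨hr, hr'⟩ | ⟨hr, hr'⟩
    · right
      rw [hr]
      exact ⟨hB, hA ρ2 hr'⟩
    · left
      rw [hr]
      exact ⟨hA ρ1 hr', hB⟩


/-- The "other root" computation: if `ρ' * (V1 * V2) = e ^ 2` with `e = v (x1 x2 - b)`, then
`clamp ρ' = fold (V1 * V2)`. -/
theorem clamp_eq_fold {ρ' : Γ₀} (hM0 : M ≠ 0) (hM1 : M < 1) (h1M : M ≤ V1) (h1 : V1 ≤ 1)
    (h2M : M ≤ V2) (h2 : V2 ≤ 1) (he : e ≤ max (V1 * V2) M)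
    (he' : V1 * V2 ≠ M → e = max (V1 * V2) M) (hρ'' : ρ' * (V1 * V2) = e ^ 2) :
    clamp M ρ' = fold M (V1 * V2) := by
  have hMpos : 0 < M := zero_lt_iff.mpr hM0
  have hVVpos : 0 < V1 * V2 := mul_pos (hMpos.trans_le h1M) (hMpos.trans_le h2M)
  rcases lt_trichotomy (V1 * V2) M with h | h | h
  · have hee : e = M := by rw [he' h.ne, max_eq_right h.le]
    have : ρ' = M ^ 2 / (V1 * V2) := by
      rw [eq_div_iff hVVpos.ne', hρ'', hee]
    rw [this, fold_of_ge hVVpos.ne' h.le]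
    apply clamp_of_mem
    · rw [le_div_iff₀ hVVpos, sq]; exact mul_le_mul' le_rfl h.le
    · rw [div_le_one₀ hVVpos, sq]; exact mul_le_mul' h1M h2M
  · have hee : e ≤ M := by rw [← max_eq_right h.le]; exact he
    rw [h, fold_of_le hM0 le_rfl]
    apply clamp_of_le hM1.le
    apply le_of_mul_le_mul_right _ hMpos
    rw [← h, hρ'', h, ← sq]
    exact pow_le_pow_left₀ zero_le hee 2
  · have hee : e = V1 * V2 := by rw [he' h.ne', max_eq_left h.le]
    have : ρ' = V1 * V2 := by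
      apply mul_right_cancel₀ hVVpos.ne'
      rw [hρ'', hee, sq]
    rw [this, fold_of_le hM0 h.le]
    exact clamp_of_mem h.le (Left.mul_le_one h1 h2)

/-- The doubling law in `Γ₀`. -/
theorem double_aux {V F ρ : Γ₀} (hM0 : M ≠ 0) (hM1 : M < 1) (hY0 : V * F ≠ 0)
    (hF : F ≤ max (max (V ^ 2) V) M) (hF' : max (V ^ 2) M < V → F = V)
    (he : e ≤ max (V ^ 2) M) (he' : V ^ 2 ≠ M → e = max (V ^ 2) M)
    (hρ : ρ * (V * F) = e ^ 2) : clamp M ρ = fold M (clamp M V * clamp M V) := by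
  have hMpos : 0 < M := zero_lt_iff.mpr hM0
  have hYpos : 0 < V * F := zero_lt_iff.mpr hY0
  rcases le_or_gt 1 V with h1 | h1
  · -- `x` integral with nonsingular reduction or non-integral
    have hVV : 1 ≤ V ^ 2 := one_le_pow₀ h1
    have hee : e = V ^ 2 := by
      rw [he' (ne_of_gt (hM1.trans_le hVV)), max_eq_left (hM1.le.trans hVV)]
    have hFle : F ≤ V ^ 2 := by
      refine hF.trans (max_le (max_le le_rfl ?_) (hM1.le.trans hVV))
      rw [sq]; exact le_mul_of_one_le_left' h1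
    have hρ1 : 1 ≤ ρ := by
      by_contra hlt
      rw [not_le] at hlt
      have h3 : ρ * (V * F) < V * F := mul_lt_of_lt_one_left hYpos hlt
      have h4 : V * F ≤ e ^ 2 := by
        rw [hee, sq (V ^ 2)]
        exact mul_le_mul' (by rw [sq]; exact le_mul_of_one_le_left' h1) hFle
      exact absurd (hρ ▸ h3) (not_lt.mpr h4)
    rw [clamp_of_one_le hM1.le hρ1, clamp_of_one_le hM1.le h1, mul_one,
      fold_of_le hM0 hM1.le]
  rcases le_or_gt V M with hVM | hVM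
  · -- deep in the node
    have hVV : V ^ 2 < M := by
      rw [sq]
      calc V * V ≤ M * M := mul_le_mul' hVM hVM
        _ < M := mul_lt_of_lt_one_left hMpos hM1
    have hee : e = M := by rw [he' hVV.ne, max_eq_right hVV.le]
    have hFle : F ≤ M := hF.trans (max_le (max_le hVV.le hVM) le_rfl)
    have hρ1 : 1 ≤ ρ := by
      by_contra hlt
      rw [not_le] at hlt
      have h3 : ρ * (V * F) < V * F := mul_lt_of_lt_one_left hYpos hlt
      have h4 : V * F ≤ e ^ 2 := by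
        rw [hee, sq]
        exact mul_le_mul' hVM hFle
      exact absurd (hρ ▸ h3) (not_lt.mpr h4)
    rw [clamp_of_one_le hM1.le hρ1, clamp_of_le hM1.le hVM,
      fold_of_ge (mul_ne_zero hM0 hM0) (mul_le_of_le_one_left' hM1.le), sq,
      div_self (mul_ne_zero hM0 hM0)]
  · -- the interesting range
    have hVpos : 0 < V := hMpos.trans hVM
    have hFV : F = V := by
      apply hF'
      refine max_lt ?_ hVM
      rw [sq]; exact mul_lt_of_lt_one_left hVpos h1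
    rw [hFV] at hρ
    rw [sq] at he he'
    rw [clamp_of_mem hVM.le h1.le]
    exact clamp_eq_fold hM0 hM1 hVM.le h1.le hVM.le h1.le he he' hρ

theorem PairLaw.symm_nu {M ρ1 ρ2 ν1 ν2 : Γ₀} (h : PairLaw M ρ1 ρ2 ν2 ν1) :
    PairLaw M ρ1 ρ2 ν1 ν2 := by
  unfold PairLaw at h ⊢
  rwa [mul_comm ν1 ν2, min_comm (ν1 / ν2)]

theorem PairLaw.symm_rho {M ρ1 ρ2 ν1 ν2 : Γ₀} (h : PairLaw M ρ2 ρ1 ν1 ν2) :
    PairLaw M ρ1 ρ2 ν1 ν2 := by
  unfold PairLaw at h ⊢
  rcases h with ⟨h1, h2⟩ | ⟨h1, h2⟩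
  · exact Or.inr ⟨h2, h1⟩
  · exact Or.inl ⟨h2, h1⟩

/-- Symmetric form of the pair law in `Γ₀`. -/
theorem pairLaw_aux (hM0 : M ≠ 0) (hM1 : M < 1) (hΔ0 : Δ ≠ 0)
    (hΔ : Δ ≤ max V1 V2) (hΔ' : V1 ≠ V2 → Δ = max V1 V2)
    (he : e ≤ max (V1 * V2) M) (he' : V1 * V2 ≠ M → e = max (V1 * V2) M)
    (hs : s ≤ max (max V1 V2 * max (V1 * V2) M) (V1 * V2))
    (hs' : max V1 V2 * max (V1 * V2) M < V1 * V2 → s = V1 * V2)
    (hπ : ρ1 * ρ2 * Δ ^ 2 = e ^ 2) (hσ : σ * Δ ^ 2 = s)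
    (hσ1 : σ ≤ max ρ1 ρ2) (hσ2 : ρ1 ≠ ρ2 → σ = max ρ1 ρ2) :
    PairLaw M ρ1 ρ2 (clamp M V1) (clamp M V2) := by
  rcases le_total V2 V1 with h | h
  · rw [max_eq_left h] at hΔ hΔ' hs hs'
    exact pairLaw_of_le hM0 hM1 hΔ0 h hΔ (fun h' => hΔ' h'.ne') he he' hs hs' hπ hσ hσ1 hσ2
  · rw [max_eq_right h] at hΔ hΔ' hs hs'
    rw [mul_comm V1 V2] at he he' hs hs'
    exact (pairLaw_of_le hM0 hM1 hΔ0 h hΔ (fun h' => hΔ' h'.ne) he he' hs hs' hπ hσ
      hσ1 hσ2).symm_nu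

end main


section field

variable {K : Type*} [Field K] {a b : K}

theorem addsub_sum {x1 x2 y1 y2 : K} (h1 : y1 ^ 2 = x1 ^ 3 + a * x1 ^ 2 + b * x1)
    (h2 : y2 ^ 2 = x2 ^ 3 + a * x2 ^ 2 + b * x2) (hx : x1 ≠ x2) :
    (((y1 - y2) / (x1 - x2)) ^ 2 - a - x1 - x2 + (((y1 + y2) / (x1 - x2)) ^ 2 - a - x1 - x2)) *
      (x1 - x2) ^ 2 = 2 * ((x1 + x2) * (x1 * x2 + b) + 2 * a * x1 * x2) := by
  have hd : x1 - x2 ≠ 0 := sub_ne_zero.mpr hx
  field_simp
  linear_combination 2 * h1 + 2 * h2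

theorem addsub_prod {x1 x2 y1 y2 : K} (h1 : y1 ^ 2 = x1 ^ 3 + a * x1 ^ 2 + b * x1)
    (h2 : y2 ^ 2 = x2 ^ 3 + a * x2 ^ 2 + b * x2) (hx : x1 ≠ x2) :
    (((y1 - y2) / (x1 - x2)) ^ 2 - a - x1 - x2) * (((y1 + y2) / (x1 - x2)) ^ 2 - a - x1 - x2) *
      (x1 - x2) ^ 2 = (x1 * x2 - b) ^ 2 := by
  have hd : x1 - x2 ≠ 0 := sub_ne_zero.mpr hx
  field_simp
  linear_combination (y1 ^ 2 + (x1 ^ 3 + a * x1 ^ 2 + b * x1) - 2 * y2 ^ 2
      - 2 * ((a + x1 + x2) * (x1 - x2) ^ 2)) * h1 +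
    (y2 ^ 2 + (x2 ^ 3 + a * x2 ^ 2 + b * x2) - 2 * (x1 ^ 3 + a * x1 ^ 2 + b * x1)
      - 2 * ((a + x1 + x2) * (x1 - x2) ^ 2)) * h2

theorem double_id {x y : K} (h : y ^ 2 = x ^ 3 + a * x ^ 2 + b * x) (hy : y ≠ 0)
    (h2 : (2 : K) ≠ 0) :
    (((3 * x ^ 2 + 2 * a * x + b) / (2 * y)) ^ 2 - a - x - x) * (4 * y ^ 2) = (x ^ 2 - b) ^ 2 := by
  field_simp
  linear_combination (-16 * (a + 2 * x)) * h

variable (v : Valuation K Γ₀)

/-- The pair law for the `x`-coordinates of `P + Q` and `P - Q` (case `x1 ≠ x2`) on the curve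
`y ^ 2 = x ^ 3 + a x ^ 2 + b x` with `v 2 = v a = 1` and `0 < v b < 1`. -/
theorem pairLaw_field (hv2 : v 2 = 1) (hva : v a = 1) (hb0 : b ≠ 0) (hb1 : v b < 1)
    {x1 x2 y1 y2 : K} (h1 : y1 ^ 2 = x1 ^ 3 + a * x1 ^ 2 + b * x1)
    (h2 : y2 ^ 2 = x2 ^ 3 + a * x2 ^ 2 + b * x2) (hx : x1 ≠ x2) :
    PairLaw (v b) (v (((y1 - y2) / (x1 - x2)) ^ 2 - a - x1 - x2))
      (v (((y1 + y2) / (x1 - x2)) ^ 2 - a - x1 - x2))
      (clamp (v b) (v x1)) (clamp (v b) (v x2)) := by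
  have hsum := addsub_sum h1 h2 hx
  have hprod := addsub_prod h1 h2 hx
  set rp := ((y1 - y2) / (x1 - x2)) ^ 2 - a - x1 - x2 with hrp
  set rm := ((y1 + y2) / (x1 - x2)) ^ 2 - a - x1 - x2 with hrm
  have hT2 : v (2 * a * x1 * x2) = v x1 * v x2 := by
    rw [map_mul, map_mul, map_mul, hv2, hva, one_mul, one_mul]
  have hT1 : v ((x1 + x2) * (x1 * x2 + b)) ≤ max (v x1) (v x2) * max (v x1 * v x2) (v b) := by
    rw [map_mul]
    refine mul_le_mul' (v.map_add x1 x2) ?_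
    have := v.map_add (x1 * x2) b
    rwa [map_mul] at this
  refine pairLaw_aux (V1 := v x1) (V2 := v x2) (Δ := v (x1 - x2)) (e := v (x1 * x2 - b))
    (s := v (2 * ((x1 + x2) * (x1 * x2 + b) + 2 * a * x1 * x2))) (σ := v (rp + rm))
    ((v.ne_zero_iff).mpr hb0) hb1 ((v.ne_zero_iff).mpr (sub_ne_zero.mpr hx))
    (v.map_sub x1 x2) ?_ ?_ ?_ ?_ ?_ ?_ ?_ (v.map_add rp rm)
    (fun h => v.map_add_of_distinct_val h)
  · intro h
    rw [sub_eq_add_neg]
    have := v.map_add_of_distinct_val (x := x1) (y := -x2) (by rwa [v.map_neg])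
    rwa [v.map_neg] at this
  · have := v.map_sub (x1 * x2) b
    rwa [map_mul] at this
  · intro h
    rw [sub_eq_add_neg]
    have := v.map_add_of_distinct_val (x := x1 * x2) (y := -b) (by rwa [v.map_neg, map_mul])
    rwa [v.map_neg, map_mul] at this
  · rw [map_mul, hv2, one_mul]
    refine (v.map_add _ _).trans (max_le_max hT1 hT2.le)
  · intro h
    rw [map_mul, hv2, one_mul, ← hT2]
    apply v.map_add_eq_of_lt_right
    rw [hT2]
    exact hT1.trans_lt h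
  · rw [← map_pow, ← map_mul, ← map_pow, ← map_mul, hprod]
  · rw [← map_pow, ← map_mul, hsum]

/-- The doubling law for the curve `y ^ 2 = x ^ 3 + a x ^ 2 + b x`. -/
theorem double_field (hv2 : v 2 = 1) (hva : v a = 1) (hb0 : b ≠ 0) (hb1 : v b < 1)
    {x y : K} (h : y ^ 2 = x ^ 3 + a * x ^ 2 + b * x) (hy : y ≠ 0) :
    clamp (v b) (v (((3 * x ^ 2 + 2 * a * x + b) / (2 * y)) ^ 2 - a - x - x)) =
      fold (v b) (clamp (v b) (v x) * clamp (v b) (v x)) := by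
  have h2 : (2 : K) ≠ 0 := by
    intro h0
    rw [h0, map_zero] at hv2
    exact zero_ne_one hv2
  have hid := double_id h hy h2
  have hv4 : v (4 * y ^ 2) = v x * v (x ^ 2 + a * x + b) := by
    rw [h, show (4 : K) = 2 * 2 by norm_num, map_mul, map_mul, hv2, one_mul, one_mul, ← map_mul]
    congr 1
    ring
  have hax : v (a * x) = v x := by rw [map_mul, hva, one_mul]
  refine double_aux (V := v x) (F := v (x ^ 2 + a * x + b)) (e := v (x ^ 2 - b))
    ((v.ne_zero_iff).mpr hb0) hb1 ?_ ?_ ?_ ?_ ?_ ?_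
  · rw [← hv4]
    have h4 : (4 : K) ≠ 0 := by
      rw [show (4 : K) = 2 * 2 by norm_num]
      exact mul_ne_zero h2 h2
    exact (v.ne_zero_iff).mpr (mul_ne_zero h4 (pow_ne_zero 2 hy))
  · refine (v.map_add _ _).trans (max_le_max ?_ le_rfl)
    refine (v.map_add _ _).trans (max_le_max ?_ hax.le)
    rw [map_pow]
  · intro hlt
    have h3 : v (x ^ 2 + a * x) = v x := by
      rw [← hax]
      apply v.map_add_eq_of_lt_right
      rw [hax, map_pow]
      exact (le_max_left _ _).trans_lt hlt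
    rw [← h3]
    apply v.map_add_eq_of_lt_left
    rw [h3]
    exact (le_max_right _ _).trans_lt hlt
  · have := v.map_sub (x ^ 2) b
    rwa [map_pow] at this
  · intro hne
    rw [sub_eq_add_neg]
    have := v.map_add_of_distinct_val (x := x ^ 2) (y := -b) (by rwa [v.map_neg, map_pow])
    rwa [v.map_neg, map_pow] at this
  · rw [← hv4, ← map_mul, hid, map_pow]

end field

end Fermat.Agent.S05.NodePair
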