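import Mathlib
import Fermat.Agent.S05.NodePair
import Fermat.Agent.S05.NodeIter

/-!
# S05 / T6b: the pair law at a node for points of `y ^ 2 = x ^ 3 + a x ^ 2 + b x`

`W` is a Weierstrass curve over a valued field `K` with `a₁ = a₃ = a₆ = 0`, `v 2 = v a₂ = 1`
and `0 < v a₄ < 1`.  We define `nu : W.Point → Γ₀` (the clamped valuation of the `x`-coordinate)
and prove the pair law for all pairs of points.
-/

set_option autoImplicit false
set_option linter.unusedSectionVars false

namespace Fermat.Agent.S05.NodePt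

open WeierstrassCurve WeierstrassCurve.Affine Fermat.Agent.S05.NodePair

variable {K : Type*} [Field K] [DecidableEq K] {Γ₀ : Type*} [LinearOrderedCommGroupWithZero Γ₀]

/-- The hypotheses on the curve: `y ^ 2 = x ^ 3 + a₂ x ^ 2 + a₄ x`, with `2`, `a₂` units and
`a₄` a nonzero non-unit. -/
structure NodeHyp (v : Valuation K Γ₀) (W : Affine K) : Prop where
  a1 : W.a₁ = 0
  a3 : W.a₃ = 0
  a6 : W.a₆ = 0
  v2 : v 2 = 1
  va : v W.a₂ = 1
  b0 : W.a₄ ≠ 0
  b1 : v W.a₄ < 1

variable (v : Valuation K Γ₀) (W : Affine K)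

/-- The clamped valuation of the `x`-coordinate; `1` at the point at infinity. -/
def nu : W.Point → Γ₀
  | .zero => 1
  | .some x _ _ => clamp (v W.a₄) (v x)

@[simp] theorem nu_zero : nu v W 0 = 1 := rfl

@[simp] theorem nu_some {x y : K} (h : W.Nonsingular x y) :
    nu v W (.some x y h) = clamp (v W.a₄) (v x) := rfl

theorem nu_neg (P : W.Point) : nu v W (-P) = nu v W P := by
  cases P with
  | zero => rfl
  | some x y h => rfl

variable {v W}

theorem point_cases (P : W.Point) : P = 0 ∨ ∃ x y h, P = Point.some x y h := by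
  cases P with
  | zero => exact Or.inl rfl
  | some x y h => exact Or.inr ⟨x, y, h, rfl⟩

namespace NodeHyp

variable (H : NodeHyp v W)
include H

theorem two_ne_zero : (2 : K) ≠ 0 := by
  intro h0
  have := H.v2
  rw [h0, map_zero] at this
  exact zero_ne_one this

theorem M_ne_zero : v W.a₄ ≠ 0 := (v.ne_zero_iff).mpr H.b0

theorem eqn {x y : K} (h : W.Nonsingular x y) : y ^ 2 = x ^ 3 + W.a₂ * x ^ 2 + W.a₄ * x := by
  have := (W.equation_iff x y).mp h.left
  rw [H.a1, H.a3, H.a6] at this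
  linear_combination this

theorem negY_eq (x y : K) : W.negY x y = -y := by
  rw [negY, H.a1, H.a3]; ring

theorem nu_le_one (P : W.Point) : nu v W P ≤ 1 := by
  cases P with
  | zero => exact le_rfl
  | some x y h => exact clamp_le_one H.b1.le

theorem le_nu (P : W.Point) : v W.a₄ ≤ nu v W P := by
  cases P with
  | zero => exact H.b1.le
  | some x y h => exact le_clamp

theorem nu_ne_zero (P : W.Point) : nu v W P ≠ 0 :=
  (lt_of_lt_of_le (zero_lt_iff.mpr H.M_ne_zero) (H.le_nu P)).ne'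

theorem nu_add_of_X_ne {x1 x2 y1 y2 : K} (h1 : W.Nonsingular x1 y1) (h2 : W.Nonsingular x2 y2)
    (hx : x1 ≠ x2) :
    nu v W (Point.some x1 y1 h1 + Point.some x2 y2 h2) =
      clamp (v W.a₄) (v (((y1 - y2) / (x1 - x2)) ^ 2 - W.a₂ - x1 - x2)) := by
  rw [Point.add_of_X_ne hx, nu_some, slope_of_X_ne hx, addX, H.a1, zero_mul, add_zero]

theorem nu_sub_of_X_ne {x1 x2 y1 y2 : K} (h1 : W.Nonsingular x1 y1) (h2 : W.Nonsingular x2 y2)
    (hx : x1 ≠ x2) :
    nu v W (Point.some x1 y1 h1 - Point.some x2 y2 h2) =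
      clamp (v W.a₄) (v (((y1 + y2) / (x1 - x2)) ^ 2 - W.a₂ - x1 - x2)) := by
  rw [sub_eq_add_neg, Point.neg_some, Point.add_of_X_ne hx, nu_some, slope_of_X_ne hx, addX,
    H.a1, zero_mul, add_zero, H.negY_eq, sub_neg_eq_add]

theorem nu_add_self_of_Y_ne {x y : K} (h : W.Nonsingular x y) (hy : y ≠ 0) :
    nu v W (Point.some x y h + Point.some x y h) =
      clamp (v W.a₄) (v (((3 * x ^ 2 + 2 * W.a₂ * x + W.a₄) / (2 * y)) ^ 2 - W.a₂ - x - x)) := by
  have hy' : y ≠ W.negY x y := by
    rw [H.negY_eq]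
    intro h0
    have : 2 * y = 0 := by linear_combination h0
    rcases mul_eq_zero.mp this with h2 | h2
    · exact H.two_ne_zero h2
    · exact hy h2
  rw [Point.add_self_of_Y_ne hy', nu_some, slope_of_Y_ne rfl hy', addX, H.a1, H.negY_eq]
  congr 2
  ring

/-- At a `2`-torsion point `(x, 0)` the value of `nu` is `1` or `M`. -/
theorem nu_of_Y_eq_zero {x : K} (h : W.Nonsingular x 0) :
    clamp (v W.a₄) (v x) = 1 ∨ clamp (v W.a₄) (v x) = v W.a₄ := by
  rcases le_or_gt 1 (v x) with h1 | h1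
  · exact Or.inl (clamp_of_one_le H.b1.le h1)
  · right
    have e := H.eqn h
    have e' : x * (x * (x + W.a₂) + W.a₄) = 0 := by linear_combination -e
    rcases mul_eq_zero.mp e' with hx | hx
    · rw [hx, map_zero]
      exact clamp_of_le H.b1.le zero_le
    · have e2 : x * (x + W.a₂) = -W.a₄ := by linear_combination hx
      have e3 : v x * v (x + W.a₂) = v W.a₄ := by
        rw [← map_mul, e2, Valuation.map_neg]
      have e4 : v (x + W.a₂) = 1 := by
        rw [← H.va]
        apply v.map_add_eq_of_lt_right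
        rw [H.va]; exact h1
      rw [e4, mul_one] at e3
      exact clamp_of_le H.b1.le e3.le

theorem fold_one : fold (v W.a₄) 1 = 1 := fold_of_le H.M_ne_zero H.b1.le

theorem fold_M_mul_M : fold (v W.a₄) (v W.a₄ * v W.a₄) = 1 := by
  have h0 := H.M_ne_zero
  rw [fold_of_ge (mul_ne_zero h0 h0) (mul_le_of_le_one_left' H.b1.le), sq,
    div_self (mul_ne_zero h0 h0)]

/-- The doubling law for all points. -/
theorem nu_add_self (P : W.Point) :
    nu v W (P + P) = fold (v W.a₄) (nu v W P * nu v W P) := by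
  rcases point_cases P with rfl | ⟨x, y, h, rfl⟩
  · rw [add_zero, nu_zero, mul_one, H.fold_one]
  · by_cases hy : y = 0
    · subst hy
      have h0 : (0 : K) = W.negY x 0 := by rw [H.negY_eq, neg_zero]
      rw [Point.add_self_of_Y_eq h0, nu_zero, nu_some]
      rcases H.nu_of_Y_eq_zero h with e | e
      · rw [e, mul_one, H.fold_one]
      · rw [e, H.fold_M_mul_M]
    · rw [H.nu_add_self_of_Y_ne h hy, nu_some]
      exact double_field v H.v2 H.va H.b0 H.b1 (H.eqn h) hy

end NodeHyp

/-- The pair law for two points. -/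
def PtPairLaw (v : Valuation K Γ₀) (W : Affine K) (P Q : W.Point) : Prop :=
  (nu v W (P + Q) = fold (v W.a₄) (nu v W P * nu v W Q) ∧
      nu v W (P - Q) = min (nu v W P / nu v W Q) (nu v W Q / nu v W P)) ∨
    (nu v W (P + Q) = min (nu v W P / nu v W Q) (nu v W Q / nu v W P) ∧
      nu v W (P - Q) = fold (v W.a₄) (nu v W P * nu v W Q))

namespace NodeHyp

variable (H : NodeHyp v W)
include H

theorem min_div_self (P : W.Point) : min (nu v W P / nu v W P) (nu v W P / nu v W P) = 1 := by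
  rw [min_self, div_self (H.nu_ne_zero P)]

/-- **The pair law** for all pairs of points. -/
theorem pairLaw (P Q : W.Point) : PtPairLaw v W P Q := by
  have hM0 := H.M_ne_zero
  rcases point_cases P with rfl | ⟨x1, y1, h1, rfl⟩
  · left
    rw [zero_add, zero_sub, nu_neg, nu_zero, one_mul, fold_of_le hM0 (H.le_nu Q), div_one,
      min_eq_right]
    · exact ⟨rfl, rfl⟩
    · rw [le_div_iff₀ (zero_lt_iff.mpr (H.nu_ne_zero Q))]
      exact Left.mul_le_one (H.nu_le_one Q) (H.nu_le_one Q)
  · rcases point_cases Q with rfl | ⟨x2, y2, h2, rfl⟩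
    · left
      rw [add_zero, sub_zero, nu_zero, mul_one, fold_of_le hM0 (H.le_nu _), div_one,
        min_eq_left]
      · exact ⟨rfl, rfl⟩
      · rw [le_div_iff₀ (zero_lt_iff.mpr (H.nu_ne_zero _))]
        exact Left.mul_le_one (H.nu_le_one _) (H.nu_le_one _)
    · by_cases hx : x1 = x2
      · subst hx
        rcases Y_eq_of_X_eq h1.left h2.left rfl with hy | hy
        · subst hy
          left
          rw [sub_self, nu_zero, H.nu_add_self, H.min_div_self]
          exact ⟨rfl, rfl⟩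
        · have hQ : Point.some x1 y2 h2 = -Point.some x1 y1 h1 := by
            rw [Point.neg_some]
            have : y2 = W.negY x1 y1 := by
              rw [hy, negY_negY]
            subst this
            rfl
          right
          rw [hQ, add_neg_cancel, sub_neg_eq_add, nu_neg, nu_zero, H.nu_add_self,
            H.min_div_self]
          exact ⟨rfl, rfl⟩
      · have := pairLaw_field v H.v2 H.va H.b0 H.b1 (H.eqn h1) (H.eqn h2) hx
        unfold PairLaw at this
        unfold PtPairLaw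
        rw [H.nu_add_of_X_ne h1 h2 hx, H.nu_sub_of_X_ne h1 h2 hx]
        exact this

/-- The pair law in the `Rel₀` form used by the iteration lemma. -/
theorem pairLaw₀ : NodeIter.PairLaw₀ (v W.a₄ ^ 2) (nu v W) := by
  intro P Q
  rcases H.pairLaw P Q with ⟨h1, h2⟩ | ⟨h1, h2⟩
  · left
    rw [h1, h2]
    exact ⟨NodeIter.rel₀_max _ _, NodeIter.rel₀_min _ _ _⟩
  · right
    rw [h1, h2]
    exact ⟨NodeIter.rel₀_min _ _ _, NodeIter.rel₀_max _ _⟩

/-- Torsion points: `p • P = 0` forces `nu P ^ p ∈ (M ^ 2) ^ ℤ`. -/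
theorem nu_pow_of_nsmul_eq_zero {P : W.Point} {p : ℕ} (hP : p • P = 0) :
    ∃ j : ℤ, nu v W P ^ p = (v W.a₄ ^ 2) ^ j :=
  NodeIter.exists_zpow_of_nsmul_eq_zero₀ (pow_ne_zero 2 H.M_ne_zero) H.nu_ne_zero (nu_zero v W)
    H.pairLaw₀ hP

/-- If `nu P = nu Q` then one of `P ± Q` has `nu = 1`. -/
theorem nu_add_or_sub_eq_one {P Q : W.Point} (h : nu v W P = nu v W Q) :
    nu v W (P + Q) = 1 ∨ nu v W (P - Q) = 1 := by
  have hB : min (nu v W P / nu v W Q) (nu v W Q / nu v W P) = 1 := by
    rw [h, H.min_div_self]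
  rcases H.pairLaw P Q with ⟨-, h2⟩ | ⟨h1, -⟩
  · exact Or.inr (h2.trans hB)
  · exact Or.inl (h1.trans hB)

/-- If `nu P = nu Q = M` then both `P ± Q` have `nu = 1`. -/
theorem nu_add_eq_one_of_eq_M {P Q : W.Point} (hP : nu v W P = v W.a₄) (hQ : nu v W Q = v W.a₄) :
    nu v W (P + Q) = 1 ∧ nu v W (P - Q) = 1 := by
  have hA : fold (v W.a₄) (nu v W P * nu v W Q) = 1 := by rw [hP, hQ, H.fold_M_mul_M]
  have hB : min (nu v W P / nu v W Q) (nu v W Q / nu v W P) = 1 := by
    rw [hP, hQ, min_self, div_self H.M_ne_zero]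
  rcases H.pairLaw P Q with ⟨h1, h2⟩ | ⟨h1, h2⟩
  · exact ⟨h1.trans hA, h2.trans hB⟩
  · exact ⟨h1.trans hB, h2.trans hA⟩

theorem clamp_eq_one_iff (t : Γ₀) : clamp (v W.a₄) t = 1 ↔ 1 ≤ t := by
  constructor
  · intro h
    by_contra hlt
    rw [not_le] at hlt
    have : clamp (v W.a₄) t < 1 := by
      rw [clamp, min_eq_left hlt.le]
      exact max_lt hlt H.b1
    exact this.ne h
  · exact clamp_of_one_le H.b1.le

/-- `nu P = 1` iff `P` is the point at infinity or has `1 ≤ v x`. -/
theorem nu_eq_one_iff (P : W.Point) :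
    nu v W P = 1 ↔ P = 0 ∨ ∃ x y h, P = Point.some x y h ∧ 1 ≤ v x := by
  rcases point_cases P with rfl | ⟨x, y, h, rfl⟩
  · simp
  · rw [nu_some, H.clamp_eq_one_iff]
    constructor
    · intro h1
      exact Or.inr ⟨x, y, h, rfl, h1⟩
    · rintro (h0 | ⟨x', y', h', e, h1⟩)
      · exact absurd h0 (by simp)
      · rw [Point.some.injEq] at e
        rw [e.1]; exact h1

end NodeHyp

end Fermat.Agent.S05.NodePt
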