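import Mathlib
import Fermat.Agent.S05.Node
import Fermat.Agent.S05.GoodBad

/-!
# S05 / T6: the node facts for `Wd d₁ d₂` (output shape `Asm.NodeStatement`)
-/

set_option autoImplicit false
set_option linter.unusedSectionVars false

namespace Fermat.Agent.S05.NodeFinal

open WeierstrassCurve WeierstrassCurve.Affine
open Fermat.Agent.S05.Transfer (Wd Wd_baseChange)
open Fermat.Agent.S05.NodePt Fermat.Agent.S05.NodePair Fermat.Agent.S05.Asm

variable {F K : Type*} [Field F] [Field K] [DecidableEq K] [Algebra F K]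

/-- The hypotheses of the pair law hold for `Wd d₁ d₂` base changed to `K`. -/
theorem nodeHyp (A : ValuationSubring K) (d1 d2 : F) (h2 : A.valuation (2 : K) = 1)
    (hd1 : A.valuation (algebraMap F K d1) < 1) (hd1ne : algebraMap F K d1 ≠ 0)
    (hd2 : A.valuation (algebraMap F K d2) = 1) :
    NodeHyp A.valuation ((Wd d1 d2 : Affine F)⁄K) := by
  have hd2ne : algebraMap F K d2 ≠ 0 := by
    intro h0
    rw [h0, map_zero] at hd2
    exact zero_ne_one hd2
  refine ⟨?_, ?_, ?_, h2, ?_, ?_, ?_⟩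
  · rw [Wd_baseChange]; rfl
  · rw [Wd_baseChange]; rfl
  · rw [Wd_baseChange]; rfl
  · rw [Wd_baseChange, Transfer.Wd_a₂, Valuation.map_neg, ← hd2]
    apply Valuation.map_add_eq_of_lt_right
    rw [hd2]; exact hd1
  · rw [Wd_baseChange, Transfer.Wd_a₄]
    exact mul_ne_zero hd1ne hd2ne
  · rw [Wd_baseChange, Transfer.Wd_a₄, map_mul, hd2, mul_one]
    exact hd1

theorem a₄_val (A : ValuationSubring K) (d1 d2 : F)
    (hd2 : A.valuation (algebraMap F K d2) = 1) :
    A.valuation ((Wd d1 d2 : Affine F)⁄K).a₄ = A.valuation (algebraMap F K d1) := by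
  rw [Wd_baseChange, Transfer.Wd_a₄, map_mul, hd2, mul_one]

theorem xBig_of_nu_eq_one {A : ValuationSubring K} {W : Affine K} (H : NodeHyp A.valuation W)
    {P : W.Point} (h : nu A.valuation W P = 1) : XBig A P :=
  (H.nu_eq_one_iff P).mp h

/-- **T6**: the node facts. -/
theorem nodeFacts (A : ValuationSubring K) (d1 d2 : F) (p : ℕ) (h2 : A.valuation (2 : K) = 1)
    (hd1 : A.valuation (algebraMap F K d1) < 1) (hd1ne : algebraMap F K d1 ≠ 0)
    (hd2 : A.valuation (algebraMap F K d2) = 1) : NodeFacts (K := K) A d1 d2 p := by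
  have H := nodeHyp A d1 d2 h2 hd1 hd1ne hd2
  have hM := a₄_val A d1 d2 hd2
  refine ⟨?_, ?_, ?_⟩
  · intro x1 y1 h1 x2 y2 h2' hlt hlt1 heq _
    have e1 : nu A.valuation _ (Point.some x1 y1 h1) = A.valuation x1 := by
      rw [nu_some, hM]; exact clamp_of_mem hlt.le hlt1.le
    have e2 : nu A.valuation _ (Point.some x2 y2 h2') = A.valuation x1 := by
      rw [nu_some, hM, heq]; exact clamp_of_mem hlt.le hlt1.le
    rcases H.nu_add_or_sub_eq_one (e1.trans e2.symm) with h | h
    · exact Or.inl (xBig_of_nu_eq_one H h)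
    · exact Or.inr (xBig_of_nu_eq_one H h)
  · intro x y h hlt hlt1 hP
    have e1 : nu A.valuation _ (Point.some x y h) = A.valuation x := by
      rw [nu_some, hM]; exact clamp_of_mem hlt.le hlt1.le
    obtain ⟨j, hj⟩ := H.nu_pow_of_nsmul_eq_zero hP
    rw [e1, hM] at hj
    exact ⟨j, hj⟩
  · intro h0 x y h hle _
    have e1 : nu A.valuation _ (Point.some x y h) = A.valuation ((Wd d1 d2 : Affine F)⁄K).a₄ := by
      rw [nu_some]; exact clamp_of_le H.b1.le (hM ▸ hle)
    have e2 : nu A.valuation _ (Point.some 0 0 h0) = A.valuation ((Wd d1 d2 : Affine F)⁄K).a₄ := by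
      rw [nu_some, map_zero]; exact clamp_of_le H.b1.le zero_le
    exact xBig_of_nu_eq_one H (H.nu_add_eq_one_of_eq_M e1 e2).1

/-- The output shape required by `GoodBad.lean`. -/
theorem nodeStatement : Asm.NodeStatement := by
  intro A p d₁ d₂ _ _ h2 hd1 hd1ne hd2
  exact nodeFacts A d₁ d₂ p h2 hd1 hd1ne hd2

end Fermat.Agent.S05.NodeFinal
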