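/-
M1 / S05: T2 discharged. `Asm.KernelStatement` (GoodBad.lean) from `KernelTorsion.lean`.
Owner: helper19.
-/
import Mathlib
import Fermat.Agent.S05.GoodBad
import Fermat.Agent.S05.KernelTorsion

set_option autoImplicit false

namespace Fermat.Agent.S05.KernelGlue

open WeierstrassCurve WeierstrassCurve.Affine
open Fermat.Agent.S05.Transfer (Wd Wd_baseChange)

local notation "Qbar" => AlgebraicClosure ℚ

/-- **T2 discharged**: the kernel-of-reduction statement required by `GoodBad.lean`, from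
helper7's `KernelTorsion.lean`. -/
theorem kernelStatement : Asm.KernelStatement := by
  intro A p d₁ d₂ hp hp2 h2 hpv hd1 hd2
  have e : (Wd d₁ d₂).toAffine⁄Qbar = Wd (algebraMap ℚ Qbar d₁) (algebraMap ℚ Qbar d₂) :=
    Wd_baseChange d₁ d₂
  have hd1A : algebraMap ℚ Qbar d₁ ∈ A := (A.valuation_le_one_iff _).mp hd1
  have hd2A : algebraMap ℚ Qbar d₂ ∈ A := (A.valuation_le_one_iff _).mp hd2
  have h₁ : ((Wd d₁ d₂).toAffine⁄Qbar).a₁ = 0 := by rw [e]; rfl
  have h₃ : ((Wd d₁ d₂).toAffine⁄Qbar).a₃ = 0 := by rw [e]; rfl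
  have h₆ : ((Wd d₁ d₂).toAffine⁄Qbar).a₆ = 0 := by rw [e]; rfl
  have ha : ((Wd d₁ d₂).toAffine⁄Qbar).a₂ ∈ A := by
    rw [e]; exact A.neg_mem _ (A.add_mem _ _ hd1A hd2A)
  have hb : ((Wd d₁ d₂).toAffine⁄Qbar).a₄ ∈ A := by
    rw [e]; exact A.mul_mem _ _ hd1A hd2A
  have hn : ((p : ℕ) : Qbar) ∉ A.nonunits := fun h => (A.mem_nonunits_iff.mp h).ne hpv
  refine ⟨fun P Q hP hQ => ?_, fun P hP h => ?_⟩
  · exact KernelTorsion.inKer_add A h₁ h₃ h₆ ha hb hP hQ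
  · exact KernelTorsion.no_torsion_inKer A h₁ h₃ h₆ ha hb hn hP h

end Fermat.Agent.S05.KernelGlue
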