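/-
S05 / T6a: valuations of the roots of the "addition–subtraction" quadratic at a node.
Pure valued-field algebra (no elliptic-curve objects).

`K` a field with a valuation `v : Valuation K Γ₀`.  We work with the "log group"
`Additive Γ₀ˣ` (an ordered additive commutative group, so that `grind` can do the linear
arithmetic) and `ex : Additive Γ₀ˣ → Γ₀` the exponential back.
-/
import Mathlib

set_option autoImplicit false

namespace Fermat.Agent.S05.NodeAlg

section Framework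

variable {Γ₀ : Type*} [LinearOrderedCommGroupWithZero Γ₀]

/-- exponential from the log group to the value group with zero -/
noncomputable def ex (g : Additive Γ₀ˣ) : Γ₀ := ((Additive.toMul g : Γ₀ˣ) : Γ₀)

theorem ex_add (g h : Additive Γ₀ˣ) : ex (g + h) = ex g * ex h := by simp [ex]
theorem ex_zero : ex (0 : Additive Γ₀ˣ) = 1 := by simp [ex]
theorem ex_neg (g : Additive Γ₀ˣ) : ex (-g) = (ex g)⁻¹ := by simp [ex]
theorem ex_sub (g h : Additive Γ₀ˣ) : ex (g - h) = ex g / ex h := by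
  simp [ex, div_eq_mul_inv]
theorem ex_nsmul (n : ℕ) (g : Additive Γ₀ˣ) : ex (n • g) = ex g ^ n := by simp [ex]
theorem ex_zsmul (n : ℤ) (g : Additive Γ₀ˣ) : ex (n • g) = ex g ^ n := by simp [ex]
theorem ex_ne_zero (g : Additive Γ₀ˣ) : ex g ≠ 0 := by simp [ex]
theorem ex_pos (g : Additive Γ₀ˣ) : 0 < ex g := zero_lt_iff.mpr (ex_ne_zero g)
theorem ex_le_ex {g h : Additive Γ₀ˣ} : ex g ≤ ex h ↔ g ≤ h := by simp [ex]
theorem ex_lt_ex {g h : Additive Γ₀ˣ} : ex g < ex h ↔ g < h := by simp [ex]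
theorem ex_injective : Function.Injective (ex : Additive Γ₀ˣ → Γ₀) := by
  intro g h hgh
  exact le_antisymm (ex_le_ex.mp hgh.le) (ex_le_ex.mp hgh.ge)
theorem ex_inj {g h : Additive Γ₀ˣ} : ex g = ex h ↔ g = h := ex_injective.eq_iff
theorem exists_ex {γ : Γ₀} (h : γ ≠ 0) : ∃ g : Additive Γ₀ˣ, γ = ex g :=
  ⟨Additive.ofMul (Units.mk0 γ h), by simp [ex]⟩
theorem ex_max (g h : Additive Γ₀ˣ) : ex (max g h) = max (ex g) (ex h) := by
  rcases le_total g h with hgh | hgh
  · rw [max_eq_right hgh, max_eq_right (ex_le_ex.mpr hgh)]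
  · rw [max_eq_left hgh, max_eq_left (ex_le_ex.mpr hgh)]
theorem ex_min (g h : Additive Γ₀ˣ) : ex (min g h) = min (ex g) (ex h) := by
  rcases le_total g h with hgh | hgh
  · rw [min_eq_left hgh, min_eq_left (ex_le_ex.mpr hgh)]
  · rw [min_eq_right hgh, min_eq_right (ex_le_ex.mpr hgh)]

variable {K : Type*} [Field K] (v : Valuation K Γ₀)

theorem exists_eq {x : K} (hx : x ≠ 0) : ∃ g : Additive Γ₀ˣ, v x = ex g :=
  exists_ex ((Valuation.ne_zero_iff v).mpr hx)

variable {v}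

theorem ne_zero_of_eq {x : K} {g : Additive Γ₀ˣ} (hx : v x = ex g) : x ≠ 0 := by
  rintro rfl
  exact ex_ne_zero g (by rw [← hx, map_zero])

theorem le_mono {x : K} {g h : Additive Γ₀ˣ} (hx : v x ≤ ex g) (hgh : g ≤ h) : v x ≤ ex h :=
  hx.trans (ex_le_ex.mpr hgh)

theorem le_add {x y : K} {g : Additive Γ₀ˣ} (hx : v x ≤ ex g) (hy : v y ≤ ex g) :
    v (x + y) ≤ ex g :=
  (v.map_add x y).trans (max_le hx hy)

theorem le_sub {x y : K} {g : Additive Γ₀ˣ} (hx : v x ≤ ex g) (hy : v y ≤ ex g) :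
    v (x - y) ≤ ex g :=
  (v.map_sub x y).trans (max_le hx hy)

theorem eq_add {x y : K} {g : Additive Γ₀ˣ} (hx : v x = ex g) (hy : v y < ex g) :
    v (x + y) = ex g := by
  rw [← hx] at hy ⊢
  exact Valuation.map_add_eq_of_lt_left v hy

theorem eq_add' {x y : K} {g : Additive Γ₀ˣ} (hy : v y < ex g) (hx : v x = ex g) :
    v (y + x) = ex g := by
  rw [add_comm]; exact eq_add hx hy

theorem eq_sub {x y : K} {g : Additive Γ₀ˣ} (hx : v x = ex g) (hy : v y < ex g) :
    v (x - y) = ex g := by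
  rw [sub_eq_add_neg]
  exact eq_add hx (by rwa [Valuation.map_neg])

theorem eq_sub' {x y : K} {g : Additive Γ₀ˣ} (hy : v y < ex g) (hx : v x = ex g) :
    v (y - x) = ex g := by
  rw [← Valuation.map_neg, neg_sub]; exact eq_sub hx hy

theorem lt_of_le_of_lt' {x : K} {g h : Additive Γ₀ˣ} (hx : v x ≤ ex g) (hgh : g < h) :
    v x < ex h :=
  hx.trans_lt (ex_lt_ex.mpr hgh)

theorem eq_mul {x y : K} {g h : Additive Γ₀ˣ} (hx : v x = ex g) (hy : v y = ex h) :
    v (x * y) = ex (g + h) := by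
  rw [map_mul, hx, hy, ex_add]

theorem le_mul {x y : K} {g h : Additive Γ₀ˣ} (hx : v x ≤ ex g) (hy : v y ≤ ex h) :
    v (x * y) ≤ ex (g + h) := by
  rw [map_mul, ex_add]
  exact mul_le_mul' hx hy

theorem eq_pow {x : K} {g : Additive Γ₀ˣ} (hx : v x = ex g) (n : ℕ) :
    v (x ^ n) = ex (n • g) := by
  rw [map_pow, hx, ex_nsmul]

theorem le_pow {x : K} {g : Additive Γ₀ˣ} (hx : v x ≤ ex g) (n : ℕ) :
    v (x ^ n) ≤ ex (n • g) := by
  rw [map_pow, ex_nsmul]
  exact pow_le_pow_left' hx n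

theorem eq_of_mul_eq {x y : K} {g h : Additive Γ₀ˣ} (hxy : v (x * y) = ex g)
    (hy : v y = ex h) : v x = ex (g - h) := by
  rw [map_mul, hy] at hxy
  rw [ex_sub, ← hxy, mul_div_assoc, div_self (ex_ne_zero h), mul_one]

theorem le_of_mul_le {x y : K} {g h : Additive Γ₀ˣ} (hxy : v (x * y) ≤ ex g)
    (hy : v y = ex h) : v x ≤ ex (g - h) := by
  rw [map_mul, hy] at hxy
  rw [ex_sub, le_div_iff₀ (ex_pos h)]
  exact hxy

theorem le_of_eq_of_le {x : K} {g h : Additive Γ₀ˣ} (hx : v x = ex g) (hx' : v x ≤ ex h) :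
    g ≤ h := by
  rw [hx] at hx'; exact ex_le_ex.mp hx'

theorem eq_unique {x : K} {g h : Additive Γ₀ˣ} (hx : v x = ex g) (hx' : v x = ex h) :
    g = h := by
  rw [hx] at hx'; exact ex_injective hx'

end Framework

section Roots

variable {Γ₀ : Type*} [LinearOrderedCommGroupWithZero Γ₀]
variable {K : Type*} [Field K] {v : Valuation K Γ₀}

/-- Both roots are bounded if sum and product are. -/
theorem roots_both_le {r s : K} {c : Additive Γ₀ˣ} (hS : v (r + s) ≤ ex c)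
    (hP : v (r * s) ≤ ex (2 • c)) : v r ≤ ex c ∧ v s ≤ ex c := by
  have key : ∀ r s : K, v (r + s) ≤ ex c → v (r * s) ≤ ex (2 • c) → v r ≤ ex c := by
    intro r s hS hP
    by_contra hr
    rw [not_le] at hr
    have hr0 : r ≠ 0 := by
      rintro rfl
      rw [map_zero] at hr
      exact not_lt_zero hr
    obtain ⟨ρ, hρ⟩ := exists_eq v hr0
    rw [hρ, ex_lt_ex] at hr
    by_cases hs0 : s = 0
    · subst hs0
      rw [add_zero, hρ, ex_le_ex] at hS
      grind
    obtain ⟨ς, hς⟩ := exists_eq v hs0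
    have h1 := le_of_eq_of_le (eq_mul hρ hς) hP
    have h2 : ς < ρ := by grind
    have h3 := le_of_eq_of_le (eq_add hρ (by rw [hς]; exact ex_lt_ex.mpr h2)) hS
    grind
  refine ⟨key r s hS hP, key s r ?_ ?_⟩
  · rwa [add_comm]
  · rwa [mul_comm]

/-- Both roots have the same valuation `c` if the sum is bounded by `c` and the product is
exactly `2c`. -/
theorem roots_both_eq {r s : K} {c : Additive Γ₀ˣ} (hS : v (r + s) ≤ ex c)
    (hP : v (r * s) = ex (2 • c)) : v r = ex c ∧ v s = ex c := by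
  obtain ⟨hr, hs⟩ := roots_both_le hS hP.le
  have hrs := ne_zero_of_eq hP
  obtain ⟨ρ, hρ⟩ := exists_eq v (left_ne_zero_of_mul hrs)
  obtain ⟨ς, hς⟩ := exists_eq v (right_ne_zero_of_mul hrs)
  have h1 := eq_unique (eq_mul hρ hς) hP
  have h2 := le_of_eq_of_le hρ hr
  have h3 := le_of_eq_of_le hς hs
  have h4 : ρ = c := by grind
  have h5 : ς = c := by grind
  rw [hρ, hς, h4, h5]
  exact ⟨rfl, rfl⟩

/-- Newton polygon with a break: one root has the valuation of the sum, the other one is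
bounded by the quotient. -/
theorem roots_split_le {r s : K} {σ π : Additive Γ₀ˣ} (hS : v (r + s) = ex σ)
    (hP : v (r * s) ≤ ex π) (hlt : π < 2 • σ) :
    (v r = ex σ ∧ v s ≤ ex (π - σ)) ∨ (v s = ex σ ∧ v r ≤ ex (π - σ)) := by
  by_cases hr0 : r = 0
  · subst hr0
    right
    rw [zero_add] at hS
    exact ⟨hS, by rw [map_zero]; exact zero_le⟩
  by_cases hs0 : s = 0
  · subst hs0
    left
    rw [add_zero] at hS
    exact ⟨hS, by rw [map_zero]; exact zero_le⟩
  obtain ⟨ρ, hρ⟩ := exists_eq v hr0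
  obtain ⟨ς, hς⟩ := exists_eq v hs0
  have h1 := le_of_eq_of_le (eq_mul hρ hς) hP
  rcases lt_trichotomy ρ ς with h | h | h
  · right
    have h2 := eq_unique (eq_add' (by rw [hρ]; exact ex_lt_ex.mpr h) hς) hS
    subst h2
    refine ⟨hς, ?_⟩
    rw [hρ, ex_le_ex]; grind
  · exfalso
    subst h
    have h2 := le_of_eq_of_le hS (le_add hρ.le hς.le)
    grind
  · left
    have h2 := eq_unique (eq_add hρ (by rw [hς]; exact ex_lt_ex.mpr h)) hS
    subst h2
    refine ⟨hρ, ?_⟩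
    rw [hς, ex_le_ex]; grind

/-- Newton polygon with a break, exact version. -/
theorem roots_split {r s : K} {σ π : Additive Γ₀ˣ} (hS : v (r + s) = ex σ)
    (hP : v (r * s) = ex π) (hlt : π < 2 • σ) :
    (v r = ex σ ∧ v s = ex (π - σ)) ∨ (v s = ex σ ∧ v r = ex (π - σ)) := by
  rcases roots_split_le hS hP.le hlt with ⟨h1, _⟩ | ⟨h1, _⟩
  · left
    refine ⟨h1, ?_⟩
    rw [mul_comm] at hP
    exact eq_of_mul_eq hP h1
  · right
    exact ⟨h1, eq_of_mul_eq hP h1⟩

/-- Both roots are "large" (valuation `≥ 1`) if the product is and the sum is bounded by the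
product. -/
theorem roots_both_ge {r s : K} {π : Additive Γ₀ˣ} (hP : v (r * s) = ex π) (hπ : 0 ≤ π)
    (hS : v (r + s) ≤ ex π) : 1 ≤ v r ∧ 1 ≤ v s := by
  have key : ∀ r s : K, v (r * s) = ex π → v (r + s) ≤ ex π → 1 ≤ v r := by
    intro r s hP hS
    have hrs := ne_zero_of_eq hP
    obtain ⟨ρ, hρ⟩ := exists_eq v (left_ne_zero_of_mul hrs)
    obtain ⟨ς, hς⟩ := exists_eq v (right_ne_zero_of_mul hrs)
    have h1 := eq_unique (eq_mul hρ hς) hP
    rw [hρ, ← ex_zero, ex_le_ex]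
    by_contra hneg
    rw [not_le] at hneg
    have h2 : ρ < ς := by grind
    have h3 := le_of_eq_of_le (eq_add' (by rw [hρ]; exact ex_lt_ex.mpr h2) hς) hS
    grind
  refine ⟨key r s hP hS, key s r ?_ ?_⟩
  · rwa [mul_comm]
  · rwa [add_comm]

end Roots

section Nu

variable {Γ₀ : Type*} [LinearOrderedCommGroupWithZero Γ₀]
variable {K : Type*} [Field K]

open Classical in
/-- log of the valuation (junk value `0` at `x = 0`). -/
noncomputable def lg (v : Valuation K Γ₀) (x : K) : Additive Γ₀ˣ :=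
  if h : x = 0 then 0 else Additive.ofMul (Units.mk0 (v x) ((Valuation.ne_zero_iff v).mpr h))

theorem ex_lg (v : Valuation K Γ₀) {x : K} (hx : x ≠ 0) : ex (lg v x) = v x := by
  simp [lg, hx, ex]

theorem lg_eq {v : Valuation K Γ₀} {x : K} {g : Additive Γ₀ˣ} (hx : v x = ex g) :
    lg v x = g := by
  apply ex_injective
  rw [ex_lg v (ne_zero_of_eq hx), hx]

open Classical in
/-- The folded "distance to the identity component" in the log group:
`nuG μ v x = clamp (log v x)` to the interval `[μ, 0]` (and `μ` for `x = 0`). -/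
noncomputable def nuG (μ : Additive Γ₀ˣ) (v : Valuation K Γ₀) (x : K) : Additive Γ₀ˣ :=
  if x = 0 then μ else max μ (min 0 (lg v x))

variable {μ : Additive Γ₀ˣ} {v : Valuation K Γ₀}

theorem nuG_mem (hμ : μ ≤ 0) (x : K) : μ ≤ nuG μ v x ∧ nuG μ v x ≤ 0 := by
  unfold nuG
  split_ifs
  · exact ⟨le_rfl, hμ⟩
  · exact ⟨le_max_left _ _, max_le hμ (min_le_left _ _)⟩

theorem nuG_of_eq {x : K} {g : Additive Γ₀ˣ} (hx : v x = ex g) (h1 : μ ≤ g) (h2 : g ≤ 0) :
    nuG μ v x = g := by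
  unfold nuG
  rw [if_neg (ne_zero_of_eq hx), lg_eq hx, min_eq_right h2, max_eq_right h1]

theorem nuG_of_ge (hμ : μ ≤ 0) {x : K} (hx : 1 ≤ v x) : nuG μ v x = 0 := by
  have hx0 : x ≠ 0 := by
    rintro rfl
    rw [map_zero] at hx
    exact not_lt_zero (lt_of_lt_of_le zero_lt_one hx)
  obtain ⟨g, hg⟩ := exists_eq v hx0
  unfold nuG
  rw [if_neg hx0, lg_eq hg]
  rw [hg, ← ex_zero, ex_le_ex] at hx
  rw [min_eq_left hx, max_eq_right hμ]

theorem nuG_of_le (hμ : μ ≤ 0) {x : K} (hx : v x ≤ ex μ) : nuG μ v x = μ := by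
  unfold nuG
  split_ifs with hx0
  · rfl
  · obtain ⟨g, hg⟩ := exists_eq v hx0
    rw [lg_eq hg]
    rw [hg, ex_le_ex] at hx
    rw [max_eq_left]
    exact (min_le_right _ _).trans hx

/-- `‖g₁ + g₂‖` : representative of `g₁ + g₂` modulo `2μ` and sign in `[μ, 0]`. -/
def plusG (μ g1 g2 : Additive Γ₀ˣ) : Additive Γ₀ˣ := max (g1 + g2) (2 • μ - (g1 + g2))

/-- `‖g₁ - g₂‖ = -|g₁ - g₂|`. -/
def minusG (g1 g2 : Additive Γ₀ˣ) : Additive Γ₀ˣ := min (g1 - g2) (g2 - g1)

/-- the unordered pair `{g3, g4}` equals `{‖g1 + g2‖, ‖g1 - g2‖}` -/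
def PairG (μ g1 g2 g3 g4 : Additive Γ₀ˣ) : Prop :=
  (g3 = plusG μ g1 g2 ∧ g4 = minusG g1 g2) ∨ (g3 = minusG g1 g2 ∧ g4 = plusG μ g1 g2)

end Nu

end Fermat.Agent.S05.NodeAlg
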