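/-
S05 / T6a: the pair law for the roots of the addition–subtraction quadratic at a node.
Pure valued-field algebra.
-/
import Fermat.Agent.S05.NodeAlgVal

set_option autoImplicit false

namespace Fermat.Agent.S05.NodeAlg

section Pair

variable {Γ₀ : Type*} [LinearOrderedCommGroupWithZero Γ₀]
variable {K : Type*} [Field K] {v : Valuation K Γ₀}

theorem prod_eq {x3 x4 D Pn : K} {δ π : Additive Γ₀ˣ} (hprod : x3 * x4 * D ^ 2 = Pn ^ 2)
    (hD : v D = ex δ) (hP : v Pn = ex π) : v (x3 * x4) = ex (2 • π - 2 • δ) :=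
  eq_of_mul_eq (by rw [hprod]; exact eq_pow hP 2) (eq_pow hD 2)

theorem prod_le {x3 x4 D Pn : K} {δ π : Additive Γ₀ˣ} (hprod : x3 * x4 * D ^ 2 = Pn ^ 2)
    (hD : v D = ex δ) (hP : v Pn ≤ ex π) : v (x3 * x4) ≤ ex (2 • π - 2 • δ) :=
  le_of_mul_le (by rw [hprod]; exact le_pow hP 2) (eq_pow hD 2)

theorem sum_eq {x3 x4 D N : K} {δ n : Additive Γ₀ˣ} (h2 : v 2 = 1)
    (hsum : (x3 + x4) * D ^ 2 = 2 * N)
    (hD : v D = ex δ) (hN : v N = ex n) : v (x3 + x4) = ex (n - 2 • δ) :=
  eq_of_mul_eq (by rw [hsum, map_mul, h2, one_mul]; exact hN) (eq_pow hD 2)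

theorem sum_le {x3 x4 D N : K} {δ n : Additive Γ₀ˣ} (h2 : v 2 = 1)
    (hsum : (x3 + x4) * D ^ 2 = 2 * N)
    (hD : v D = ex δ) (hN : v N ≤ ex n) : v (x3 + x4) ≤ ex (n - 2 • δ) :=
  le_of_mul_le (by rw [hsum, map_mul, h2, one_mul]; exact hN) (eq_pow hD 2)

/-- The pair law, assuming `v x2 ≤ v x1`. -/
theorem pairG_aux {a b x1 x2 x3 x4 : K} {μ : Additive Γ₀ˣ}
    (h2 : v 2 = 1) (ha : v a = 1) (hb : v b = ex μ) (hμ : μ < 0)
    (hne : x1 ≠ x2)
    (hprod : x3 * x4 * (x1 - x2) ^ 2 = (x1 * x2 - b) ^ 2)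
    (hsum : (x3 + x4) * (x1 - x2) ^ 2 = 2 * ((x1 + x2) * (x1 * x2 + b) + 2 * a * x1 * x2))
    (hle : v x2 ≤ v x1) :
    PairG μ (nuG μ v x1) (nuG μ v x2) (nuG μ v x3) (nuG μ v x4) := by
  have hμ' : μ ≤ 0 := hμ.le
  have h2a : v (2 * a) = ex 0 := by rw [map_mul, h2, ha, one_mul, ex_zero]
  have hx1 : x1 ≠ 0 := by
    rintro rfl
    rw [map_zero] at hle
    have : x2 = 0 := by
      by_contra h
      exact absurd hle (not_le.mpr (zero_lt_iff.mpr ((Valuation.ne_zero_iff v).mpr h)))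
    exact hne this.symm
  obtain ⟨W1, hW1⟩ := exists_eq v hx1
  obtain ⟨δ, hδ⟩ := exists_eq v (sub_ne_zero.mpr hne)
  have hle' : v x2 ≤ ex W1 := hle.trans hW1.le
  have hδW : δ ≤ W1 := le_of_eq_of_le hδ (le_sub hW1.le hle')
  have hx12 : v (x1 + x2) ≤ ex W1 := le_add hW1.le hle'
  by_cases hS : v x2 ≤ ex μ
  · -- `x2` is small
    have hn2 : nuG μ v x2 = μ := nuG_of_le hμ' hS
    have hx1x2 : v (x1 * x2) ≤ ex (W1 + μ) := le_mul hW1.le hS
    have hT : v (2 * a * x1 * x2) ≤ ex (W1 + μ) :=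
      le_mono (le_mul (le_mul h2a.le hW1.le) hS) (by grind)
    rcases le_or_gt W1 μ with h1 | h1
    · -- S1 : both small
      have hn1 : nuG μ v x1 = μ := nuG_of_le hμ' (by rw [hW1]; exact ex_le_ex.mpr h1)
      have hlt : v (x1 * x2) < ex μ := lt_of_le_of_lt' hx1x2 (by grind)
      have hPn : v (x1 * x2 - b) = ex μ := eq_sub' hlt hb
      have hPp : v (x1 * x2 + b) = ex μ := eq_add' hlt hb
      have hPi := prod_eq hprod hδ hPn
      have hF : v ((x1 + x2) * (x1 * x2 + b)) ≤ ex (W1 + μ) := le_mul hx12 hPp.le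
      have hSg := sum_le h2 hsum hδ (le_add hF hT)
      obtain ⟨h3, h4⟩ := roots_both_ge hPi (by grind) (le_mono hSg (by grind))
      rw [hn1, hn2, nuG_of_ge hμ' h3, nuG_of_ge hμ' h4]
      unfold PairG plusG minusG
      grind
    rcases lt_or_ge W1 0 with h0 | h0
    · -- S2 : μ < W1 < 0, x2 small
      have hn1 : nuG μ v x1 = W1 := nuG_of_eq hW1 h1.le h0.le
      have hlt : v (x1 * x2) < ex μ := lt_of_le_of_lt' hx1x2 (by grind)
      have hPn : v (x1 * x2 - b) = ex μ := eq_sub' hlt hb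
      have hPp : v (x1 * x2 + b) = ex μ := eq_add' hlt hb
      have hPi := prod_eq hprod hδ hPn
      have hδ' : δ = W1 := by
        refine eq_unique hδ (eq_sub hW1 (lt_of_le_of_lt' hS h1))
      subst hδ'
      have hF : v ((x1 + x2) * (x1 * x2 + b)) ≤ ex (δ + μ) := le_mul hx12 hPp.le
      have hSg := sum_le h2 hsum hδ (le_add hF hT)
      have hPi' : v (x3 * x4) = ex (2 • (μ - δ)) := by rw [hPi]; congr 1; grind
      obtain ⟨h3, h4⟩ := roots_both_eq (le_mono hSg (by grind)) hPi'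
      rw [hn1, hn2, nuG_of_eq h3 (by grind) (by grind), nuG_of_eq h4 (by grind) (by grind)]
      unfold PairG plusG minusG
      grind
    · -- S3 : 0 ≤ W1, x2 small
      have hn1 : nuG μ v x1 = 0 :=
        nuG_of_ge hμ' (by rw [hW1, ← ex_zero]; exact ex_le_ex.mpr h0)
      have hδ' : δ = W1 := by
        refine eq_unique hδ (eq_sub hW1 (lt_of_le_of_lt' hS h1))
      subst hδ'
      have hPn : v (x1 * x2 - b) ≤ ex (δ + μ) := le_sub hx1x2 (le_mono hb.le (by grind))
      have hPp : v (x1 * x2 + b) ≤ ex (δ + μ) := le_add hx1x2 (le_mono hb.le (by grind))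
      have hPi := prod_le hprod hδ hPn
      have hF : v ((x1 + x2) * (x1 * x2 + b)) ≤ ex (δ + (δ + μ)) := le_mul hx12 hPp
      have hSg := sum_le h2 hsum hδ (le_add hF (le_mono hT (by grind)))
      obtain ⟨h3, h4⟩ := roots_both_le (c := μ) (le_mono hSg (by grind)) (le_mono hPi (by grind))
      rw [hn1, hn2, nuG_of_le hμ' h3, nuG_of_le hμ' h4]
      unfold PairG plusG minusG
      grind
  · -- `x2` is not small
    rw [not_le] at hS
    have hx2 : x2 ≠ 0 := by
      rintro rfl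
      rw [map_zero] at hS
      exact not_lt_zero hS
    obtain ⟨W2, hW2⟩ := exists_eq v hx2
    have hW21 : W2 ≤ W1 := le_of_eq_of_le hW2 hle'
    have hμW2 : μ < W2 := by rwa [hW2, ex_lt_ex] at hS
    have hx1x2 : v (x1 * x2) = ex (W1 + W2) := eq_mul hW1 hW2
    have hT : v (2 * a * x1 * x2) = ex (W1 + W2) := by
      have := eq_mul (eq_mul h2a hW1) hW2
      rw [this]; congr 1; grind
    rcases le_or_gt 0 W2 with h0 | h0
    · -- N1 : both large
      have hn1 : nuG μ v x1 = 0 :=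
        nuG_of_ge hμ' (by rw [hW1, ← ex_zero]; exact ex_le_ex.mpr (h0.trans hW21))
      have hn2 : nuG μ v x2 = 0 :=
        nuG_of_ge hμ' (by rw [hW2, ← ex_zero]; exact ex_le_ex.mpr h0)
      have hlt : v b < ex (W1 + W2) := by rw [hb, ex_lt_ex]; grind
      have hPn : v (x1 * x2 - b) = ex (W1 + W2) := eq_sub hx1x2 hlt
      have hPp : v (x1 * x2 + b) = ex (W1 + W2) := eq_add hx1x2 hlt
      have hPi := prod_eq hprod hδ hPn
      have hF : v ((x1 + x2) * (x1 * x2 + b)) ≤ ex (W1 + (W1 + W2)) := le_mul hx12 hPp.le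
      have hSg := sum_le h2 hsum hδ (le_add hF (le_mono hT.le (by grind)))
      obtain ⟨h3, h4⟩ := roots_both_ge hPi (by grind) (le_mono hSg (by grind))
      rw [hn1, hn2, nuG_of_ge hμ' h3, nuG_of_ge hμ' h4]
      unfold PairG plusG minusG
      grind
    have hn2 : nuG μ v x2 = W2 := nuG_of_eq hW2 hμW2.le h0.le
    rcases le_or_gt 0 W1 with h1 | h1
    · -- N2 : x1 large, x2 in the open interval
      have hn1 : nuG μ v x1 = 0 :=
        nuG_of_ge hμ' (by rw [hW1, ← ex_zero]; exact ex_le_ex.mpr h1)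
      have hδ' : δ = W1 := by
        refine eq_unique hδ (eq_sub hW1 (by rw [hW2, ex_lt_ex]; grind))
      subst hδ'
      have hlt : v b < ex (δ + W2) := by rw [hb, ex_lt_ex]; grind
      have hPn : v (x1 * x2 - b) = ex (δ + W2) := eq_sub hx1x2 hlt
      have hPp : v (x1 * x2 + b) = ex (δ + W2) := eq_add hx1x2 hlt
      have hPi := prod_eq hprod hδ hPn
      have hF : v ((x1 + x2) * (x1 * x2 + b)) ≤ ex (δ + (δ + W2)) := le_mul hx12 hPp.le
      have hSg := sum_le h2 hsum hδ (le_add hF (le_mono hT.le (by grind)))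
      have hPi' : v (x3 * x4) = ex (2 • W2) := by rw [hPi]; congr 1; grind
      obtain ⟨h3, h4⟩ := roots_both_eq (le_mono hSg (by grind)) hPi'
      rw [hn1, hn2, nuG_of_eq h3 (by grind) (by grind), nuG_of_eq h4 (by grind) (by grind)]
      unfold PairG plusG minusG
      grind
    -- N3 : both in the open interval (μ, 0)
    have hn1 : nuG μ v x1 = W1 := nuG_of_eq hW1 (by grind) h1.le
    have hδ' : W2 < W1 → δ = W1 := fun h =>
      eq_unique hδ (eq_sub hW1 (by rw [hW2, ex_lt_ex]; exact h))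
    have hF' : ∀ {g : Additive Γ₀ˣ}, v (x1 * x2 + b) ≤ ex g →
        v ((x1 + x2) * (x1 * x2 + b)) ≤ ex (W1 + g) := fun h => le_mul hx12 h
    rcases lt_trichotomy (W1 + W2) μ with hs | hs | hs
    · -- (b) s < μ
      have hlt : v (x1 * x2) < ex μ := by rw [hx1x2, ex_lt_ex]; exact hs
      have hPn : v (x1 * x2 - b) = ex μ := eq_sub' hlt hb
      have hPp : v (x1 * x2 + b) = ex μ := eq_add' hlt hb
      have hPi := prod_eq hprod hδ hPn
      have hN : v ((x1 + x2) * (x1 * x2 + b) + 2 * a * x1 * x2) = ex (W1 + W2) :=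
        eq_add' (lt_of_le_of_lt' (hF' hPp.le) (by grind)) hT
      have hSg := sum_eq h2 hsum hδ hN
      rcases roots_split hSg hPi (by grind) with ⟨h3, h4⟩ | ⟨h4, h3⟩
      · have e4 : nuG μ v x4 = 2 • μ - (W1 + W2) :=
          nuG_of_eq (by rw [h4]; congr 1; grind) (by grind) (by grind)
        rcases hW21.lt_or_eq with hlt21 | heq21
        · have := hδ' hlt21
          subst this
          rw [hn1, hn2, e4, nuG_of_eq h3 (by grind) (by grind)]
          unfold PairG plusG minusG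
          grind
        · subst heq21
          have e3 : nuG μ v x3 = 0 :=
            nuG_of_ge hμ' (by rw [h3, ← ex_zero, ex_le_ex]; grind)
          rw [hn1, hn2, e4, e3]
          unfold PairG plusG minusG
          grind
      · have e3 : nuG μ v x3 = 2 • μ - (W1 + W2) :=
          nuG_of_eq (by rw [h3]; congr 1; grind) (by grind) (by grind)
        rcases hW21.lt_or_eq with hlt21 | heq21
        · have := hδ' hlt21
          subst this
          rw [hn1, hn2, e3, nuG_of_eq h4 (by grind) (by grind)]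
          unfold PairG plusG minusG
          grind
        · subst heq21
          have e4 : nuG μ v x4 = 0 :=
            nuG_of_ge hμ' (by rw [h4, ← ex_zero, ex_le_ex]; grind)
          rw [hn1, hn2, e4, e3]
          unfold PairG plusG minusG
          grind
    · -- (c) s = μ
      have hPn : v (x1 * x2 - b) ≤ ex μ := le_sub (by rw [hx1x2, hs]) hb.le
      have hPp : v (x1 * x2 + b) ≤ ex μ := le_add (by rw [hx1x2, hs]) hb.le
      have hPi := prod_le hprod hδ hPn
      have hN : v ((x1 + x2) * (x1 * x2 + b) + 2 * a * x1 * x2) = ex (W1 + W2) :=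
        eq_add' (lt_of_le_of_lt' (hF' hPp) (by grind)) hT
      have hSg := sum_eq h2 hsum hδ hN
      rcases roots_split_le hSg hPi (by grind) with ⟨h3, h4⟩ | ⟨h4, h3⟩
      · have e4 : nuG μ v x4 = μ := nuG_of_le hμ' (le_mono h4 (by grind))
        rcases hW21.lt_or_eq with hlt21 | heq21
        · have := hδ' hlt21
          subst this
          rw [hn1, hn2, e4, nuG_of_eq h3 (by grind) (by grind)]
          unfold PairG plusG minusG
          grind
        · subst heq21
          have e3 : nuG μ v x3 = 0 :=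
            nuG_of_ge hμ' (by rw [h3, ← ex_zero, ex_le_ex]; grind)
          rw [hn1, hn2, e4, e3]
          unfold PairG plusG minusG
          grind
      · have e3 : nuG μ v x3 = μ := nuG_of_le hμ' (le_mono h3 (by grind))
        rcases hW21.lt_or_eq with hlt21 | heq21
        · have := hδ' hlt21
          subst this
          rw [hn1, hn2, e3, nuG_of_eq h4 (by grind) (by grind)]
          unfold PairG plusG minusG
          grind
        · subst heq21
          have e4 : nuG μ v x4 = 0 :=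
            nuG_of_ge hμ' (by rw [h4, ← ex_zero, ex_le_ex]; grind)
          rw [hn1, hn2, e4, e3]
          unfold PairG plusG minusG
          grind
    · -- (a) μ < s
      have hlt : v b < ex (W1 + W2) := by rw [hb, ex_lt_ex]; exact hs
      have hPn : v (x1 * x2 - b) = ex (W1 + W2) := eq_sub hx1x2 hlt
      have hPp : v (x1 * x2 + b) = ex (W1 + W2) := eq_add hx1x2 hlt
      have hPi := prod_eq hprod hδ hPn
      have hN : v ((x1 + x2) * (x1 * x2 + b) + 2 * a * x1 * x2) = ex (W1 + W2) :=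
        eq_add' (lt_of_le_of_lt' (hF' hPp.le) (by grind)) hT
      have hSg := sum_eq h2 hsum hδ hN
      rcases roots_split hSg hPi (by grind) with ⟨h3, h4⟩ | ⟨h4, h3⟩
      · have e4 : nuG μ v x4 = W1 + W2 := nuG_of_eq (by rw [h4]; congr 1; grind) (by grind)
          (by grind)
        rcases hW21.lt_or_eq with hlt21 | heq21
        · have := hδ' hlt21
          subst this
          rw [hn1, hn2, e4, nuG_of_eq h3 (by grind) (by grind)]
          unfold PairG plusG minusG
          grind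
        · subst heq21
          have e3 : nuG μ v x3 = 0 :=
            nuG_of_ge hμ' (by rw [h3, ← ex_zero, ex_le_ex]; grind)
          rw [hn1, hn2, e4, e3]
          unfold PairG plusG minusG
          grind
      · have e3 : nuG μ v x3 = W1 + W2 := nuG_of_eq (by rw [h3]; congr 1; grind) (by grind)
          (by grind)
        rcases hW21.lt_or_eq with hlt21 | heq21
        · have := hδ' hlt21
          subst this
          rw [hn1, hn2, e3, nuG_of_eq h4 (by grind) (by grind)]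
          unfold PairG plusG minusG
          grind
        · subst heq21
          have e4 : nuG μ v x4 = 0 :=
            nuG_of_ge hμ' (by rw [h4, ← ex_zero, ex_le_ex]; grind)
          rw [hn1, hn2, e4, e3]
          unfold PairG plusG minusG
          grind

theorem PairG.symm12 {μ g1 g2 g3 g4 : Additive Γ₀ˣ} (h : PairG μ g1 g2 g3 g4) :
    PairG μ g2 g1 g3 g4 := by
  unfold PairG plusG minusG at *
  grind

theorem PairG.symm34 {μ g1 g2 g3 g4 : Additive Γ₀ˣ} (h : PairG μ g1 g2 g3 g4) :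
    PairG μ g1 g2 g4 g3 := by
  unfold PairG at *
  tauto

/-- **Pair law** (log-group version). `x3, x4` are the roots of the addition–subtraction
quadratic of `y² = x³ + a x² + b x` attached to `x1 ≠ x2`. -/
theorem pairG {a b x1 x2 x3 x4 : K} {μ : Additive Γ₀ˣ}
    (h2 : v 2 = 1) (ha : v a = 1) (hb : v b = ex μ) (hμ : μ < 0)
    (hne : x1 ≠ x2)
    (hprod : x3 * x4 * (x1 - x2) ^ 2 = (x1 * x2 - b) ^ 2)
    (hsum : (x3 + x4) * (x1 - x2) ^ 2 = 2 * ((x1 + x2) * (x1 * x2 + b) + 2 * a * x1 * x2)) :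
    PairG μ (nuG μ v x1) (nuG μ v x2) (nuG μ v x3) (nuG μ v x4) := by
  rcases le_total (v x2) (v x1) with hle | hle
  · exact pairG_aux h2 ha hb hμ hne hprod hsum hle
  · refine (pairG_aux h2 ha hb hμ hne.symm ?_ ?_ hle).symm12
    · have : x3 * x4 * (x2 - x1) ^ 2 = x3 * x4 * (x1 - x2) ^ 2 := by ring
      rw [this, hprod]; ring
    · have : (x3 + x4) * (x2 - x1) ^ 2 = (x3 + x4) * (x1 - x2) ^ 2 := by ring
      rw [this, hsum]; ring

/-- **Doubling law** (log-group version): `x3 = x(2P)` for `P = (x, y)`, where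
`q = y² = x (x² + a x + b) ≠ 0`. -/
theorem doubleG {a b x q x3 : K} {μ : Additive Γ₀ˣ}
    (h2 : v 2 = 1) (ha : v a = 1) (hb : v b = ex μ) (hμ : μ < 0)
    (hq : q ≠ 0) (heq : q = x * (x ^ 2 + a * x + b))
    (hdbl : x3 * (4 * q) = (x ^ 2 - b) ^ 2) :
    nuG μ v x3 = plusG μ (nuG μ v x) (nuG μ v x) := by
  have hμ' : μ ≤ 0 := hμ.le
  have h4 : v (4 : K) = 1 := by
    have : (4 : K) = 2 * 2 := by norm_num
    rw [this, map_mul, h2, one_mul]
  have hx : x ≠ 0 := by
    rintro rfl
    apply hq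
    rw [heq, zero_mul]
  obtain ⟨W, hW⟩ := exists_eq v hx
  obtain ⟨η, hη⟩ := exists_eq v hq
  have hax : v (a * x) = ex W := by rw [map_mul, ha, one_mul, hW]
  have hxx : v (x ^ 2) = ex (2 • W) := eq_pow hW 2
  have h4y : v (4 * q) = ex η := by rw [map_mul, h4, one_mul, hη]
  -- `v (x3) = ex (2 • π - η)` where `π = log v (x² - b)`
  have key : ∀ {π : Additive Γ₀ˣ}, v (x ^ 2 - b) = ex π → v x3 = ex (2 • π - η) := by
    intro π hπ
    exact eq_of_mul_eq (by rw [hdbl]; exact eq_pow hπ 2) h4y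
  have key' : ∀ {π : Additive Γ₀ˣ}, v (x ^ 2 - b) ≤ ex π → v x3 ≤ ex (2 • π - η) := by
    intro π hπ
    exact le_of_mul_le (by rw [hdbl]; exact le_pow hπ 2) h4y
  -- `η = W + log v (x² + a x + b)`
  have hηeq : ∀ {g : Additive Γ₀ˣ}, v (x ^ 2 + a * x + b) = ex g → η = W + g := by
    intro g hg
    refine eq_unique hη ?_
    rw [heq]; exact eq_mul hW hg
  have hηle : ∀ {g : Additive Γ₀ˣ}, v (x ^ 2 + a * x + b) ≤ ex g → η ≤ W + g := by
    intro g hg
    refine le_of_eq_of_le hη ?_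
    rw [heq]; exact le_mul hW.le hg
  rcases le_or_gt 0 W with h0 | h0
  · -- P in E0
    have hn : nuG μ v x = 0 := nuG_of_ge hμ' (by rw [hW, ← ex_zero]; exact ex_le_ex.mpr h0)
    have hπ : v (x ^ 2 - b) = ex (2 • W) := eq_sub hxx (by rw [hb, ex_lt_ex]; grind)
    have hq : v (x ^ 2 + a * x + b) ≤ ex (2 • W) :=
      le_add (le_add hxx.le (le_mono hax.le (by grind))) (le_mono hb.le (by grind))
    have := hηle hq
    rw [hn, nuG_of_ge hμ' (by rw [key hπ, ← ex_zero, ex_le_ex]; grind)]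
    unfold plusG; grind
  rcases lt_trichotomy W μ with h1 | h1 | h1
  · -- W < μ
    have hn : nuG μ v x = μ := nuG_of_le hμ' (by rw [hW, ex_le_ex]; exact h1.le)
    have hπ : v (x ^ 2 - b) = ex μ := eq_sub' (by rw [hxx, ex_lt_ex]; grind) hb
    have hq : v (x ^ 2 + a * x + b) = ex μ :=
      eq_add' (lt_of_le_of_lt' (g := W) (le_add (le_mono hxx.le (by grind)) hax.le) h1) hb
    have := hηeq hq
    rw [hn, nuG_of_ge hμ' (by rw [key hπ, ← ex_zero, ex_le_ex]; grind)]
    unfold plusG; grind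
  · -- W = μ
    subst h1
    have hn : nuG W v x = W := nuG_of_le hμ' hW.le
    have hπ : v (x ^ 2 - b) = ex W := eq_sub' (by rw [hxx, ex_lt_ex]; grind) hb
    have hq : v (x ^ 2 + a * x + b) ≤ ex W :=
      le_add (le_add (le_mono hxx.le (by grind)) hax.le) hb.le
    have := hηle hq
    rw [hn, nuG_of_ge hμ' (by rw [key hπ, ← ex_zero, ex_le_ex]; grind)]
    unfold plusG; grind
  · -- μ < W < 0
    have hn : nuG μ v x = W := nuG_of_eq hW h1.le h0.le
    have hq : v (x ^ 2 + a * x + b) = ex W :=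
      eq_add (eq_add' (by rw [hxx, ex_lt_ex]; grind) hax) (by rw [hb, ex_lt_ex]; exact h1)
    have hη' := hηeq hq
    rcases lt_trichotomy (2 • W) μ with h3 | h3 | h3
    · have hπ : v (x ^ 2 - b) = ex μ := eq_sub' (by rw [hxx, ex_lt_ex]; exact h3) hb
      rw [hn, nuG_of_eq (key hπ) (by grind) (by grind)]
      unfold plusG; grind
    · have hπ : v (x ^ 2 - b) ≤ ex μ := le_sub (by rw [hxx, h3]) hb.le
      rw [hn, nuG_of_le hμ' (le_mono (key' hπ) (by grind))]
      unfold plusG; grind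
    · have hπ : v (x ^ 2 - b) = ex (2 • W) := eq_sub hxx (by rw [hb, ex_lt_ex]; exact h3)
      rw [hn, nuG_of_eq (key hπ) (by grind) (by grind)]
      unfold plusG; grind

/-- For a 2-torsion point (`y = 0`), `‖2 ν‖ = 0`. -/
theorem twoTorsionG {a b x : K} {μ : Additive Γ₀ˣ}
    (ha : v a = 1) (hb : v b = ex μ) (hμ : μ < 0)
    (heq : x * (x ^ 2 + a * x + b) = 0) :
    plusG μ (nuG μ v x) (nuG μ v x) = 0 := by
  have hμ' : μ ≤ 0 := hμ.le
  by_cases hx : x = 0
  · subst hx
    rw [nuG_of_le hμ' (by rw [map_zero]; exact zero_le)]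
    unfold plusG; grind
  have hq : x ^ 2 + a * x + b = 0 := (mul_eq_zero.mp heq).resolve_left hx
  obtain ⟨W, hW⟩ := exists_eq v hx
  have hax : v (a * x) = ex W := by rw [map_mul, ha, one_mul, hW]
  have hxx : v (x ^ 2) = ex (2 • W) := eq_pow hW 2
  have hcontra : ∀ {g : Additive Γ₀ˣ}, v (x ^ 2 + a * x + b) = ex g → False := by
    intro g hg
    exact ne_zero_of_eq hg hq
  rcases lt_trichotomy W 0 with h0 | h0 | h0
  · rcases lt_trichotomy W μ with h1 | h1 | h1
    · exact (hcontra (eq_add' (lt_of_le_of_lt' (g := W)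
        (le_add (le_mono hxx.le (by grind)) hax.le) h1) hb)).elim
    · subst h1
      rw [nuG_of_le hμ' hW.le]
      unfold plusG; grind
    · exact (hcontra (eq_add (eq_add' (by rw [hxx, ex_lt_ex]; grind) hax)
        (by rw [hb, ex_lt_ex]; exact h1))).elim
  · subst h0
    rw [nuG_of_ge hμ' (by rw [hW, ex_zero])]
    unfold plusG; grind
  · exact (hcontra (eq_add (eq_add hxx (by rw [hax, ex_lt_ex]; grind))
      (by rw [hb, ex_lt_ex]; grind))).elim

/-- Translation by the 2-torsion point `(0, 0)`: `x(P + T₀) = b / x(P)`. -/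
theorem translG {b x1 x3 : K} {μ : Additive Γ₀ˣ} (hb : v b = ex μ) (hμ : μ < 0)
    (h : x3 * x1 = b) : nuG μ v x3 = μ - nuG μ v x1 := by
  have hμ' : μ ≤ 0 := hμ.le
  have hb0 := ne_zero_of_eq hb
  rw [← h] at hb0
  obtain ⟨W3, hW3⟩ := exists_eq v (left_ne_zero_of_mul hb0)
  obtain ⟨W1, hW1⟩ := exists_eq v (right_ne_zero_of_mul hb0)
  have hs : W3 + W1 = μ := eq_unique (eq_mul hW3 hW1) (by rw [h]; exact hb)
  rcases le_or_gt 0 W1 with h0 | h0
  · rw [nuG_of_ge (x := x1) hμ' (by rw [hW1, ← ex_zero, ex_le_ex]; exact h0),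
      nuG_of_le (x := x3) hμ' (by rw [hW3, ex_le_ex]; grind)]
    grind
  rcases le_or_gt W1 μ with h1 | h1
  · rw [nuG_of_le (x := x1) hμ' (by rw [hW1, ex_le_ex]; exact h1),
      nuG_of_ge (x := x3) hμ' (by rw [hW3, ← ex_zero, ex_le_ex]; grind)]
    grind
  · rw [nuG_of_eq hW1 h1.le h0.le, nuG_of_eq hW3 (by grind) (by grind)]
    grind

end Pair

end Fermat.Agent.S05.NodeAlg
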