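/-
S05 / T6a: the pair law at a node, pure valued-field algebra, value-group (multiplicative)
statements.

Curve `y² = x³ + a x² + b x` over a valued field `(K, v)`, `v 2 = v a = 1`, `0 < v b < 1`
(so the reduction has a node at `(0,0)`), `M := v b`.

* `nu M v x = max (min (v x) 1) M`   (folded distance; `= 1` iff `1 ≤ v x`)
* `fold M t = max t (M² / t)`
* `pair_law`   : `{nu x3, nu x4} = {fold (n1 n2), min (n1/n2) (n2/n1)}` for the two roots
                 `x3, x4` of the addition–subtraction quadratic of `x1 ≠ x2`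
* `double_law` : `nu x(2P) = fold (n n)`
* `two_torsion`: `fold (n n) = 1` if `x (x² + a x + b) = 0`
* `transl_law` : `nu (b / x) = M / nu x`
-/
import Fermat.Agent.S05.NodeAlgPair

set_option autoImplicit false

namespace Fermat.Agent.S05.NodeAlg

variable {Γ₀ : Type*} [LinearOrderedCommGroupWithZero Γ₀]
variable {K : Type*} [Field K]

/-- The folded distance to the identity component: `v x` clamped to `[M, 1]`. -/
def nu (M : Γ₀) (v : Valuation K Γ₀) (x : K) : Γ₀ := max (min (v x) 1) M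

/-- `fold M t = max t (M² / t)`: the representative of `t` modulo `(M²)^ℤ` and inversion. -/
def fold (M t : Γ₀) : Γ₀ := max t (M ^ 2 / t)

variable {M : Γ₀} {v : Valuation K Γ₀}

theorem le_nu (x : K) : M ≤ nu M v x := le_max_right _ _

theorem nu_le_one (hM : M ≤ 1) (x : K) : nu M v x ≤ 1 := max_le (min_le_right _ _) hM

theorem nu_ne_zero (hM : M ≠ 0) (x : K) : nu M v x ≠ 0 :=
  (lt_of_lt_of_le (zero_lt_iff.mpr hM) (le_nu x)).ne'

theorem nu_of_one_le (hM : M ≤ 1) {x : K} (hx : 1 ≤ v x) : nu M v x = 1 := by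
  unfold nu; rw [min_eq_right hx, max_eq_left hM]

theorem nu_of_le (hM : M ≤ 1) {x : K} (hx : v x ≤ M) : nu M v x = M := by
  unfold nu; rw [min_eq_left (hx.trans hM), max_eq_right hx]

theorem nu_of_mem {x : K} (h1 : M ≤ v x) (h2 : v x ≤ 1) : nu M v x = v x := by
  unfold nu; rw [min_eq_left h2, max_eq_left h1]

theorem nu_eq_one_iff (hM : M < 1) {x : K} : nu M v x = 1 ↔ 1 ≤ v x := by
  refine ⟨fun h => ?_, nu_of_one_le hM.le⟩
  by_contra hx
  rw [not_le] at hx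
  unfold nu at h
  rw [min_eq_left hx.le] at h
  exact absurd h (max_lt hx hM).ne

theorem nu_zero (hM : M ≤ 1) : nu M v (0 : K) = M :=
  nu_of_le hM (by rw [map_zero]; exact zero_le)

theorem fold_eq_or (M t : Γ₀) : fold M t = t ∨ fold M t = M ^ 2 / t := by
  unfold fold
  rcases le_total t (M ^ 2 / t) with h | h
  · right; exact max_eq_right h
  · left; exact max_eq_left h

theorem nu_eq_ex {μ : Additive Γ₀ˣ} (hμ : μ ≤ 0) (x : K) : nu (ex μ) v x = ex (nuG μ v x) := by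
  have hM : ex μ ≤ 1 := by rw [← ex_zero]; exact ex_le_ex.mpr hμ
  rcases le_or_gt 1 (v x) with h | h
  · rw [nu_of_one_le hM h, nuG_of_ge hμ h, ex_zero]
  rcases le_or_gt (v x) (ex μ) with h' | h'
  · rw [nu_of_le hM h', nuG_of_le hμ h']
  · have hx0 : x ≠ 0 := by
      rintro rfl
      rw [map_zero] at h'
      exact not_lt_zero h'
    obtain ⟨g, hg⟩ := exists_eq v hx0
    rw [nu_of_mem h'.le h.le]
    rw [hg, ← ex_zero, ex_lt_ex] at h
    rw [hg, ex_lt_ex] at h'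
    rw [nuG_of_eq hg h'.le h.le, hg]

theorem fold_ex (μ g : Additive Γ₀ˣ) :
    fold (ex μ) (ex g) = ex (max g (2 • μ - g)) := by
  unfold fold
  rw [ex_max, ex_sub, ex_nsmul]

theorem plus_ex (μ g1 g2 : Additive Γ₀ˣ) :
    ex (plusG μ g1 g2) = fold (ex μ) (ex g1 * ex g2) := by
  rw [← ex_add, fold_ex]; rfl

theorem minus_ex (g1 g2 : Additive Γ₀ˣ) :
    ex (minusG g1 g2) = min (ex g1 / ex g2) (ex g2 / ex g1) := by
  unfold minusG
  rw [ex_min, ex_sub, ex_sub]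

/-- **Pair law.** For the curve `y² = x³ + a x² + b x` with `v 2 = v a = 1`, `0 < v b < 1`:
if `x3, x4` are the two roots of the addition–subtraction quadratic attached to `x1 ≠ x2`
(i.e. `x3 = x(P+Q)`, `x4 = x(P-Q)`), then the unordered pair `{nu x3, nu x4}` is
`{fold (n1 n2), min (n1/n2) (n2/n1)}`. -/
theorem pair_law {a b x1 x2 x3 x4 : K}
    (h2 : v 2 = 1) (ha : v a = 1) (hb0 : b ≠ 0) (hb1 : v b < 1)
    (hne : x1 ≠ x2)
    (hprod : x3 * x4 * (x1 - x2) ^ 2 = (x1 * x2 - b) ^ 2)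
    (hsum : (x3 + x4) * (x1 - x2) ^ 2 = 2 * ((x1 + x2) * (x1 * x2 + b) + 2 * a * x1 * x2)) :
    (nu (v b) v x3 = fold (v b) (nu (v b) v x1 * nu (v b) v x2) ∧
      nu (v b) v x4 = min (nu (v b) v x1 / nu (v b) v x2) (nu (v b) v x2 / nu (v b) v x1)) ∨
    (nu (v b) v x3 = min (nu (v b) v x1 / nu (v b) v x2) (nu (v b) v x2 / nu (v b) v x1) ∧
      nu (v b) v x4 = fold (v b) (nu (v b) v x1 * nu (v b) v x2)) := by
  obtain ⟨μ, hμ⟩ := exists_eq v hb0
  have hμ0 : μ < 0 := by rwa [hμ, ← ex_zero, ex_lt_ex] at hb1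
  have key := pairG h2 ha hμ hμ0 hne hprod hsum
  rw [hμ]
  simp only [nu_eq_ex hμ0.le, ← plus_ex, ← minus_ex]
  rcases key with ⟨h3, h4⟩ | ⟨h3, h4⟩
  · left; rw [h3, h4]; exact ⟨rfl, rfl⟩
  · right; rw [h3, h4]; exact ⟨rfl, rfl⟩

/-- Corollary of the pair law used in the multiplicative case: if `nu x1 = nu x2` then one of
the two roots is "big". -/
theorem pair_law_eq {a b x1 x2 x3 x4 : K}
    (h2 : v 2 = 1) (ha : v a = 1) (hb0 : b ≠ 0) (hb1 : v b < 1)
    (hne : x1 ≠ x2)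
    (hprod : x3 * x4 * (x1 - x2) ^ 2 = (x1 * x2 - b) ^ 2)
    (hsum : (x3 + x4) * (x1 - x2) ^ 2 = 2 * ((x1 + x2) * (x1 * x2 + b) + 2 * a * x1 * x2))
    (hn : nu (v b) v x1 = nu (v b) v x2) : 1 ≤ v x3 ∨ 1 ≤ v x4 := by
  have hM0 : v b ≠ 0 := (Valuation.ne_zero_iff v).mpr hb0
  have h1 : min (nu (v b) v x1 / nu (v b) v x2) (nu (v b) v x2 / nu (v b) v x1) = 1 := by
    rw [hn, div_self (nu_ne_zero hM0 x2), min_self]
  rcases pair_law h2 ha hb0 hb1 hne hprod hsum with ⟨_, h4⟩ | ⟨h3, _⟩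
  · right; rw [h1] at h4; exact (nu_eq_one_iff hb1).mp h4
  · left; rw [h1] at h3; exact (nu_eq_one_iff hb1).mp h3

/-- **Doubling law.** `x3 = x(2P)` for `P = (x, y)` with `y² = x (x² + a x + b) ≠ 0`. -/
theorem double_law {a b x x3 : K}
    (h2 : v 2 = 1) (ha : v a = 1) (hb0 : b ≠ 0) (hb1 : v b < 1)
    (hq : x * (x ^ 2 + a * x + b) ≠ 0)
    (hdbl : x3 * (4 * (x * (x ^ 2 + a * x + b))) = (x ^ 2 - b) ^ 2) :
    nu (v b) v x3 = fold (v b) (nu (v b) v x * nu (v b) v x) := by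
  obtain ⟨μ, hμ⟩ := exists_eq v hb0
  have hμ0 : μ < 0 := by rwa [hμ, ← ex_zero, ex_lt_ex] at hb1
  have key := doubleG h2 ha hμ hμ0 hq rfl hdbl
  rw [hμ]
  simp only [nu_eq_ex hμ0.le, ← plus_ex]
  rw [key]

/-- For a 2-torsion point (`y = 0`): `fold (n n) = 1`. -/
theorem two_torsion {a b x : K} (ha : v a = 1) (hb0 : b ≠ 0) (hb1 : v b < 1)
    (hq : x * (x ^ 2 + a * x + b) = 0) :
    fold (v b) (nu (v b) v x * nu (v b) v x) = 1 := by
  obtain ⟨μ, hμ⟩ := exists_eq v hb0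
  have hμ0 : μ < 0 := by rwa [hμ, ← ex_zero, ex_lt_ex] at hb1
  have key := twoTorsionG ha hμ hμ0 hq
  rw [hμ]
  simp only [nu_eq_ex hμ0.le, ← plus_ex]
  rw [key, ex_zero]

/-- **Translation by `T₀ = (0,0)`**: `x(P + T₀) = b / x(P)`, and `nu` is inverted. -/
theorem transl_law {b x1 x3 : K} (hb0 : b ≠ 0) (hb1 : v b < 1) (h : x3 * x1 = b) :
    nu (v b) v x3 = v b / nu (v b) v x1 := by
  obtain ⟨μ, hμ⟩ := exists_eq v hb0
  have hμ0 : μ < 0 := by rwa [hμ, ← ex_zero, ex_lt_ex] at hb1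
  have key := translG hμ hμ0 h
  rw [hμ]
  simp only [nu_eq_ex hμ0.le]
  rw [key, ex_sub]

/-- Translation by `T₀`, the case used in the multiplicative case: `v x1 ≤ v b` gives
`1 ≤ v x3`. -/
theorem transl_big {b x1 x3 : K} (hb0 : b ≠ 0) (h : x3 * x1 = b) (hx1 : v x1 ≤ v b) :
    1 ≤ v x3 := by
  have hx10 : x1 ≠ 0 := by
    rintro rfl
    rw [mul_zero] at h
    exact hb0 h.symm
  have hpos : 0 < v x1 := zero_lt_iff.mpr ((Valuation.ne_zero_iff v).mpr hx10)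
  have : v x3 * v x1 = v b := by rw [← map_mul, h]
  by_contra hlt
  rw [not_le] at hlt
  have : v x3 * v x1 < v b := by
    calc v x3 * v x1 < 1 * v x1 := mul_lt_mul_of_pos_right hlt hpos
      _ = v x1 := one_mul _
      _ ≤ v b := hx1
  exact absurd ‹v x3 * v x1 = v b› this.ne

end Fermat.Agent.S05.NodeAlg
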