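/-
S05 project: abstract additive `ℚ`-valued valuation `ord` attached to a valuation subring,
with the API needed for Newton-polygon style case analysis (`linarith`-friendly).
-/
import Fermat.Agent.S05.Basic

set_option autoImplicit false

namespace Fermat.Agent.S05

variable {K : Type*} [Field K]

/-- `ord : K → ℚ` is an additive valuation whose valuation ring is `A`
(the value at `0` is junk). -/
structure IsOrd (A : ValuationSubring K) (ord : K → ℚ) : Prop where
  map_mul : ∀ {x y : K}, x ≠ 0 → y ≠ 0 → ord (x * y) = ord x + ord y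
  nonneg_iff : ∀ {x : K}, x ≠ 0 → (0 ≤ ord x ↔ x ∈ A)

namespace IsOrd

variable {A : ValuationSubring K} {ord : K → ℚ} (h : IsOrd A ord)
include h

lemma map_one : ord 1 = 0 := by
  have := h.map_mul (one_ne_zero) (one_ne_zero)
  rw [mul_one] at this
  linarith

lemma map_inv {x : K} (hx : x ≠ 0) : ord x⁻¹ = -ord x := by
  have := h.map_mul hx (inv_ne_zero hx)
  rw [mul_inv_cancel₀ hx, h.map_one] at this
  linarith

lemma map_div {x y : K} (hx : x ≠ 0) (hy : y ≠ 0) : ord (x / y) = ord x - ord y := by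
  rw [div_eq_mul_inv, h.map_mul hx (inv_ne_zero hy), h.map_inv hy]
  ring

lemma map_pow {x : K} (hx : x ≠ 0) (n : ℕ) : ord (x ^ n) = n * ord x := by
  induction n with
  | zero => simp [h.map_one]
  | succ n ih =>
    rw [pow_succ, h.map_mul (pow_ne_zero n hx) hx, ih]
    push_cast
    ring

lemma map_neg_one : ord (-1) = 0 := by
  have := h.map_mul (neg_ne_zero.mpr one_ne_zero) (neg_ne_zero.mpr (one_ne_zero (α := K)))
  rw [neg_mul_neg, mul_one, h.map_one] at this
  linarith

lemma map_neg (x : K) : ord (-x) = ord x := by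
  by_cases hx : x = 0
  · simp [hx]
  · rw [← neg_one_mul, h.map_mul (neg_ne_zero.mpr one_ne_zero) hx, h.map_neg_one, zero_add]

lemma map_sub_comm (x y : K) : ord (x - y) = ord (y - x) := by
  rw [← h.map_neg (x - y), neg_sub]

lemma pos_iff {x : K} (hx : x ≠ 0) : 0 < ord x ↔ x ∈ A.nonunits := by
  rw [ValuationSubring.mem_nonunits_iff_or]
  simp only [hx, false_or]
  rw [← h.nonneg_iff (inv_ne_zero hx), h.map_inv hx]
  constructor
  · intro h1 h2; linarith
  · intro h1; by_contra h2; apply h1; linarith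

lemma neg_iff {x : K} (hx : x ≠ 0) : ord x < 0 ↔ x ∉ A := by
  rw [← h.nonneg_iff hx, not_le]

lemma eq_zero_iff {x : K} (hx : x ≠ 0) : ord x = 0 ↔ x ∈ A ∧ x ∉ A.nonunits := by
  rw [← h.nonneg_iff hx, ← h.pos_iff hx]
  constructor
  · intro h0; exact ⟨h0.ge, by linarith⟩
  · rintro ⟨h1, h2⟩; linarith

/-- The ultrametric inequality. -/
lemma map_add_ge {x y : K} (hx : x ≠ 0) (hy : y ≠ 0) (hxy : x + y ≠ 0) :
    min (ord x) (ord y) ≤ ord (x + y) := by
  wlog hle : ord x ≤ ord y generalizing x y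
  · have := this hy hx (by rwa [add_comm]) (le_of_not_ge hle)
    rwa [min_comm, add_comm]
  rw [min_eq_left hle]
  have h1 : y / x ∈ A := by
    rw [← h.nonneg_iff (div_ne_zero hy hx), h.map_div hy hx]; linarith
  have h2 : 1 + y / x ∈ A := A.add_mem _ _ A.one_mem h1
  have h3 : 1 + y / x ≠ 0 := by
    intro h0
    apply hxy
    have : x + y = x * (1 + y / x) := by field_simp
    rw [this, h0, mul_zero]
  have h4 := (h.nonneg_iff h3).mpr h2
  have h5 : x + y = x * (1 + y / x) := by field_simp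
  rw [h5, h.map_mul hx h3]
  linarith

lemma map_add_eq_of_lt {x y : K} (hx : x ≠ 0) (hlt : ord x < ord y) :
    ord (x + y) = ord x := by
  by_cases hy : y = 0
  · simp [hy]
  have hxy : x + y ≠ 0 := by
    intro h0
    have : y = -x := by linear_combination h0
    rw [this, h.map_neg] at hlt
    exact lt_irrefl _ hlt
  apply le_antisymm
  · by_contra hcon
    rw [not_le] at hcon
    have h1 : min (ord (x + y)) (ord (-y)) ≤ ord (x + y + -y) :=
      h.map_add_ge hxy (neg_ne_zero.mpr hy) (by simpa using hx)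
    rw [add_neg_cancel_right, h.map_neg] at h1
    rcases min_le_iff.mp h1 with h2 | h2 <;> linarith
  · have := h.map_add_ge hx hy hxy
    rwa [min_eq_left hlt.le] at this

lemma map_add_eq_of_lt' {x y : K} (hy : y ≠ 0) (hlt : ord y < ord x) :
    ord (x + y) = ord y := by
  rw [add_comm]; exact h.map_add_eq_of_lt hy hlt

lemma map_sub_ge {x y : K} (hx : x ≠ 0) (hy : y ≠ 0) (hxy : x - y ≠ 0) :
    min (ord x) (ord y) ≤ ord (x - y) := by
  have := h.map_add_ge hx (neg_ne_zero.mpr hy) (by rwa [← sub_eq_add_neg])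
  rwa [h.map_neg, ← sub_eq_add_neg] at this

lemma map_sub_eq_of_lt {x y : K} (hx : x ≠ 0) (hlt : ord x < ord y) :
    ord (x - y) = ord x := by
  rw [sub_eq_add_neg]
  exact h.map_add_eq_of_lt hx (by rwa [h.map_neg])

lemma map_sub_eq_of_lt' {x y : K} (hy : y ≠ 0) (hlt : ord y < ord x) :
    ord (x - y) = ord y := by
  rw [h.map_sub_comm]
  exact h.map_sub_eq_of_lt hy hlt

/-- `0 ≤ ord x` for nonzero `x ∈ A`. -/
lemma nonneg_of_mem {x : K} (hx : x ≠ 0) (hxA : x ∈ A) : 0 ≤ ord x := (h.nonneg_iff hx).mpr hxA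

/-- comparison with the multiplicative valuation of `A`. -/
lemma le_iff_valuation_le {x y : K} (hx : x ≠ 0) (hy : y ≠ 0) :
    ord x ≤ ord y ↔ A.valuation y ≤ A.valuation x := by
  have h1 : ord x ≤ ord y ↔ 0 ≤ ord (y / x) := by rw [h.map_div hy hx]; constructor <;> intro <;> linarith
  rw [h1, h.nonneg_iff (div_ne_zero hy hx), ← A.valuation_le_one_iff, map_div₀]
  have hvx : A.valuation x ≠ 0 := (Valuation.ne_zero_iff _).mpr hx
  rw [div_le_one₀ (zero_lt_iff.mpr hvx)]

end IsOrd

end Fermat.Agent.S05
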